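import Mathlib
import Fermat.Agent.MUL.Orig.E.S12.VeluSpec
import Fermat.Agent.MUL.Orig.Lib.Torsion.Ladder
import Fermat.Agent.MUL.Orig.Lib.Torsion.LadderDegree
import Fermat.Agent.MUL.Orig.E.S12.Leaves
import Fermat.Agent.MUL.Lib.Torsion.Card
import Fermat.Agent.MUL.Orig.Lib.Torsion.Reduced
import Fermat.Agent.MUL.E.S12.StepAux

section MergeWrap_E_S12_Uniq_Moebius -- from E/S12/Uniq/Moebius.lean

set_option autoImplicit false
set_option linter.unusedSectionVars false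

open Polynomial

namespace Fermat.Agent.EU

variable {k : Type*} [Field k]

/-- two coprime polynomials have no common zero -/
theorem moeb_not_both_zero {P Q : k[X]} (h : IsCoprime P Q) (x : k) (hP : P.eval x = 0)
    (hQ : Q.eval x = 0) : False := by
  obtain ⟨u, v, huv⟩ := h
  have := congrArg (eval x) huv
  simp [hP, hQ] at this

/-- the Wronskian of two coprime polynomials, not both constant, is nonzero (char. `0`) -/
theorem moeb_wronskian_ne_zero [CharZero k] {P Q : k[X]} (h : IsCoprime P Q)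
    (hnc : ¬ (P.natDegree = 0 ∧ Q.natDegree = 0)) :
    P * derivative Q - derivative P * Q ≠ 0 := by
  intro h0
  have h1 : P * derivative Q = derivative P * Q := sub_eq_zero.mp h0
  have hP : P ∣ derivative P := h.dvd_of_dvd_mul_right ⟨derivative Q, h1.symm⟩
  have hQ : Q ∣ derivative Q := by
    refine h.symm.dvd_of_dvd_mul_right (y := derivative Q) (z := P) ⟨derivative P, ?_⟩
    rw [mul_comm, h1, mul_comm]
  apply hnc
  constructor
  · by_contra hd
    have := eq_zero_of_dvd_of_natDegree_lt hP (natDegree_derivative_lt hd)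
    exact hd (Polynomial.derivative_eq_zero.mp this)
  · by_contra hd
    have := eq_zero_of_dvd_of_natDegree_lt hQ (natDegree_derivative_lt hd)
    exact hd (Polynomial.derivative_eq_zero.mp this)

/-- if the coefficients of index `max (deg P) (deg Q)` of `P` and `Q` vanish, then `P = Q = 0` -/
theorem moeb_eq_zero_of_coeff_max {P Q : k[X]}
    (hP : P.coeff (max P.natDegree Q.natDegree) = 0)
    (hQ : Q.coeff (max P.natDegree Q.natDegree) = 0) : P = 0 ∧ Q = 0 := by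
  rcases le_total Q.natDegree P.natDegree with hle | hle
  · rw [max_eq_left hle] at hP hQ
    have hP0 : P = 0 := leadingCoeff_eq_zero.mp hP
    subst hP0
    rw [natDegree_zero] at hle hQ
    have hQd : Q.natDegree = 0 := Nat.le_zero.mp hle
    refine ⟨rfl, ?_⟩
    rw [eq_C_of_natDegree_eq_zero hQd, hQ, C_0]
  · rw [max_eq_right hle] at hP hQ
    have hQ0 : Q = 0 := leadingCoeff_eq_zero.mp hQ
    subst hQ0
    rw [natDegree_zero] at hle hP
    have hPd : P.natDegree = 0 := Nat.le_zero.mp hle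
    refine ⟨?_, rfl⟩
    rw [eq_C_of_natDegree_eq_zero hPd, hP, C_0]

/-- reduction to lowest terms -/
theorem moeb_exists_coprime (P Q : k[X]) (hQ : Q ≠ 0) :
    ∃ g P' Q' : k[X], P = g * P' ∧ Q = g * Q' ∧ IsCoprime P' Q' := by
  classical
  refine ⟨GCDMonoid.gcd P Q, P / GCDMonoid.gcd P Q, Q / GCDMonoid.gcd P Q, ?_, ?_,
    isCoprime_div_gcd_div_gcd hQ⟩
  · exact (EuclideanDomain.mul_div_cancel' (gcd_ne_zero_of_right hQ) (gcd_dvd_left _ _)).symm
  · exact (EuclideanDomain.mul_div_cancel' (gcd_ne_zero_of_right hQ) (gcd_dvd_right _ _)).symm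

section main

variable [IsAlgClosed k] [CharZero k]

/-- the hypotheses of the Moebius lemma (one direction) -/
structure MoebData (P₁ Q₁ P₂ Q₂ : k[X]) (G : Set k) (f : k → k) : Prop where
  cop₁ : IsCoprime P₁ Q₁
  cop₂ : IsCoprime P₂ Q₂
  cofinite : Gᶜ.Finite
  inj : Function.Injective f
  den₁ : ∀ x ∈ G, Q₁.eval x ≠ 0
  den₂ : ∀ x ∈ G, Q₂.eval x ≠ 0
  rel : ∀ x ∈ G, f (P₁.eval x / Q₁.eval x) = P₂.eval x / Q₂.eval x
  surj : ∀ c : k, ∃ x ∈ G, P₁.eval x / Q₁.eval x = c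

variable {P₁ Q₁ P₂ Q₂ : k[X]} {G : Set k} {f : k → k}

theorem MoebData.not_const₁ (h : MoebData P₁ Q₁ P₂ Q₂ G f) :
    ¬ (P₁.natDegree = 0 ∧ Q₁.natDegree = 0) := by
  rintro ⟨hP, hQ⟩
  obtain ⟨x₀, -, h0⟩ := h.surj 0
  obtain ⟨x₁, -, h1⟩ := h.surj 1
  rw [eq_C_of_natDegree_eq_zero hP, eq_C_of_natDegree_eq_zero hQ] at h0 h1
  simp only [eval_C] at h0 h1
  exact zero_ne_one (h0.symm.trans h1)

theorem MoebData.ne_zero₂ (h : MoebData P₁ Q₁ P₂ Q₂ G f) (e : k) : P₂ - C e * Q₂ ≠ 0 := by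
  intro h0
  have hP : P₂ = C e * Q₂ := sub_eq_zero.mp h0
  obtain ⟨x₀, hx₀, h0'⟩ := h.surj 0
  obtain ⟨x₁, hx₁, h1'⟩ := h.surj 1
  have e0 := h.rel x₀ hx₀
  have e1 := h.rel x₁ hx₁
  rw [h0', hP, eval_mul, eval_C, mul_div_assoc, div_self (h.den₂ x₀ hx₀), mul_one] at e0
  rw [h1', hP, eval_mul, eval_C, mul_div_assoc, div_self (h.den₂ x₁ hx₁), mul_one] at e1
  exact zero_ne_one (h.inj (e0.trans e1.symm))

/-- the exceptional set of the Moebius lemma -/
def moebExc (P₁ Q₁ : k[X]) (G : Set k) : Set k :=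
  (fun x => P₁.eval x / Q₁.eval x) ''
      (Gᶜ ∪ {x | (P₁ * derivative Q₁ - derivative P₁ * Q₁).IsRoot x}) ∪
    {P₁.coeff (max P₁.natDegree Q₁.natDegree) / Q₁.coeff (max P₁.natDegree Q₁.natDegree)}

theorem MoebData.finite_exc (h : MoebData P₁ Q₁ P₂ Q₂ G f) : (moebExc P₁ Q₁ G).Finite := by
  unfold moebExc
  refine Set.Finite.union (Set.Finite.image _ (Set.Finite.union h.cofinite ?_))
    (Set.finite_singleton _)
  exact Polynomial.finite_setOfPred_isRoot (moeb_wronskian_ne_zero h.cop₁ h.not_const₁)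

/-- a root of `P₁ - c Q₁`, `c` not exceptional, is a good point with `P₁/Q₁ = c` where the
Wronskian does not vanish -/
theorem MoebData.root_spec (h : MoebData P₁ Q₁ P₂ Q₂ G f) {c : k} (hc : c ∉ moebExc P₁ Q₁ G)
    {x : k} (hx : (P₁ - C c * Q₁).eval x = 0) :
    x ∈ G ∧ Q₁.eval x ≠ 0 ∧ P₁.eval x / Q₁.eval x = c ∧
      (P₁ * derivative Q₁ - derivative P₁ * Q₁).eval x ≠ 0 := by
  rw [eval_sub, eval_mul, eval_C, sub_eq_zero] at hx
  have hQ : Q₁.eval x ≠ 0 := by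
    intro hQ0
    rw [hQ0, mul_zero] at hx
    exact moeb_not_both_zero h.cop₁ x hx hQ0
  have hR : P₁.eval x / Q₁.eval x = c := by
    rw [hx, mul_div_assoc, div_self hQ, mul_one]
  refine ⟨?_, hQ, hR, ?_⟩
  · by_contra hxG
    exact hc (Or.inl ⟨x, Or.inl hxG, hR⟩)
  · intro hW
    exact hc (Or.inl ⟨x, Or.inr hW, hR⟩)

theorem MoebData.separable (h : MoebData P₁ Q₁ P₂ Q₂ G f) {c : k} (hc : c ∉ moebExc P₁ Q₁ G) :
    (P₁ - C c * Q₁).Separable := by
  rw [separable_def, isCoprime_iff_aeval_ne_zero_of_isAlgClosed k k]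
  intro a
  by_contra hcon
  push Not at hcon
  obtain ⟨h1, h2⟩ := hcon
  rw [coe_aeval_eq_eval] at h1 h2
  obtain ⟨-, -, -, hW⟩ := h.root_spec hc h1
  apply hW
  have e1 : P₁.eval a = c * Q₁.eval a := by
    have := h1
    rw [eval_sub, eval_mul, eval_C, sub_eq_zero] at this
    exact this
  have e2 : (derivative P₁).eval a = c * (derivative Q₁).eval a := by
    have := h2
    rw [derivative_sub, derivative_C_mul, eval_sub, eval_mul, eval_C, sub_eq_zero] at this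
    exact this
  rw [eval_sub, eval_mul, eval_mul, e1, e2]
  ring

theorem MoebData.natDegree_eq (h : MoebData P₁ Q₁ P₂ Q₂ G f) {c : k}
    (hc : c ∉ moebExc P₁ Q₁ G) :
    (P₁ - C c * Q₁).natDegree = max P₁.natDegree Q₁.natDegree := by
  apply le_antisymm
  · exact (natDegree_sub_le _ _).trans (max_le_max le_rfl (natDegree_C_mul_le _ _))
  · apply le_natDegree_of_ne_zero
    rw [coeff_sub, coeff_C_mul]
    set m := max P₁.natDegree Q₁.natDegree with hm
    intro h0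
    have h0' : P₁.coeff m = c * Q₁.coeff m := sub_eq_zero.mp h0
    by_cases hQ : Q₁.coeff m = 0
    · rw [hQ, mul_zero] at h0'
      obtain ⟨hP0, hQ0⟩ := moeb_eq_zero_of_coeff_max h0' hQ
      have := h.cop₁
      rw [hP0, hQ0] at this
      exact not_isCoprime_zero_zero this
    · apply hc
      right
      rw [Set.mem_singleton_iff, h0', mul_div_assoc, div_self hQ, mul_one]

/-- **divisibility**: for `c` not exceptional, `P₁ - c Q₁` divides `P₂ - f(c) Q₂`. -/
theorem MoebData.dvd (h : MoebData P₁ Q₁ P₂ Q₂ G f) {c : k} (hc : c ∉ moebExc P₁ Q₁ G) :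
    (P₁ - C c * Q₁) ∣ (P₂ - C (f c) * Q₂) := by
  have hsep := h.separable hc
  refine Splits.dvd_of_roots_le_roots (IsAlgClosed.splits _) hsep.ne_zero ?_
  rw [Multiset.le_iff_subset (nodup_roots hsep)]
  intro x hx
  rw [mem_roots hsep.ne_zero, IsRoot.def] at hx
  obtain ⟨hxG, hQ, hR, -⟩ := h.root_spec hc hx
  rw [mem_roots (h.ne_zero₂ (f c)), IsRoot.def, eval_sub, eval_mul, eval_C, ← hR, h.rel x hxG,
    div_mul_cancel₀ _ (h.den₂ x hxG), sub_self]

theorem MoebData.exists_not_mem_exc (h : MoebData P₁ Q₁ P₂ Q₂ G f) (T : Set k) (hT : T.Finite) :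
    ∃ c : k, c ∉ moebExc P₁ Q₁ G ∧ c ∉ T := by
  have hfin : (moebExc P₁ Q₁ G ∪ T).Finite := h.finite_exc.union hT
  obtain ⟨c, hc⟩ := hfin.exists_notMem
  exact ⟨c, fun h1 => hc (Or.inl h1), fun h2 => hc (Or.inr h2)⟩

/-- the degree inequality `deg (P₁/Q₁) ≤ deg (P₂/Q₂)` -/
theorem MoebData.degree_le (h : MoebData P₁ Q₁ P₂ Q₂ G f) :
    max P₁.natDegree Q₁.natDegree ≤ max P₂.natDegree Q₂.natDegree := by
  obtain ⟨c, hc, -⟩ := h.exists_not_mem_exc ∅ Set.finite_empty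
  rw [← h.natDegree_eq hc]
  refine (natDegree_le_of_dvd (h.dvd hc) (h.ne_zero₂ (f c))).trans ?_
  exact (natDegree_sub_le _ _).trans (max_le_max le_rfl (natDegree_C_mul_le _ _))

/-- the symmetric data, for the inverse of `f` -/
theorem MoebData.symm (h : MoebData P₁ Q₁ P₂ Q₂ G f) {g : k → k}
    (hgf : Function.LeftInverse g f) (hfg : Function.RightInverse g f) :
    MoebData P₂ Q₂ P₁ Q₁ G g where
  cop₁ := h.cop₂
  cop₂ := h.cop₁
  cofinite := h.cofinite
  inj := hfg.injective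
  den₁ := h.den₂
  den₂ := h.den₁
  rel := fun x hx => by rw [← h.rel x hx, hgf]
  surj := fun e => by
    obtain ⟨x, hx, hxc⟩ := h.surj (g e)
    refine ⟨x, hx, ?_⟩
    rw [← h.rel x hx, hxc, hfg]

/-- for `c` not exceptional, `P₂ - f(c) Q₂` is a constant multiple of `P₁ - c Q₁` -/
theorem MoebData.exists_eq_C_mul (h : MoebData P₁ Q₁ P₂ Q₂ G f)
    (hdeg : max P₂.natDegree Q₂.natDegree ≤ max P₁.natDegree Q₁.natDegree) {c : k}
    (hc : c ∉ moebExc P₁ Q₁ G) :
    ∃ l : k, P₂ - C (f c) * Q₂ = C l * (P₁ - C c * Q₁) := by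
  obtain ⟨r, hr⟩ := h.dvd hc
  have hq0 := h.ne_zero₂ (f c)
  have hp0 : P₁ - C c * Q₁ ≠ 0 := (h.separable hc).ne_zero
  have hr0 : r ≠ 0 := by
    rintro rfl
    rw [mul_zero] at hr
    exact hq0 hr
  have hd : (P₂ - C (f c) * Q₂).natDegree = (P₁ - C c * Q₁).natDegree + r.natDegree := by
    rw [hr, natDegree_mul hp0 hr0]
  have hle : (P₂ - C (f c) * Q₂).natDegree ≤ max P₂.natDegree Q₂.natDegree :=
    (natDegree_sub_le _ _).trans (max_le_max le_rfl (natDegree_C_mul_le _ _))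
  have hrd : r.natDegree = 0 := by
    have := h.natDegree_eq hc
    omega
  refine ⟨r.coeff 0, ?_⟩
  rw [hr, mul_comm]
  congr 1
  exact eq_C_of_natDegree_eq_zero hrd

/-- **the Moebius lemma, coprime case**: `P₂`, `Q₂` are linear combinations of `P₁`, `Q₁`. -/
theorem MoebData.exists_linear (h : MoebData P₁ Q₁ P₂ Q₂ G f) (hf : Function.Surjective f) :
    ∃ α β γ δ : k, P₂ = C α * P₁ + C β * Q₁ ∧ Q₂ = C γ * P₁ + C δ * Q₁ := by
  have hbij : Function.Bijective f := ⟨h.inj, hf⟩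
  obtain ⟨g, hgf, hfg⟩ := Function.bijective_iff_has_inverse.mp hbij
  have hdeg := (h.symm hgf hfg).degree_le
  obtain ⟨c₁, hc₁, -⟩ := h.exists_not_mem_exc ∅ Set.finite_empty
  obtain ⟨c₂, hc₂, hc₁₂⟩ := h.exists_not_mem_exc {c₁} (Set.finite_singleton c₁)
  have hne : c₂ ≠ c₁ := hc₁₂
  obtain ⟨l₁, e₁⟩ := h.exists_eq_C_mul hdeg hc₁
  obtain ⟨l₂, e₂⟩ := h.exists_eq_C_mul hdeg hc₂
  have hε : f c₂ - f c₁ ≠ 0 := sub_ne_zero.mpr fun h0 => hne (h.inj h0)
  set ε := f c₂ - f c₁ with hεdef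
  have hCε : C ε⁻¹ * C ε = (1 : k[X]) := by
    rw [← C_mul, inv_mul_cancel₀ hε, C_1]
  -- `Q₂`
  have hQ : C ε * Q₂ = C (l₁ - l₂) * P₁ + C (l₂ * c₂ - l₁ * c₁) * Q₁ := by
    simp only [hεdef, C_sub, C_mul]
    linear_combination e₁ - e₂
  have hQ' : Q₂ = C (ε⁻¹ * (l₁ - l₂)) * P₁ + C (ε⁻¹ * (l₂ * c₂ - l₁ * c₁)) * Q₁ := by
    have : Q₂ = C ε⁻¹ * (C ε * Q₂) := by rw [← mul_assoc, hCε, one_mul]
    rw [this, hQ]
    simp only [C_mul]
    ring
  refine ⟨l₁ + f c₁ * (ε⁻¹ * (l₁ - l₂)), f c₁ * (ε⁻¹ * (l₂ * c₂ - l₁ * c₁)) - l₁ * c₁,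
    ε⁻¹ * (l₁ - l₂), ε⁻¹ * (l₂ * c₂ - l₁ * c₁), ?_, hQ'⟩
  have hP : P₂ = C l₁ * (P₁ - C c₁ * Q₁) + C (f c₁) * Q₂ := by
    rw [← e₁]
    ring
  rw [hP]
  nth_rewrite 1 [hQ']
  simp only [C_mul, C_add, C_sub]
  ring

/-- **the Moebius lemma, coprime case**. -/
theorem MoebData.affine (h : MoebData P₁ Q₁ P₂ Q₂ G f) (hf : Function.Surjective f) :
    ∃ α β : k, α ≠ 0 ∧ ∀ c, f c = α * c + β := by
  obtain ⟨α, β, γ, δ, hP, hQ⟩ := h.exists_linear hf
  have key : ∀ c : k, γ * c + δ ≠ 0 ∧ f c * (γ * c + δ) = α * c + β := by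
    intro c
    obtain ⟨x, hx, hxc⟩ := h.surj c
    have hb := h.den₁ x hx
    have hd := h.den₂ x hx
    have hr := h.rel x hx
    have ha : P₁.eval x = c * Q₁.eval x := by
      rw [← hxc, div_mul_cancel₀ _ hb]
    have eP : P₂.eval x = (α * c + β) * Q₁.eval x := by
      rw [hP, eval_add, eval_mul, eval_mul, eval_C, eval_C, ha]
      ring
    have eQ : Q₂.eval x = (γ * c + δ) * Q₁.eval x := by
      rw [hQ, eval_add, eval_mul, eval_mul, eval_C, eval_C, ha]
      ring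
    have hne : γ * c + δ ≠ 0 := by
      intro h0
      rw [h0, zero_mul] at eQ
      exact hd eQ
    refine ⟨hne, ?_⟩
    rw [hxc, eP, eQ, mul_div_mul_right _ _ hb] at hr
    rw [hr, div_mul_cancel₀ _ hne]
  have hγ : γ = 0 := by
    by_contra hγ
    have := (key (-δ / γ)).1
    apply this
    field_simp
    ring
  have hδ : δ ≠ 0 := by
    have := (key 0).1
    rwa [mul_zero, zero_add] at this
  refine ⟨α / δ, β / δ, ?_, ?_⟩
  · intro h0
    have hα : α = 0 := by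
      rcases div_eq_zero_iff.mp h0 with h1 | h1
      · exact h1
      · exact absurd h1 hδ
    have e0 := (key 0).2
    have e1 := (key 1).2
    rw [hγ, hα] at e0 e1
    simp only [zero_mul, zero_add] at e0 e1
    have : f 0 = f 1 := mul_right_cancel₀ hδ (e0.trans e1.symm)
    exact zero_ne_one (h.inj this)
  · intro c
    have := (key c).2
    rw [hγ, zero_mul, zero_add] at this
    field_simp
    linear_combination this

/-- **The Moebius lemma.**  `k` algebraically closed of characteristic `0`, `G ⊆ k` cofinite,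
`f : k → k` bijective, `P₁/Q₁`, `P₂/Q₂` without poles on `G`, `f ∘ (P₁/Q₁) = P₂/Q₂` on `G` and
`P₁/Q₁ : G → k` surjective.  Then `f` is affine. -/
theorem moebius_affine (P₁ Q₁ P₂ Q₂ : k[X]) (G : Set k) (hG : Gᶜ.Finite) (f : k → k)
    (hf : Function.Bijective f)
    (hden₁ : ∀ x ∈ G, Q₁.eval x ≠ 0) (hden₂ : ∀ x ∈ G, Q₂.eval x ≠ 0)
    (hrel : ∀ x ∈ G, f (P₁.eval x / Q₁.eval x) = P₂.eval x / Q₂.eval x)
    (hsurj : ∀ c : k, ∃ x ∈ G, P₁.eval x / Q₁.eval x = c) :
    ∃ α β : k, α ≠ 0 ∧ ∀ c, f c = α * c + β := by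
  obtain ⟨x₀, hx₀, -⟩ := hsurj 0
  have hQ₁0 : Q₁ ≠ 0 := by
    rintro rfl
    exact hden₁ x₀ hx₀ eval_zero
  have hQ₂0 : Q₂ ≠ 0 := by
    rintro rfl
    exact hden₂ x₀ hx₀ eval_zero
  obtain ⟨g₁, P₁', Q₁', eP₁, eQ₁, hcop₁⟩ := moeb_exists_coprime P₁ Q₁ hQ₁0
  obtain ⟨g₂, P₂', Q₂', eP₂, eQ₂, hcop₂⟩ := moeb_exists_coprime P₂ Q₂ hQ₂0
  have hg₁ : ∀ x ∈ G, g₁.eval x ≠ 0 ∧ Q₁'.eval x ≠ 0 := by
    intro x hx
    have := hden₁ x hx
    rw [eQ₁, eval_mul] at this
    exact mul_ne_zero_iff.mp this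
  have hg₂ : ∀ x ∈ G, g₂.eval x ≠ 0 ∧ Q₂'.eval x ≠ 0 := by
    intro x hx
    have := hden₂ x hx
    rw [eQ₂, eval_mul] at this
    exact mul_ne_zero_iff.mp this
  have hR₁ : ∀ x ∈ G, P₁.eval x / Q₁.eval x = P₁'.eval x / Q₁'.eval x := by
    intro x hx
    rw [eP₁, eQ₁, eval_mul, eval_mul, mul_div_mul_left _ _ (hg₁ x hx).1]
  have hR₂ : ∀ x ∈ G, P₂.eval x / Q₂.eval x = P₂'.eval x / Q₂'.eval x := by
    intro x hx
    rw [eP₂, eQ₂, eval_mul, eval_mul, mul_div_mul_left _ _ (hg₂ x hx).1]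
  have hdata : MoebData P₁' Q₁' P₂' Q₂' G f :=
    { cop₁ := hcop₁
      cop₂ := hcop₂
      cofinite := hG
      inj := hf.1
      den₁ := fun x hx => (hg₁ x hx).2
      den₂ := fun x hx => (hg₂ x hx).2
      rel := fun x hx => by rw [← hR₁ x hx, ← hR₂ x hx, hrel x hx]
      surj := fun c => by
        obtain ⟨x, hx, hxc⟩ := hsurj c
        exact ⟨x, hx, by rw [← hR₁ x hx, hxc]⟩ }
  exact hdata.affine hf.2

end main

end Fermat.Agent.EU
end MergeWrap_E_S12_Uniq_Moebius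

section MergeWrap_E_S12_Uniq_Points -- from E/S12/Uniq/Points.lean

set_option autoImplicit false
set_option linter.unusedSectionVars false

open WeierstrassCurve WeierstrassCurve.Affine

namespace Fermat.Agent.EU

open Fermat.Agent.EV

variable {k : Type*} [Field k] [DecidableEq k]

/-! ### points -/

theorem ptX_some {W : Affine k} (x y : k) (h : W.Nonsingular x y) :
    ptX (Point.some x y h : W.Point) = x := rfl

theorem ptX_neg {W : Affine k} (P : W.Point) : ptX (-P) = ptX P := by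
  rcases P with _ | ⟨x, y, h⟩
  · rfl
  · rw [Point.neg_some]
    rfl

/-- a nonzero point is affine -/
theorem exists_eq_some {W : Affine k} {P : W.Point} (hP : P ≠ 0) :
    ∃ (x y : k) (h : W.Nonsingular x y), P = .some x y h := by
  rcases P with _ | ⟨x, y, h⟩
  · exact absurd rfl hP
  · exact ⟨x, y, h, rfl⟩

/-- nonzero points with the same `x`-coordinate are equal or opposite -/
theorem eq_or_eq_neg_of_ptX_eq {W : Affine k} {P Q : W.Point} (hP : P ≠ 0) (hQ : Q ≠ 0)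
    (h : ptX P = ptX Q) : P = Q ∨ P = -Q := by
  rcases P with _ | ⟨x₁, y₁, h₁⟩
  · exact absurd rfl hP
  rcases Q with _ | ⟨x₂, y₂, h₂⟩
  · exact absurd rfl hQ
  have hx : x₁ = x₂ := h
  subst hx
  rcases Y_eq_of_X_eq h₁.1 h₂.1 rfl with hy | hy
  · left
    subst hy
    rfl
  · right
    rw [Point.neg_some]
    subst hy
    rfl

/-- every `x` is the `x`-coordinate of a point of an elliptic curve over an algebraically closed
field -/
theorem exists_nonsingular [IsAlgClosed k] (W : Affine k) (hΔ : W.Δ ≠ 0) (x : k) :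
    ∃ y : k, W.Nonsingular x y := by
  have : W.IsElliptic := W.isElliptic_iff.mpr (isUnit_iff_ne_zero.mpr hΔ)
  set p : Polynomial k := Polynomial.X ^ 2 + Polynomial.C (W.a₁ * x + W.a₃) * Polynomial.X
    - Polynomial.C (x ^ 3 + W.a₂ * x ^ 2 + W.a₄ * x + W.a₆) with hp
  have hdeg : p.degree = 2 := by
    rw [hp]
    compute_degree!
  obtain ⟨y, hy⟩ := IsAlgClosed.exists_root p (by rw [hdeg]; exact two_ne_zero)
  refine ⟨y, equation_iff_nonsingular.mp ?_⟩
  rw [equation_iff]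
  rw [Polynomial.IsRoot.def, hp] at hy
  simp only [Polynomial.eval_sub, Polynomial.eval_add, Polynomial.eval_pow, Polynomial.eval_X,
    Polynomial.eval_mul, Polynomial.eval_C] at hy
  linear_combination hy

/-- every `x` is the `x`-coordinate of a nonzero point -/
theorem exists_point_ptX [IsAlgClosed k] (W : Affine k) (hΔ : W.Δ ≠ 0) (x : k) :
    ∃ P : W.Point, P ≠ 0 ∧ ptX P = x := by
  obtain ⟨y, h⟩ := exists_nonsingular W hΔ x
  exact ⟨.some x y h, Point.some_ne_zero h, rfl⟩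

/-! ### the 2-division cubic -/

/-- the value of the 2-division cubic `4 x³ + b₂ x² + 2 b₄ x + b₆` -/
def twoT (W : Affine k) (x : k) : k := 4 * x ^ 3 + W.b₂ * x ^ 2 + 2 * W.b₄ * x + W.b₆

theorem twoT_eq_sq {W : Affine k} {x y : k} (h : W.Equation x y) :
    twoT W x = (2 * y + W.a₁ * x + W.a₃) ^ 2 := by
  rw [equation_iff] at h
  unfold twoT
  simp only [WeierstrassCurve.b₂, WeierstrassCurve.b₄, WeierstrassCurve.b₆]
  linear_combination -4 * h

/-- a nonzero point is `2`-torsion iff its `x`-coordinate is a root of the 2-division cubic -/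
theorem twoTorsion_iff [CharZero k] {W : Affine k} {P : W.Point} (hP : P ≠ 0) :
    P = -P ↔ twoT W (ptX P) = 0 := by
  rcases P with _ | ⟨x, y, h⟩
  · exact absurd rfl hP
  rw [Point.neg_some, ptX_some, twoT_eq_sq h.1]
  have hiff : y = W.negY x y ↔ 2 * y + W.a₁ * x + W.a₃ = 0 := by
    simp only [negY]
    constructor
    · intro h1
      linear_combination h1
    · intro h1
      linear_combination h1
  constructor
  · intro h1
    have : y = W.negY x y := by
      simp only [Point.some.injEq, true_and] at h1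
      exact h1
    rw [hiff.mp this]
    ring
  · intro h1
    have h2 : 2 * y + W.a₁ * x + W.a₃ = 0 := by
      rcases pow_eq_zero_iff (two_ne_zero) |>.mp h1 with h3
      exact h3
    have h3 := hiff.mpr h2
    simp only [Point.some.injEq, true_and]
    exact h3

/-! ### the cubic lemma -/

/-- **the cubic lemma**: if the affine map `c ↦ α c + β` (`α ≠ 0`) maps the roots of the
2-division cubic of `W₁` to roots of the 2-division cubic of `W₂`, then `c₄(W₂) = α² c₄(W₁)`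
and `Δ(W₂) = α⁶ Δ(W₁)`. -/
theorem cubic_affine [IsAlgClosed k] [CharZero k] (W₁ W₂ : Affine k) (hΔ₁ : W₁.Δ ≠ 0)
    {α β : k} (hα : α ≠ 0)
    (hroots : ∀ c : k, twoT W₁ c = 0 → twoT W₂ (α * c + β) = 0) :
    W₂.c₄ = α ^ 2 * W₁.c₄ ∧ W₂.Δ = α ^ 6 * W₁.Δ := by
  have h4 : (4 : k) ≠ 0 := by norm_num
  have h16 : (16 : k) ≠ 0 := by norm_num
  have ha₁ : W₁.twoTorsionPolynomial.a ≠ 0 := h4
  have ha₂ : W₂.twoTorsionPolynomial.a ≠ 0 := h4
  have hd₁ : W₁.twoTorsionPolynomial.discr ≠ 0 := by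
    rw [twoTorsionPolynomial_discr]
    exact mul_ne_zero h16 hΔ₁
  -- the roots of `T₁`
  obtain ⟨x, y, z, h3⟩ := (Cubic.splits_iff_roots_eq_three (φ := RingHom.id k) ha₁).mp
    (IsAlgClosed.splits _)
  obtain ⟨hxy, hxz, hyz⟩ := (Cubic.discr_ne_zero_iff_roots_ne ha₁ h3).mp hd₁
  have hmem₁ : ∀ c : k, c ∈ (Cubic.map (RingHom.id k) W₁.twoTorsionPolynomial).roots ↔
      twoT W₁ c = 0 := by
    intro c
    have e : Cubic.map (RingHom.id k) W₁.twoTorsionPolynomial = W₁.twoTorsionPolynomial := rfl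
    rw [e, Cubic.mem_roots_iff (Cubic.ne_zero_of_a_ne_zero ha₁)]
    rfl
  have hmem₂ : ∀ c : k, c ∈ (Cubic.map (RingHom.id k) W₂.twoTorsionPolynomial).roots ↔
      twoT W₂ c = 0 := by
    intro c
    have e : Cubic.map (RingHom.id k) W₂.twoTorsionPolynomial = W₂.twoTorsionPolynomial := rfl
    rw [e, Cubic.mem_roots_iff (Cubic.ne_zero_of_a_ne_zero ha₂)]
    rfl
  have hx : twoT W₁ x = 0 := (hmem₁ x).mp (by rw [h3]; simp)
  have hy : twoT W₁ y = 0 := (hmem₁ y).mp (by rw [h3]; simp)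
  have hz : twoT W₁ z = 0 := (hmem₁ z).mp (by rw [h3]; simp)
  -- the roots of `T₂`
  have hcard : (Cubic.map (RingHom.id k) W₂.twoTorsionPolynomial).roots.card = 3 :=
    (Cubic.splits_iff_card_roots (φ := RingHom.id k) ha₂).mp (IsAlgClosed.splits _)
  have hinj : ∀ {c c' : k}, c ≠ c' → α * c + β ≠ α * c' + β := by
    intro c c' hne h0
    exact hne (mul_left_cancel₀ hα (add_right_cancel h0))
  have hnd : ({α * x + β, α * y + β, α * z + β} : Multiset k).Nodup := by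
    change (_ ::ₘ _ ::ₘ {_}).Nodup
    rw [Multiset.nodup_cons, Multiset.nodup_cons, Multiset.mem_cons, Multiset.mem_singleton,
      Multiset.mem_singleton]
    exact ⟨fun h => h.elim (hinj hxy) (hinj hxz), hinj hyz, Multiset.nodup_singleton _⟩
  have hsub : ({α * x + β, α * y + β, α * z + β} : Multiset k) ≤
      (Cubic.map (RingHom.id k) W₂.twoTorsionPolynomial).roots := by
    rw [Multiset.le_iff_subset hnd]
    intro c hc
    change c ∈ (_ ::ₘ _ ::ₘ {_}) at hc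
    rw [Multiset.mem_cons, Multiset.mem_cons, Multiset.mem_singleton] at hc
    rw [hmem₂]
    rcases hc with rfl | rfl | rfl
    · exact hroots x hx
    · exact hroots y hy
    · exact hroots z hz
  have h3' : (Cubic.map (RingHom.id k) W₂.twoTorsionPolynomial).roots =
      {α * x + β, α * y + β, α * z + β} := by
    symm
    refine Multiset.eq_of_le_of_card_le hsub ?_
    rw [hcard]
    rfl
  -- symmetric functions
  have b₁ := Cubic.b_eq_three_roots ha₁ h3
  have c₁ := Cubic.c_eq_three_roots ha₁ h3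
  have b₂ := Cubic.b_eq_three_roots ha₂ h3'
  have c₂ := Cubic.c_eq_three_roots ha₂ h3'
  have d₁ := Cubic.discr_eq_prod_three_roots ha₁ h3
  have d₂ := Cubic.discr_eq_prod_three_roots ha₂ h3'
  simp only [RingHom.id_apply, twoTorsionPolynomial] at b₁ c₁ b₂ c₂
  rw [RingHom.id_apply, twoTorsionPolynomial_discr] at d₁ d₂
  simp only [RingHom.id_apply, twoTorsionPolynomial] at d₁ d₂
  have c₁' : W₁.b₄ = 2 * (x * y + x * z + y * z) := by
    have h2 : (2 : k) ≠ 0 := two_ne_zero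
    apply mul_left_cancel₀ h2
    rw [c₁]
    ring
  have c₂' : W₂.b₄ = 2 * ((α * x + β) * (α * y + β) + (α * x + β) * (α * z + β)
      + (α * y + β) * (α * z + β)) := by
    have h2 : (2 : k) ≠ 0 := two_ne_zero
    apply mul_left_cancel₀ h2
    rw [c₂]
    ring
  constructor
  · simp only [WeierstrassCurve.c₄]
    rw [b₁, b₂, c₁', c₂']
    ring
  · apply mul_left_cancel₀ h16
    linear_combination d₂ - α ^ 6 * d₁

end Fermat.Agent.EU
end MergeWrap_E_S12_Uniq_Points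

section MergeWrap_E_S12_Uniq -- from E/S12/Uniq.lean

set_option autoImplicit false
set_option linter.unusedSectionVars false

open WeierstrassCurve WeierstrassCurve.Affine

namespace Fermat.Agent.EU

open Fermat.Agent.EV

variable {k : Type*} [Field k] [DecidableEq k]

/-- `φ : W.Point →+ W'.Point` has a rational `x`-map outside its kernel, given by the polynomials
`n`, `d`: for every affine point `(x, y)` outside the kernel, `d(x) ≠ 0` and `φ (x, y)` is an
affine point with `x`-coordinate `n(x) / d(x)`.  (The shape used in `QuotStatement`,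
`DualStatement`.) -/
def HasXMap {W W' : Affine k} (φ : W.Point →+ W'.Point) (n d : Polynomial k) : Prop :=
  ∀ (x y : k) (h : W.Nonsingular x y), (Point.some x y h : W.Point) ∉ φ.ker →
    d.eval x ≠ 0 ∧ ∃ (y' : k) (h' : W'.Nonsingular (n.eval x / d.eval x) y'),
      φ (.some x y h) = .some (n.eval x / d.eval x) y' h'

/-- weak rational `x`-map: valid at the affine points `(x, y)` with `g(x) ≠ 0`, `g ≠ 0`. -/
def HasXMapW {W W' : Affine k} (φ : W.Point →+ W'.Point) (n d g : Polynomial k) : Prop :=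
  g ≠ 0 ∧ ∀ (x y : k) (h : W.Nonsingular x y), g.eval x ≠ 0 →
    d.eval x ≠ 0 ∧ ∃ (y' : k) (h' : W'.Nonsingular (n.eval x / d.eval x) y'),
      φ (.some x y h) = .some (n.eval x / d.eval x) y' h'

/-- **(U')**, strong shape. -/
def UniqStatement : Prop :=
  ∀ (k : Type) [Field k] [DecidableEq k] [IsAlgClosed k] [CharZero k] (W W₁ W₂ : Affine k),
    W.Δ ≠ 0 → W₁.Δ ≠ 0 → W₂.Δ ≠ 0 →
    ∀ (φ₁ : W.Point →+ W₁.Point) (φ₂ : W.Point →+ W₂.Point),
      Function.Surjective φ₁ → Function.Surjective φ₂ → φ₁.ker = φ₂.ker →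
      (φ₁.ker : Set W.Point).Finite →
      (∃ n d : Polynomial k, HasXMap φ₁ n d) → (∃ n d : Polynomial k, HasXMap φ₂ n d) →
      W₁.c₄ ^ 3 * W₂.Δ = W₂.c₄ ^ 3 * W₁.Δ

/-- **(U')**, weak + fibre-good shape (the one used by DUAL). -/
def UniqStatementW : Prop :=
  ∀ (k : Type) [Field k] [DecidableEq k] [IsAlgClosed k] [CharZero k] (W W₁ W₂ : Affine k),
    W.Δ ≠ 0 → W₁.Δ ≠ 0 → W₂.Δ ≠ 0 →
    ∀ (φ₁ : W.Point →+ W₁.Point) (φ₂ : W.Point →+ W₂.Point),
      Function.Surjective φ₁ → Function.Surjective φ₂ → φ₁.ker = φ₂.ker →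
      (φ₁.ker : Set W.Point).Finite →
      ∀ n₁ d₁ g₁ n₂ d₂ g₂ : Polynomial k, HasXMapW φ₁ n₁ d₁ g₁ → HasXMapW φ₂ n₂ d₂ g₂ →
      (∀ P : W.Point, P ∉ φ₁.ker → ∃ T ∈ φ₁.ker, ∃ (x y : k) (h : W.Nonsingular x y),
          P + T = .some x y h ∧ g₁.eval x ≠ 0 ∧ g₂.eval x ≠ 0) →
      W₁.c₄ ^ 3 * W₂.Δ = W₂.c₄ ^ 3 * W₁.Δ

/-! ### transfer of `x`-coordinates between two quotients with the same kernel -/

section transfer

variable {W W₁ W₂ : Affine k} (φ₁ : W.Point →+ W₁.Point) (φ₂ : W.Point →+ W₂.Point)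
  (hker : φ₁.ker = φ₂.ker)

include hker in
theorem map_ne_zero_transfer {P : W.Point} (hP : φ₁ P ≠ 0) : φ₂ P ≠ 0 := by
  intro h0
  apply hP
  have : P ∈ φ₂.ker := h0
  rw [← hker] at this
  exact this

include hker in
theorem map_eq_zero_transfer {P : W.Point} (hP : φ₁ P = 0) : φ₂ P = 0 := by
  have : P ∈ φ₁.ker := hP
  rw [hker] at this
  exact this

include hker in
theorem ptX_transfer {P P' : W.Point} (hP : φ₁ P ≠ 0) (hP' : φ₁ P' ≠ 0)
    (h : ptX (φ₁ P) = ptX (φ₁ P')) : ptX (φ₂ P) = ptX (φ₂ P') := by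
  rcases eq_or_eq_neg_of_ptX_eq hP hP' h with h1 | h1
  · have h2 : φ₁ (P - P') = 0 := by rw [map_sub, h1, sub_self]
    have h3 := map_eq_zero_transfer φ₁ φ₂ hker h2
    rw [map_sub, sub_eq_zero] at h3
    rw [h3]
  · have h2 : φ₁ (P + P') = 0 := by rw [map_add, h1, neg_add_cancel]
    have h3 := map_eq_zero_transfer φ₁ φ₂ hker h2
    rw [map_add] at h3
    rw [eq_neg_of_add_eq_zero_left h3, ptX_neg]

end transfer

/-! ### the theorem -/

/-- **(U')**: two quotients of `W` with the same kernel and (weak) rational `x`-maps have the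
same `j`-invariant, in the cross-multiplied form `c₄(W₁)³ Δ(W₂) = c₄(W₂)³ Δ(W₁)`. -/
theorem uniq_core [IsAlgClosed k] [CharZero k] (W W₁ W₂ : Affine k)
    (hΔ : W.Δ ≠ 0) (hΔ₁ : W₁.Δ ≠ 0) (hΔ₂ : W₂.Δ ≠ 0)
    (φ₁ : W.Point →+ W₁.Point) (φ₂ : W.Point →+ W₂.Point)
    (hs₁ : Function.Surjective φ₁) (hs₂ : Function.Surjective φ₂) (hker : φ₁.ker = φ₂.ker)
    (n₁ d₁ g₁ n₂ d₂ g₂ : Polynomial k) (hx₁ : HasXMapW φ₁ n₁ d₁ g₁)
    (hx₂ : HasXMapW φ₂ n₂ d₂ g₂)
    (hfib : ∀ P : W.Point, P ∉ φ₁.ker → ∃ T ∈ φ₁.ker, ∃ (x y : k) (h : W.Nonsingular x y),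
      P + T = .some x y h ∧ g₁.eval x ≠ 0 ∧ g₂.eval x ≠ 0) :
    W₁.c₄ ^ 3 * W₂.Δ = W₂.c₄ ^ 3 * W₁.Δ := by
  -- a point of `W` over each `c` (via `φ₁`)
  have hex : ∀ c : k, ∃ P : W.Point, φ₁ P ≠ 0 ∧ ptX (φ₁ P) = c := by
    intro c
    obtain ⟨P₁, hP₁, hc⟩ := exists_point_ptX W₁ hΔ₁ c
    obtain ⟨P, rfl⟩ := hs₁ P₁
    exact ⟨P, hP₁, hc⟩
  choose Pc hPc0 hPcx using hex
  set f : k → k := fun c => ptX (φ₂ (Pc c)) with hf
  have hspec : ∀ P : W.Point, φ₁ P ≠ 0 → f (ptX (φ₁ P)) = ptX (φ₂ P) := by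
    intro P hP
    exact ptX_transfer φ₁ φ₂ hker (hPc0 _) hP (hPcx _)
  have hfinj : Function.Injective f := by
    intro c c' hcc
    have h1 := ptX_transfer φ₂ φ₁ hker.symm (map_ne_zero_transfer φ₁ φ₂ hker (hPc0 c))
      (map_ne_zero_transfer φ₁ φ₂ hker (hPc0 c')) hcc
    rwa [hPcx, hPcx] at h1
  have hfsurj : Function.Surjective f := by
    intro e
    obtain ⟨P₂, hP₂, he⟩ := exists_point_ptX W₂ hΔ₂ e
    obtain ⟨P, rfl⟩ := hs₂ P₂
    have hP1 : φ₁ P ≠ 0 := map_ne_zero_transfer φ₂ φ₁ hker.symm hP₂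
    exact ⟨ptX (φ₁ P), (hspec P hP1).trans he⟩
  -- the good set
  set G : Set k := {x | g₁.eval x ≠ 0 ∧ g₂.eval x ≠ 0} with hG
  have hGfin : Gᶜ.Finite := by
    have hg : g₁ * g₂ ≠ 0 := mul_ne_zero hx₁.1 hx₂.1
    refine (Polynomial.finite_setOfPred_isRoot hg).subset ?_
    intro x hx
    simp only [hG, Set.mem_compl_iff, Set.mem_ofPred_eq, not_and_or, not_not] at hx
    show (g₁ * g₂).IsRoot x
    rw [Polynomial.IsRoot.def, Polynomial.eval_mul]
    rcases hx with h0 | h0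
    · rw [h0, zero_mul]
    · rw [h0, mul_zero]
  have hden₁ : ∀ x ∈ G, d₁.eval x ≠ 0 := by
    intro x hx
    obtain ⟨y, h⟩ := exists_nonsingular W hΔ x
    exact (hx₁.2 x y h hx.1).1
  have hden₂ : ∀ x ∈ G, d₂.eval x ≠ 0 := by
    intro x hx
    obtain ⟨y, h⟩ := exists_nonsingular W hΔ x
    exact (hx₂.2 x y h hx.2).1
  have hrel : ∀ x ∈ G, f (n₁.eval x / d₁.eval x) = n₂.eval x / d₂.eval x := by
    intro x hx
    obtain ⟨y, h⟩ := exists_nonsingular W hΔ x
    obtain ⟨-, y₁, h₁, e₁⟩ := hx₁.2 x y h hx.1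
    obtain ⟨-, y₂, h₂, e₂⟩ := hx₂.2 x y h hx.2
    have hne : φ₁ (.some x y h) ≠ 0 := by
      rw [e₁]
      exact Point.some_ne_zero h₁
    have := hspec _ hne
    rw [e₁, e₂] at this
    exact this
  have hsurj : ∀ c : k, ∃ x ∈ G, n₁.eval x / d₁.eval x = c := by
    intro c
    obtain ⟨T, hT, x, y, h, hPT, hg₁, hg₂⟩ := hfib (Pc c) (hPc0 c)
    refine ⟨x, ⟨hg₁, hg₂⟩, ?_⟩
    obtain ⟨-, y₁, h₁, e₁⟩ := hx₁.2 x y h hg₁
    have hT0 : φ₁ T = 0 := hT
    have h1 : φ₁ (.some x y h) = φ₁ (Pc c) := by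
      rw [← hPT, map_add, hT0, add_zero]
    have h2 : ptX (φ₁ (.some x y h)) = c := by rw [h1, hPcx]
    rw [e₁] at h2
    exact h2
  -- `f` is affine
  obtain ⟨α, β, hα, hfαβ⟩ := moebius_affine n₁ d₁ n₂ d₂ G hGfin f ⟨hfinj, hfsurj⟩ hden₁ hden₂
    hrel hsurj
  -- `f` maps the roots of the 2-division cubic of `W₁` to roots of that of `W₂`
  have hroots : ∀ c : k, twoT W₁ c = 0 → twoT W₂ (α * c + β) = 0 := by
    intro c hc
    have hP₁ := hPc0 c
    have hP₂ : φ₂ (Pc c) ≠ 0 := map_ne_zero_transfer φ₁ φ₂ hker hP₁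
    have h1 : φ₁ (Pc c) = -φ₁ (Pc c) := by
      rw [twoTorsion_iff hP₁, hPcx]
      exact hc
    have h2 : φ₁ (Pc c + Pc c) = 0 := by
      rw [map_add]
      nth_rewrite 1 [h1]
      exact neg_add_cancel _
    have h3 := map_eq_zero_transfer φ₁ φ₂ hker h2
    rw [map_add] at h3
    have h4 : φ₂ (Pc c) = -φ₂ (Pc c) := eq_neg_of_add_eq_zero_left h3
    have h5 := (twoTorsion_iff hP₂).mp h4
    have h6 : ptX (φ₂ (Pc c)) = α * c + β := (hfαβ c).symm ▸ rfl
    rwa [h6] at h5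
  obtain ⟨hc₄, hΔ'⟩ := cubic_affine W₁ W₂ hΔ₁ hα hroots
  rw [hc₄, hΔ']
  ring

/-- **(U')** in the weak + fibre-good shape. -/
theorem uniqStatementW : UniqStatementW := by
  intro k _ _ _ _ W W₁ W₂ hΔ hΔ₁ hΔ₂ φ₁ φ₂ hs₁ hs₂ hker _ n₁ d₁ g₁ n₂ d₂ g₂ hx₁ hx₂ hfib
  exact uniq_core W W₁ W₂ hΔ hΔ₁ hΔ₂ φ₁ φ₂ hs₁ hs₂ hker n₁ d₁ g₁ n₂ d₂ g₂ hx₁ hx₂ hfib

/-! ### the strong shape -/

section strong

variable {W W' : Affine k} (φ : W.Point →+ W'.Point) (hfin : (φ.ker : Set W.Point).Finite)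

open Classical in
/-- the polynomial vanishing at the `x`-coordinates of the nonzero points of the kernel -/
noncomputable def kerPoly : Polynomial k :=
  ∏ T ∈ hfin.toFinset.filter (fun T => T ≠ 0), (Polynomial.X - Polynomial.C (ptX T))

theorem kerPoly_ne_zero : kerPoly φ hfin ≠ 0 :=
  Finset.prod_ne_zero_iff.mpr fun _ _ => Polynomial.X_sub_C_ne_zero _

theorem kerPoly_eval_ne_zero_iff (x : k) :
    (kerPoly φ hfin).eval x ≠ 0 ↔ ∀ T ∈ φ.ker, T ≠ 0 → ptX T ≠ x := by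
  classical
  unfold kerPoly
  rw [Polynomial.eval_prod, Finset.prod_ne_zero_iff]
  constructor
  · intro h T hT hT0 hx
    have := h T (Finset.mem_filter.mpr ⟨hfin.mem_toFinset.mpr hT, hT0⟩)
    rw [Polynomial.eval_sub, Polynomial.eval_X, Polynomial.eval_C, hx, sub_self] at this
    exact this rfl
  · intro h T hT
    rw [Finset.mem_filter] at hT
    rw [Polynomial.eval_sub, Polynomial.eval_X, Polynomial.eval_C]
    exact sub_ne_zero.mpr (Ne.symm (h T (hfin.mem_toFinset.mp hT.1) hT.2))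

theorem not_mem_ker_of_kerPoly {x y : k} (h : W.Nonsingular x y)
    (hx : (kerPoly φ hfin).eval x ≠ 0) : (Point.some x y h : W.Point) ∉ φ.ker := fun hmem =>
  (kerPoly_eval_ne_zero_iff φ hfin x).mp hx _ hmem (Point.some_ne_zero h) rfl

/-- a strong `x`-map is a weak `x`-map for `g = kerPoly` -/
theorem HasXMap.weak {n d : Polynomial k} (hx : HasXMap φ n d) :
    HasXMapW φ n d (kerPoly φ hfin) :=
  ⟨kerPoly_ne_zero φ hfin, fun x y h hg => hx x y h (not_mem_ker_of_kerPoly φ hfin h hg)⟩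

/-- fibre-goodness for `g = kerPoly` -/
theorem fibre_good_kerPoly (P : W.Point) (hP : P ∉ φ.ker) :
    ∃ T ∈ φ.ker, ∃ (x y : k) (h : W.Nonsingular x y),
      P + T = .some x y h ∧ (kerPoly φ hfin).eval x ≠ 0 := by
  have hP0 : P ≠ 0 := fun h0 => hP (h0 ▸ φ.ker.zero_mem)
  obtain ⟨x, y, h, rfl⟩ := exists_eq_some hP0
  refine ⟨0, φ.ker.zero_mem, x, y, h, add_zero _, ?_⟩
  rw [kerPoly_eval_ne_zero_iff]
  intro T hT hT0 hx
  rcases eq_or_eq_neg_of_ptX_eq hT0 (Point.some_ne_zero h) hx with h1 | h1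
  · exact hP (h1 ▸ hT)
  · apply hP
    have : (Point.some x y h : W.Point) = -T := by rw [h1, neg_neg]
    rw [this]
    exact φ.ker.neg_mem hT

end strong

/-- **(U')** in the strong shape. -/
theorem uniqStatement : UniqStatement := by
  intro k _ _ _ _ W W₁ W₂ hΔ hΔ₁ hΔ₂ φ₁ φ₂ hs₁ hs₂ hker hfin hx₁ hx₂
  obtain ⟨n₁, d₁, hx₁⟩ := hx₁
  obtain ⟨n₂, d₂, hx₂⟩ := hx₂
  have hfin₂ : (φ₂.ker : Set W.Point).Finite := hker ▸ hfin
  have hg : ∀ x : k, (kerPoly φ₁ hfin).eval x ≠ 0 → (kerPoly φ₂ hfin₂).eval x ≠ 0 := by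
    intro x hx
    rw [kerPoly_eval_ne_zero_iff] at hx ⊢
    intro T hT
    exact hx T (hker ▸ hT)
  refine uniq_core W W₁ W₂ hΔ hΔ₁ hΔ₂ φ₁ φ₂ hs₁ hs₂ hker n₁ d₁ (kerPoly φ₁ hfin) n₂ d₂
    (kerPoly φ₂ hfin₂) (hx₁.weak φ₁ hfin) (hx₂.weak φ₂ hfin₂) ?_
  intro P hP
  obtain ⟨T, hT, x, y, h, e, hx⟩ := fibre_good_kerPoly φ₁ hfin P hP
  exact ⟨T, hT, x, y, h, e, hx, hg x hx⟩

end Fermat.Agent.EU
end MergeWrap_E_S12_Uniq

section MergeWrap_E_S12_Dual_LadderNZ -- from E/S12/Dual/LadderNZ.lean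

set_option autoImplicit false

namespace Fermat.Agent.ED

open Polynomial S05H65 Fermat.Agent.Torsion WeierstrassCurve

variable {K : Type*} [Field K] [DecidableEq K] {W : WeierstrassCurve.Affine K}

/-- the step of the induction -/
lemma ladG_eval_ne_zero_step {P : W.Point} (hP : P ≠ 0) (k : ℕ)
    (h1 : (ladG W (k + 1)).eval (px P) ≠ 0) (h2 : (ladG W (k + 2)).eval (px P) ≠ 0)
    (hk1 : (k + 1) • P ≠ 0) (hk2 : (k + 2) • P ≠ 0) (hk3 : (k + 3) • P ≠ 0) :
    (ladG W (k + 3)).eval (px P) ≠ 0 := by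
  have e3 : (k + 3) • P = (k + 2) • P + P := succ_nsmul P (k + 2)
  have e1 : (k + 2) • P = (k + 1) • P + P := succ_nsmul P (k + 1)
  have hF2 := ladF_eval_eq hP (n := k + 2) (by omega) hk2
  have hpx : px ((k + 2) • P) ≠ px P := by
    intro hpx
    rcases eq_or_eq_neg_of_px_eq hk2 hP hpx with hpos | hneg
    · apply hk1
      have : (k + 1) • P + P = 0 + P := by rw [← e1, hpos, zero_add]
      exact add_right_cancel this
    · apply hk3
      rw [e3, hneg, neg_add_cancel]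
  rw [ladG_add_three, eval_mul, eval_ladD, hF2]
  refine mul_ne_zero (pow_ne_zero _ ?_) h1
  have : px ((k + 2) • P) * (ladG W (k + 2)).eval (px P) - px P * (ladG W (k + 2)).eval (px P)
      = (px ((k + 2) • P) - px P) * (ladG W (k + 2)).eval (px P) := by ring
  rw [this]
  exact mul_ne_zero (sub_ne_zero.mpr hpx) h2

/-- **the ladder denominator does not vanish at points of order `> n`** -/
theorem ladG_eval_ne_zero {P : W.Point} (n : ℕ) (hn : 1 ≤ n)
    (h : ∀ j : ℕ, 1 ≤ j → j ≤ n → j • P ≠ 0) : (ladG W n).eval (px P) ≠ 0 := by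
  have hP : P ≠ 0 := by
    have := h 1 le_rfl hn
    rwa [one_smul] at this
  have key : ∀ k : ℕ,
      ((∀ j : ℕ, 1 ≤ j → j ≤ k + 1 → j • P ≠ 0) → (ladG W (k + 1)).eval (px P) ≠ 0) ∧
      ((∀ j : ℕ, 1 ≤ j → j ≤ k + 2 → j • P ≠ 0) → (ladG W (k + 2)).eval (px P) ≠ 0) := by
    intro k
    induction k with
    | zero =>
      refine ⟨fun _ => by simp, fun h2 => ?_⟩
      have h22 := h2 2 (by omega) (by omega)
      rw [two_nsmul] at h22
      simp only [zero_add, ladG_two, eval_ladG2]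
      exact fun h0 => h22 ((add_self_eq_zero_iff hP).mpr h0)
    | succ k ih =>
      refine ⟨fun h2 => ?_, fun h3 => ?_⟩
      · exact ih.2 h2
      · have a1 := ih.1 (fun j hj hj' => h3 j hj (by omega))
        have a2 := ih.2 (fun j hj hj' => h3 j hj (by omega))
        exact ladG_eval_ne_zero_step hP k a1 a2 (h3 _ (by omega) (by omega))
          (h3 _ (by omega) (by omega)) (h3 _ (by omega) (by omega))
  obtain ⟨k, rfl⟩ : ∃ k, n = k + 1 := ⟨n - 1, by omega⟩
  exact (key k).1 h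

end Fermat.Agent.ED
end MergeWrap_E_S12_Dual_LadderNZ

section MergeWrap_E_S12_Dual_Frac -- from E/S12/Dual/Frac.lean

set_option autoImplicit false
set_option linter.unusedSectionVars false

namespace Fermat.Agent.ED

open Polynomial

variable {k : Type*} [Field k]

/-- homogenisation: `polyHom f m n d = Σ_{i ≤ m} f_i n^i d^(m-i)`, so that
`polyHom f m n d = d^m · f (n / d)` -/
noncomputable def polyHom (f : k[X]) (m : ℕ) (n d : k[X]) : k[X] :=
  ∑ i ∈ Finset.range (m + 1), C (f.coeff i) * n ^ i * d ^ (m - i)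

theorem eval_polyHom (f : k[X]) {m : ℕ} (hm : f.natDegree ≤ m) (n d : k[X]) {x : k}
    (hd : d.eval x ≠ 0) :
    (polyHom f m n d).eval x = d.eval x ^ m * f.eval (n.eval x / d.eval x) := by
  rw [polyHom, eval_finsetSum, eval_eq_sum_range' (Nat.lt_succ_of_le hm), Finset.mul_sum]
  refine Finset.sum_congr rfl fun i hi => ?_
  have hi' : i ≤ m := Nat.lt_succ_iff.mp (Finset.mem_range.mp hi)
  simp only [eval_mul, eval_C, eval_pow]
  have e : d.eval x ^ m = d.eval x ^ i * d.eval x ^ (m - i) := by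
    rw [← pow_add, Nat.add_sub_cancel' hi']
  rw [e, div_pow]
  field_simp

/-- the composite of two polynomial fractions as a polynomial fraction -/
theorem eval_polyHom_div (f g : k[X]) {m : ℕ} (hf : f.natDegree ≤ m) (hg : g.natDegree ≤ m)
    (n d : k[X]) {x : k} (hd : d.eval x ≠ 0) (hg0 : g.eval (n.eval x / d.eval x) ≠ 0) :
    (polyHom g m n d).eval x ≠ 0 ∧
      (polyHom f m n d).eval x / (polyHom g m n d).eval x
        = f.eval (n.eval x / d.eval x) / g.eval (n.eval x / d.eval x) := by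
  rw [eval_polyHom f hf n d hd, eval_polyHom g hg n d hd]
  have hdm : d.eval x ^ m ≠ 0 := pow_ne_zero _ hd
  refine ⟨mul_ne_zero hdm hg0, ?_⟩
  field_simp

section PartialFractions

variable {ι : Type*} [DecidableEq ι]

/-- common denominator `∏ (X - c_Q)²` -/
noncomputable def pfD (S : Finset ι) (c : ι → k) : k[X] := ∏ Q ∈ S, (X - C (c Q)) ^ 2

/-- numerator of `Σ (a_Q / (X - c_Q) + b_Q / (X - c_Q)²)` -/
noncomputable def pfN (S : Finset ι) (a b c : ι → k) : k[X] :=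
  ∑ Q ∈ S, (C (a Q) * (X - C (c Q)) + C (b Q)) * ∏ Q' ∈ S.erase Q, (X - C (c Q')) ^ 2

theorem eval_pfD (S : Finset ι) (c : ι → k) (x : k) :
    (pfD S c).eval x = ∏ Q ∈ S, (x - c Q) ^ 2 := by
  simp [pfD, eval_prod]

theorem eval_pfD_ne_zero (S : Finset ι) (c : ι → k) {x : k} (hx : ∀ Q ∈ S, x ≠ c Q) :
    (pfD S c).eval x ≠ 0 := by
  rw [eval_pfD]
  exact Finset.prod_ne_zero_iff.mpr fun Q hQ => pow_ne_zero _ (sub_ne_zero.mpr (hx Q hQ))

theorem sum_partialFractions (S : Finset ι) (a b c : ι → k) {x : k} (hx : ∀ Q ∈ S, x ≠ c Q) :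
    ∑ Q ∈ S, (a Q / (x - c Q) + b Q / (x - c Q) ^ 2) = (pfN S a b c).eval x / (pfD S c).eval x := by
  have hD := eval_pfD_ne_zero S c hx
  rw [pfN, eval_finsetSum, Finset.sum_div]
  refine Finset.sum_congr rfl fun Q hQ => ?_
  have hxQ : x - c Q ≠ 0 := sub_ne_zero.mpr (hx Q hQ)
  have hprod : (pfD S c).eval x = (x - c Q) ^ 2 * ∏ Q' ∈ S.erase Q, (x - c Q') ^ 2 := by
    rw [eval_pfD, Finset.mul_prod_erase S (fun Q' => (x - c Q') ^ 2) hQ]
  have hE : (∏ Q' ∈ S.erase Q, (x - c Q') ^ 2) ≠ 0 :=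
    Finset.prod_ne_zero_iff.mpr fun Q' hQ' =>
      pow_ne_zero _ (sub_ne_zero.mpr (hx Q' (Finset.mem_of_mem_erase hQ')))
  rw [hprod]
  simp only [eval_mul, eval_add, eval_C, eval_sub, eval_X, eval_prod, eval_pow]
  field_simp

end PartialFractions

end Fermat.Agent.ED
end MergeWrap_E_S12_Dual_Frac

section MergeWrap_E_S12_Dual_XMap -- from E/S12/Dual/XMap.lean

set_option autoImplicit false
set_option linter.unusedSectionVars false

open WeierstrassCurve WeierstrassCurve.Affine Polynomial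

namespace Fermat.Agent.ED

open Fermat.Agent.EV Fermat.Agent.EU Fermat.Agent.Torsion S05H65

section Weak

variable {k : Type*} [Field k] [DecidableEq k]

lemma ptX_eq_px {W : Affine k} (P : W.Point) : ptX P = px P := by
  cases P <;> rfl

lemma some_congr_x {W : Affine k} {x x' y : k} (e : x = x') (h : W.Nonsingular x y) :
    ∃ h' : W.Nonsingular x' y, (Point.some x y h : W.Point) = Point.some x' y h' := by
  subst e
  exact ⟨h, rfl⟩

lemma exists_some_of_ne_zero {W : Affine k} {P : W.Point} (hP : P ≠ 0) :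
    ∃ (x y : k) (h : W.Nonsingular x y), P = .some x y h := by
  rcases P with _ | ⟨x, y, h⟩
  · exact absurd rfl hP
  · exact ⟨x, y, h, rfl⟩

/-- an affine point whose `x`-coordinate is the `x`-coordinate of a nonzero point of a subgroup
lies in the subgroup -/
lemma mem_of_px_eq {W : Affine k} (K : AddSubgroup W.Point) {P T : W.Point} (hP : P ≠ 0)
    (hT : T ∈ K) (hT0 : T ≠ 0) (h : px P = px T) : P ∈ K := by
  rcases eq_or_eq_neg_of_px_eq hP hT0 h with rfl | rfl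
  · exact hT
  · exact K.neg_mem hT

/-- the weak `x`-map of multiplication by `n`: the ladder fraction -/
theorem hasXMapW_nsmul [CharZero k] (W : Affine k) {n : ℕ} (hn : 1 ≤ n) :
    HasXMapW (nsmulAddMonoidHom (α := W.Point) n) (ladF W n) (ladG W n) (ladG W n) := by
  refine ⟨ladG_ne_zero W n hn, fun x y h hg => ⟨hg, ?_⟩⟩
  have hP : (Point.some x y h : W.Point) ≠ 0 := Point.some_ne_zero h
  have hnP : n • (Point.some x y h : W.Point) ≠ 0 := fun h0 =>
    hg (ladG_eval_eq_zero_of_smul_eq_zero hP hn h0)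
  have hF := ladF_eval_eq hP hn hnP
  obtain ⟨x', y', h', e⟩ := exists_some_of_ne_zero hnP
  rw [e, px_some, px_some] at hF
  have hx' : x' = (ladF W n).eval x / (ladG W n).eval x := by
    rw [hF, mul_div_assoc, div_self hg, mul_one]
  obtain ⟨h'', e'⟩ := some_congr_x hx' h'
  exact ⟨y', h'', by rw [nsmulAddMonoidHom_apply, e, e']⟩

/-- the composite of two homomorphisms with strong `x`-maps has a weak `x`-map, valid outside
the kernel -/
theorem hasXMapW_comp {W W₁ W₂ : Affine k} (φ : W.Point →+ W₁.Point)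
    (ψ : W₁.Point →+ W₂.Point) {n d n' d' : k[X]} (hφ : HasXMap φ n d) (hψ : HasXMap ψ n' d')
    (hfin : ((ψ.comp φ).ker : Set W.Point).Finite) :
    ∃ N D G : k[X], HasXMapW (ψ.comp φ) N D G ∧
      ∀ (x y : k) (h : W.Nonsingular x y),
        (Point.some x y h : W.Point) ∉ (ψ.comp φ).ker → G.eval x ≠ 0 := by
  classical
  set K := (ψ.comp φ).ker with hK
  set S : Finset W.Point := hfin.toFinset with hS
  set G : k[X] := ∏ T ∈ S.erase 0, (X - C (px T)) with hG
  have hG0 : G ≠ 0 := Finset.prod_ne_zero_iff.mpr fun T _ => X_sub_C_ne_zero _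
  have hGeval : ∀ x : k, G.eval x = ∏ T ∈ S.erase 0, (x - px T) := by
    intro x
    simp [hG, eval_prod]
  have key1 : ∀ (x y : k) (h : W.Nonsingular x y), G.eval x ≠ 0 →
      (Point.some x y h : W.Point) ∉ K := by
    intro x y h hg hPK
    apply hg
    rw [hGeval]
    refine Finset.prod_eq_zero (i := Point.some x y h) ?_ ?_
    · rw [Finset.mem_erase]
      exact ⟨Point.some_ne_zero h, (Set.Finite.mem_toFinset hfin).mpr hPK⟩
    · rw [px_some, sub_self]
  have key2 : ∀ (x y : k) (h : W.Nonsingular x y),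
      (Point.some x y h : W.Point) ∉ K → G.eval x ≠ 0 := by
    intro x y h hPK
    rw [hGeval]
    refine Finset.prod_ne_zero_iff.mpr fun T hT => ?_
    rw [Finset.mem_erase] at hT
    intro h0
    apply hPK
    refine mem_of_px_eq K (Point.some_ne_zero h) ((Set.Finite.mem_toFinset hfin).mp hT.2) hT.1 ?_
    rw [px_some]
    exact sub_eq_zero.mp h0
  set m := max n'.natDegree d'.natDegree with hm
  refine ⟨polyHom n' m n d, polyHom d' m n d, G, ⟨hG0, fun x y h hg => ?_⟩, key2⟩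
  have hPK := key1 x y h hg
  have hPφ : (Point.some x y h : W.Point) ∉ φ.ker := by
    intro h0
    apply hPK
    rw [hK, AddMonoidHom.mem_ker, AddMonoidHom.comp_apply, AddMonoidHom.mem_ker.mp h0, map_zero]
  obtain ⟨hd, y', h', e⟩ := hφ x y h hPφ
  have hPψ : (Point.some (n.eval x / d.eval x) y' h' : W₁.Point) ∉ ψ.ker := by
    intro h0
    apply hPK
    rw [hK, AddMonoidHom.mem_ker, AddMonoidHom.comp_apply, e]
    exact AddMonoidHom.mem_ker.mp h0
  obtain ⟨hd', y'', h'', e'⟩ := hψ _ y' h' hPψ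
  obtain ⟨hD, hND⟩ := eval_polyHom_div n' d' (le_max_left _ _) (le_max_right _ _) n d hd hd'
  obtain ⟨h''', e''⟩ := some_congr_x hND.symm h''
  exact ⟨hD, y'', h''', by rw [AddMonoidHom.comp_apply, e, e', e'']⟩

/-- the strong `x`-map of a Vélu isogeny -/
theorem hasXMap_velu (W : Affine k) (C : AddSubgroup W.Point)
    (hfin : (C : Set W.Point).Finite) (hx : VeluXFormula W C)
    (ψ : W.Point →+ (veluCurve W (C : Set W.Point)).Point) (hker : ψ.ker = C)
    (hψ : ∀ P : W.Point, P ∉ C → ∃ h, ψ P = .some (veluX W (C : Set W.Point) P)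
          (veluY W (C : Set W.Point) P) h) :
    ∃ n d : k[X], HasXMap ψ n d := by
  classical
  have hSfin : {Q : W.Point | Q ∈ (C : Set W.Point) ∧ Q ≠ 0}.Finite :=
    hfin.subset fun Q hQ => hQ.1
  set S : Finset W.Point := hSfin.toFinset with hS
  have hmemS : ∀ Q, Q ∈ S ↔ Q ∈ C ∧ Q ≠ 0 := fun Q => by
    rw [hS, Set.Finite.mem_toFinset]; exact Iff.rfl
  refine ⟨X * pfD S (fun Q => ptX Q) + Polynomial.C (1 / 2 : k) * pfN S (veluT W) (veluU W) (fun Q => ptX Q),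
    pfD S (fun Q => ptX Q), fun x y h hP => ?_⟩
  have hPC : (Point.some x y h : W.Point) ∉ C := hker ▸ hP
  have hxne : ∀ Q ∈ S, x ≠ ptX Q := by
    intro Q hQ hxQ
    rw [hmemS] at hQ
    apply hPC
    refine mem_of_px_eq C (Point.some_ne_zero h) hQ.1 hQ.2 ?_
    rw [px_some, ← ptX_eq_px]
    exact hxQ
  have hD := eval_pfD_ne_zero S (fun Q => ptX Q) hxne
  have hsum : (∑ᶠ (Q : W.Point) (_ : Q ∈ (C : Set W.Point) ∧ Q ≠ 0),
        (veluT W Q / (x - ptX Q) + veluU W Q / (x - ptX Q) ^ 2))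
      = ∑ Q ∈ S, (veluT W Q / (x - ptX Q) + veluU W Q / (x - ptX Q) ^ 2) :=
    finsum_mem_eq_finite_toFinset_sum _ hSfin
  have hX : veluX W (C : Set W.Point) (.some x y h)
      = (X * pfD S (fun Q => ptX Q)
          + Polynomial.C (1 / 2 : k) * pfN S (veluT W) (veluU W) (fun Q => ptX Q)).eval x
        / (pfD S (fun Q => ptX Q)).eval x := by
    rw [hx x y h hPC, hsum, sum_partialFractions S (veluT W) (veluU W) (fun Q => ptX Q) hxne]
    simp only [eval_add, eval_mul, eval_X, eval_C]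
    field_simp
  obtain ⟨h', e⟩ := hψ _ hPC
  obtain ⟨h'', e'⟩ := some_congr_x hX h'
  exact ⟨hD, _, h'', by rw [e, e']⟩

end Weak

end Fermat.Agent.ED
end MergeWrap_E_S12_Dual_XMap

section MergeWrap_E_S12_Dual_Group -- from E/S12/Dual/Group.lean

set_option autoImplicit false
set_option linter.style.haveILetI false

namespace Fermat.Agent.ED

variable {G H : Type*} [AddCommGroup G] [AddCommGroup H]

/-- If `φ` has kernel of prime order `p`, `P₀` is a `p`-torsion point outside `ker φ` and the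
`p`-torsion `T` of `G` has `p²` elements, then `φ⁻¹ ⟨φ P₀⟩ = T`. -/
theorem comap_zmultiples_eq_torsion (φ : G →+ H) {p : ℕ} (hp : p.Prime)
    (hker : Nat.card φ.ker = p) {P₀ : G} (hP₀ : p • P₀ = 0) (hφP₀ : φ P₀ ≠ 0)
    (T : AddSubgroup G) (hT : ∀ x, x ∈ T ↔ p • x = 0) (hcard : Nat.card T = p ^ 2) :
    AddSubgroup.comap φ (AddSubgroup.zmultiples (φ P₀)) = T := by
  set K := AddSubgroup.comap φ (AddSubgroup.zmultiples (φ P₀)) with hK
  have hkerT : ∀ y ∈ φ.ker, p • y = 0 := by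
    intro y hy
    have h := card_nsmul_eq_zero' (G := φ.ker) (x := ⟨y, hy⟩)
    rw [hker] at h
    have := congrArg Subtype.val h
    simpa using this
  have hKT : K ≤ T := by
    intro x hx
    rw [hT]
    obtain ⟨j, hj⟩ := AddSubgroup.mem_zmultiples_iff.mp (AddSubgroup.mem_comap.mp hx)
    have hy : x - j • P₀ ∈ φ.ker := by
      rw [AddMonoidHom.mem_ker, map_sub, map_zsmul, hj, sub_self]
    have h1 := hkerT _ hy
    have h2 : p • x = p • (x - j • P₀) + j • (p • P₀) := by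
      rw [nsmul_sub, smul_comm j p P₀]
      abel
    rw [h2, h1, hP₀, smul_zero, add_zero]
  haveI : Finite T := Nat.finite_of_card_ne_zero (by rw [hcard]; exact pow_ne_zero _ hp.ne_zero)
  haveI : Finite K := Finite.of_injective (fun x : K => (⟨x.1, hKT x.2⟩ : T))
    (fun a b h => Subtype.ext (congrArg (fun t : T => t.1) h))
  have hkerK : φ.ker ≤ K := by
    intro x hx
    rw [hK, AddSubgroup.mem_comap, AddMonoidHom.mem_ker.mp hx]
    exact zero_mem _
  have hP₀K : P₀ ∈ K := AddSubgroup.mem_comap.mpr (AddSubgroup.mem_zmultiples _)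
  have hP₀ker : P₀ ∉ φ.ker := fun h => hφP₀ (AddMonoidHom.mem_ker.mp h)
  have hd1 : Nat.card K ∣ p ^ 2 := hcard ▸ AddSubgroup.card_dvd_of_le hKT
  have hd2 : p ∣ Nat.card K := hker ▸ AddSubgroup.card_dvd_of_le hkerK
  obtain ⟨m, hm, hKm⟩ := (Nat.dvd_prime_pow hp).mp hd1
  have hm2 : m = 2 := by
    rcases Nat.lt_or_ge m 2 with hlt | hge
    · exfalso
      interval_cases m
      · rw [hKm, pow_zero] at hd2
        exact hp.one_lt.ne' (Nat.dvd_one.mp hd2)
      · rw [pow_one] at hKm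
        have : φ.ker = K :=
          AddSubgroup.eq_of_le_of_card_ge hkerK (by rw [hKm, hker])
        exact hP₀ker (this ▸ hP₀K)
    · omega
  rw [hm2] at hKm
  exact AddSubgroup.eq_of_le_of_card_ge hKT (by rw [hKm, hcard])

/-- a coset of the `p`-torsion not contained in it has a point of order `> p` -/
theorem exists_add_torsion_nsmul_ne_zero {p : ℕ} (hp : p.Prime) {P T₀ : G} (hP : p • P ≠ 0)
    (hT₀ : p • T₀ = 0) (hT₀0 : T₀ ≠ 0) :
    ∃ T : G, p • T = 0 ∧ ∀ j : ℕ, 1 ≤ j → j ≤ p → j • (P + T) ≠ 0 := by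
  by_cases hA : ∀ j : ℕ, 1 ≤ j → j ≤ p → j • P ≠ 0
  · exact ⟨0, smul_zero _, fun j hj hj' => by rw [add_zero]; exact hA j hj hj'⟩
  · push Not at hA
    obtain ⟨j₀, hj₀, hj₀p, hj₀P⟩ := hA
    have hj₀lt : j₀ < p := lt_of_le_of_ne hj₀p (fun h => hP (h ▸ hj₀P))
    haveI : Fact p.Prime := ⟨hp⟩
    have hord : addOrderOf T₀ = p := addOrderOf_eq_prime hT₀ hT₀0
    refine ⟨T₀, hT₀, fun j hj hjp hzero => ?_⟩
    have h1 : j • P = -(j • T₀) := by
      rw [nsmul_add] at hzero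
      exact eq_neg_of_add_eq_zero_left hzero
    have h2 : (j₀ * j) • T₀ = 0 := by
      have : (j₀ * j) • P = 0 := by rw [mul_nsmul, hj₀P, smul_zero]
      rw [mul_nsmul', h1] at this
      rw [mul_nsmul']
      simpa using this
    have h3 : p ∣ j₀ * j := hord ▸ addOrderOf_dvd_of_nsmul_eq_zero h2
    rcases (Nat.Prime.dvd_mul hp).mp h3 with h | h
    · exact absurd (Nat.le_of_dvd (by omega) h) (by omega)
    · have hjp' : j = p := le_antisymm hjp (Nat.le_of_dvd (by omega) h)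
      rw [hjp', nsmul_add, hT₀, add_zero] at hzero
      exact hP hzero

end Fermat.Agent.ED
end MergeWrap_E_S12_Dual_Group

section MergeWrap_E_S12_Dual -- from E/S12/Dual.lean

set_option autoImplicit false
set_option linter.unusedSectionVars false
set_option linter.style.haveILetI false

open WeierstrassCurve WeierstrassCurve.Affine Polynomial

namespace Fermat.Agent.ED

open Fermat.Agent.EV Fermat.Agent.EU Fermat.Agent.ES12 Fermat.Agent.Torsion S05H65

lemma curveQb_Δ (W : WeierstrassCurve ℤ) : (CurveQb W).Δ = ((W.Δ : ℤ) : Qb) := by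
  show ((W.map (Int.castRingHom ℚ)).map (algebraMap ℚ Qb)).Δ = _
  rw [WeierstrassCurve.map_Δ, WeierstrassCurve.map_Δ]
  simp

lemma curveQb_c₄ (W : WeierstrassCurve ℤ) : (CurveQb W).c₄ = ((W.c₄ : ℤ) : Qb) := by
  show ((W.map (Int.castRingHom ℚ)).map (algebraMap ℚ Qb)).c₄ = _
  rw [WeierstrassCurve.map_c₄, WeierstrassCurve.map_c₄]
  simp

lemma curveQb_Δ_ne_zero {W : WeierstrassCurve ℤ} (hΔ : W.Δ ≠ 0) : (CurveQb W).Δ ≠ 0 := by
  rw [curveQb_Δ]
  exact_mod_cast hΔ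

/-- **(DUAL)** from (V1), (V1x) (hypotheses) and (U') (helper77, proved). -/
theorem dualStatement_of (p : ℕ) (hp : p.Prime) (hp2 : p ≠ 2) (hV : VeluStatement)
    (hVx : ∀ (W : Affine Qb), W.Δ ≠ 0 → ∀ C : AddSubgroup W.Point, (C : Set W.Point).Finite →
      Odd (Nat.card C) → VeluXFormula W C) : DualStatement p := by
  have hU : UniqStatementW := uniqStatementW
  intro W F hWΔ hFΔ φ hφsurj hφker hφx P₀ hP₀ hφP₀
  obtain ⟨n, d, hφnd⟩ := hφx
  have hEΔ : (CurveQb W).Δ ≠ 0 := curveQb_Δ_ne_zero hWΔ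
  have hF'Δ : (CurveQb F).Δ ≠ 0 := curveQb_Δ_ne_zero hFΔ
  haveI : Fact p.Prime := ⟨hp⟩
  -- the subgroup `C = ⟨φ P₀⟩` of order `p`
  have hpφ : p • φ P₀ = 0 := by rw [← map_nsmul, hP₀, map_zero]
  have hord : addOrderOf (φ P₀) = p := addOrderOf_eq_prime hpφ hφP₀
  have hCcard : Nat.card (AddSubgroup.zmultiples (φ P₀)) = p := by
    rw [Nat.card_zmultiples, hord]
  have hCfin : ((AddSubgroup.zmultiples (φ P₀) : AddSubgroup (Pts F)) : Set (Pts F)).Finite := by
    have : Finite (AddSubgroup.zmultiples (φ P₀)) :=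
      Nat.finite_of_card_ne_zero (by rw [hCcard]; exact hp.ne_zero)
    exact Set.toFinite _
  have hCodd : Odd (Nat.card (AddSubgroup.zmultiples (φ P₀))) := by
    rw [hCcard]; exact hp.odd_of_ne_two hp2
  -- Vélu
  obtain ⟨hF''Δ, ψ, hψsurj, hψker, hψX⟩ :=
    hV Qb (CurveQb F) hF'Δ (AddSubgroup.zmultiples (φ P₀)) hCfin hCodd
  obtain ⟨n', d', hψnd⟩ := hasXMap_velu (CurveQb F) (AddSubgroup.zmultiples (φ P₀)) hCfin
    (hVx (CurveQb F) hF'Δ _ hCfin hCodd) ψ hψker hψX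
  -- the kernel of the composite is `E[p]`
  have hK0 : (ψ.comp φ).ker = AddSubgroup.comap φ (AddSubgroup.zmultiples (φ P₀)) := by
    ext x
    constructor
    · intro hx
      have h1 : φ x ∈ ψ.ker := hx
      rw [hψker] at h1
      exact h1
    · intro hx
      have h1 : φ x ∈ ψ.ker := by rw [hψker]; exact hx
      exact h1
  have hK : (ψ.comp φ).ker = torSub (CurveQb W) p := by
    rw [hK0]
    exact comap_zmultiples_eq_torsion φ hp hφker hP₀ hφP₀ (torSub (CurveQb W) p)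
      (fun x => Iff.rfl) (tcard_eq_sq hEΔ hp.one_le)
  have hKfin : (((ψ.comp φ).ker : AddSubgroup (Pts W)) : Set (Pts W)).Finite := by
    rw [hK]
    have : Finite (torSub (CurveQb W) p) := finite_torSub (CurveQb W) p hp.one_le
    exact Set.toFinite _
  obtain ⟨N, D, G, hΦ₁, hG⟩ := hasXMapW_comp φ ψ hφnd hψnd hKfin
  have hΦ₂ := hasXMapW_nsmul (CurveQb W) hp.one_le
  have hker₂ : (nsmulAddMonoidHom (α := Pts W) p).ker = torSub (CurveQb W) p := rfl
  have hP₀0 : P₀ ≠ 0 := fun h => hφP₀ (by rw [h, map_zero])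
  -- fibre-good
  have hfib : ∀ P : Pts W, P ∉ (ψ.comp φ).ker → ∃ T ∈ (ψ.comp φ).ker,
      ∃ (x y : Qb) (h : (CurveQb W).Nonsingular x y),
        P + T = .some x y h ∧ G.eval x ≠ 0 ∧ (ladG (CurveQb W) p).eval x ≠ 0 := by
    intro P hP
    have hpP : p • P ≠ 0 := fun h0 => hP (by rw [hK]; exact h0)
    obtain ⟨T, hT, hPT⟩ := exists_add_torsion_nsmul_ne_zero hp hpP hP₀ hP₀0
    have hTK : T ∈ (ψ.comp φ).ker := by rw [hK]; exact hT
    have hPT0 : P + T ≠ 0 := by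
      have := hPT 1 le_rfl hp.one_le
      rwa [one_smul] at this
    have hPTK : P + T ∉ (ψ.comp φ).ker := by
      intro h
      have := hPT p hp.one_le le_rfl
      apply this
      rw [hK] at h
      exact h
    obtain ⟨x, y, h, e⟩ := exists_some_of_ne_zero hPT0
    refine ⟨T, hTK, x, y, h, e, hG x y h (e ▸ hPTK), ?_⟩
    have := ladG_eval_ne_zero (W := CurveQb W) (P := P + T) p hp.one_le hPT
    rwa [e, px_some] at this
  have key := hU Qb (CurveQb W) (veluCurve (CurveQb F)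
      ((AddSubgroup.zmultiples (φ P₀) : AddSubgroup (Pts F)) : Set (Pts F))) (CurveQb W)
    hEΔ hF''Δ hEΔ (ψ.comp φ) (nsmulAddMonoidHom (α := Pts W) p) (hψsurj.comp hφsurj)
    (smul_surjective hEΔ hp.one_le) (hK.trans hker₂.symm) hKfin N D G _ _ _ hΦ₁ hΦ₂ hfib
  rw [curveQb_Δ, curveQb_c₄] at key
  exact key

end Fermat.Agent.ED
end MergeWrap_E_S12_Dual
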