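import Mathlib
import Fermat.Prelude.Def_ExtCitation_AdmissibleExtension_v2
import Fermat.Prelude.Def_ExtCitation_KummerBridge
import Fermat.Statements.S14
import Fermat.Prelude.Def_EllipticCurve_FrobeniusTrace
import Fermat.Agent.MUL.S14.Crossing.Statements
import Fermat.Agent.MUL.Orig.S14.FinalA
import Fermat.Agent.MUL.S14.Crossing.CycFrob
import Fermat.Agent.MUL.Orig.S14.CrossingInterface
import Fermat.Agent.MUL.Orig.S14.Interface
import Fermat.Agent.MUL.Orig.Lib.Minkowski.InertiaLift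
import Fermat.Agent.MUL.Orig.S14.NormClassesSubgroup
import Fermat.Agent.MUL.S14.Crossing.Compare
import Fermat.Agent.MUL.S14.Crossing.GamSurj
import Fermat.Agent.MUL.S14.Crossing.FinrankEHMH
import Fermat.Agent.MUL.S14.Crossing.ExistsFrob
import Fermat.Agent.MUL.S14.Crossing.ChiNormMH
import Fermat.Agent.MUL.Orig.S14.AuxPrime
import Fermat.Agent.MUL.Orig.S14.AuxChar
import Fermat.Agent.MUL.Orig.S14.NonNormPrime
import Fermat.Agent.MUL.S14.Analytic.SecondIneqFinal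
import Fermat.Agent.MUL.S14.FirstIneq.FirstIneqProof
import Fermat.Agent.MUL.S14.Crossing.InertiaAtR
import Fermat.Agent.MUL.Orig.E.S12.Leaves
import Fermat.Agent.MUL.E.S12.Comp23
import Fermat.Agent.MUL.E.P.Split
import Fermat.Agent.MUL.Orig.Lib.MultRed.SatLine
import Fermat.Agent.MUL.Lib.FrobTrace.DetCycloEll
import Fermat.Agent.MUL.E.S12.StepAux
import Fermat.Agent.MUL.Orig.E.S12.Defs
import Fermat.Agent.MUL.Orig.Lib.Frey.Basic
import Fermat.Agent.MUL.E.S12.L1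
import Fermat.Agent.MUL.E.S12.Unram
import Fermat.Agent.MUL.E.S12.Quot.Final
import Fermat.Agent.MUL.E.S12.Dual
import Fermat.Agent.MUL.E.Velu.Final

section MergeWrap_E_Endgame -- from E/Endgame.lean

set_option autoImplicit false

namespace Fermat.Agent.EX

open Finset

/-- The cofactor `∑_{i<n} x^i y^(n-1-i)` of `x - y` in `x ^ n - y ^ n` is odd when `x, y, n` are
odd. -/
theorem odd_geom_sum₂ {x y : ℤ} (hx : Odd x) (hy : Odd y) {n : ℕ} (hn : Odd n) :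
    Odd (∑ i ∈ range n, x ^ i * y ^ (n - 1 - i)) := by
  rw [← ZMod.intCast_eq_one_iff_odd]
  push_cast
  have hx1 : ((x : ℤ) : ZMod 2) = 1 := ZMod.intCast_eq_one_iff_odd.mpr hx
  have hy1 : ((y : ℤ) : ZMod 2) = 1 := ZMod.intCast_eq_one_iff_odd.mpr hy
  simp only [hx1, hy1, one_pow, mul_one, sum_const, card_range, nsmul_eq_mul]
  exact ZMod.natCast_eq_one_iff_odd.mpr hn

/-- `2 ^ e ∣ x ^ n - y ^ n ↔ 2 ^ e ∣ x - y` for `x, y, n` odd. -/
theorem two_pow_dvd_pow_sub_pow_iff {x y : ℤ} (hx : Odd x) (hy : Odd y) {n : ℕ} (hn : Odd n)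
    (e : ℕ) : (2 : ℤ) ^ e ∣ x ^ n - y ^ n ↔ (2 : ℤ) ^ e ∣ x - y := by
  rw [← geom_sum₂_mul x y n]
  constructor
  · intro h
    have hcop : IsCoprime ((2 : ℤ) ^ e) (∑ i ∈ range n, x ^ i * y ^ (n - 1 - i)) := by
      apply IsCoprime.pow_left
      exact Int.isCoprime_two_left.mpr (odd_geom_sum₂ hx hy hn)
    exact hcop.dvd_of_dvd_mul_left h
  · intro h
    exact Dvd.dvd.mul_left h _

/-- `2 ^ e ∣ x ^ n + y ^ n ↔ 2 ^ e ∣ x + y` for `x, y, n` odd. -/
theorem two_pow_dvd_pow_add_pow_iff {x y : ℤ} (hx : Odd x) (hy : Odd y) {n : ℕ} (hn : Odd n)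
    (e : ℕ) : (2 : ℤ) ^ e ∣ x ^ n + y ^ n ↔ (2 : ℤ) ^ e ∣ x + y := by
  have h := two_pow_dvd_pow_sub_pow_iff hx hy.neg hn e
  rwa [hn.neg_pow, sub_neg_eq_add, sub_neg_eq_add] at h

/-- **LTE bound.**  If `2 ^ e` divides the non-zero integer `x ^ n + ε y ^ n` (`x, y, n` odd,
`ε = ± 1`) then `2 ^ e ≤ |x| + |y|`. -/
theorem two_pow_le_of_dvd {x y : ℤ} (hx : Odd x) (hy : Odd y) {n : ℕ} (hn : Odd n)
    {ε : ℤ} (hε : ε = 1 ∨ ε = -1) {e : ℕ} (hne : x ^ n + ε * y ^ n ≠ 0)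
    (h : (2 : ℤ) ^ e ∣ x ^ n + ε * y ^ n) : (2 : ℤ) ^ e ≤ |x| + |y| := by
  rcases hε with rfl | rfl
  · rw [one_mul] at h hne
    have h1 := (two_pow_dvd_pow_add_pow_iff hx hy hn e).mp h
    have hne1 : x + y ≠ 0 := by
      intro h0
      apply hne
      have : y = -x := by linarith
      rw [this, hn.neg_pow]; ring
    calc (2 : ℤ) ^ e ≤ |x + y| := Int.le_of_dvd (abs_pos.mpr hne1) ((dvd_abs _ _).mpr h1)
      _ ≤ |x| + |y| := abs_add_le x y
  · have e1 : x ^ n + -1 * y ^ n = x ^ n - y ^ n := by ring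
    rw [e1] at h hne
    have h1 := (two_pow_dvd_pow_sub_pow_iff hx hy hn e).mp h
    have hne1 : x - y ≠ 0 := by
      intro h0
      apply hne
      have : x = y := by linarith
      rw [this]; ring
    calc (2 : ℤ) ^ e ≤ |x - y| := Int.le_of_dvd (abs_pos.mpr hne1) ((dvd_abs _ _).mpr h1)
      _ ≤ |x| + |y| := abs_sub x y

/-- **(X) the LTE endgame.**  Fix odd integers `a, c`.  There is no sequence of non-zero integers
`B k = ± (c ^ M k + ε k * a ^ M k)` with `M k` odd, `ε k = ± 1` and `2 ^ k ∣ B k` for all `k`. -/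
theorem no_two_divisible_chain {a c : ℤ} (ha : Odd a) (hc : Odd c)
    (B : ℕ → ℤ) (M : ℕ → ℕ) (ε : ℕ → ℤ) (hM : ∀ k, Odd (M k)) (hε : ∀ k, ε k = 1 ∨ ε k = -1)
    (hB0 : ∀ k, B k ≠ 0)
    (hB : ∀ k, B k = c ^ M k + ε k * a ^ M k ∨ B k = -(c ^ M k + ε k * a ^ M k))
    (hdiv : ∀ k, (2 : ℤ) ^ k ∣ B k) : False := by
  -- choose `k` with `2 ^ k > |c| + |a|`
  obtain ⟨k, hk⟩ : ∃ k : ℕ, |c| + |a| < (2 : ℤ) ^ k := by
    obtain ⟨k, hk⟩ := pow_unbounded_of_one_lt ((|c| + |a| : ℤ) : ℝ) (by norm_num : (1 : ℝ) < 2)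
    exact ⟨k, by exact_mod_cast hk⟩
  have hne : c ^ M k + ε k * a ^ M k ≠ 0 := by
    intro h0
    rcases hB k with h | h
    · exact hB0 k (h.trans h0)
    · exact hB0 k (h.trans (by rw [h0, neg_zero]))
  have hd : (2 : ℤ) ^ k ∣ c ^ M k + ε k * a ^ M k := by
    rcases hB k with h | h
    · rw [← h]; exact hdiv k
    · have := hdiv k
      rw [h] at this
      exact (dvd_neg).mp this
  have := two_pow_le_of_dvd hc ha (hM k) (hε k) hne hd
  linarith

/-- Variant with a growth function: the valuations `e k` with `2 ^ (e k) ∣ B k` are bounded by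
`log₂ (|a| + |c|)`; in particular `e` cannot be unbounded. -/
theorem two_pow_le_of_chain {a c : ℤ} (ha : Odd a) (hc : Odd c) {B : ℤ} {M : ℕ} {ε : ℤ}
    (hM : Odd M) (hε : ε = 1 ∨ ε = -1) (hB0 : B ≠ 0)
    (hB : B = c ^ M + ε * a ^ M ∨ B = -(c ^ M + ε * a ^ M)) {e : ℕ}
    (hdiv : (2 : ℤ) ^ e ∣ B) : (2 : ℤ) ^ e ≤ |c| + |a| := by
  have hne : c ^ M + ε * a ^ M ≠ 0 := by
    intro h0
    rcases hB with h | h
    · exact hB0 (h.trans h0)
    · exact hB0 (h.trans (by rw [h0, neg_zero]))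
  have hd : (2 : ℤ) ^ e ∣ c ^ M + ε * a ^ M := by
    rcases hB with h | h
    · rw [← h]; exact hdiv
    · rw [h] at hdiv
      exact (dvd_neg).mp hdiv
  exact two_pow_le_of_dvd hc ha hM hε hne hd

end Fermat.Agent.EX
end MergeWrap_E_Endgame

section MergeWrap_S14_Crossing_UnramEHMH -- from S14/Crossing/UnramEHMH.lean

/-!
# S14 crossing core, C5: if `L/K` is unramified everywhere then so is `M_H/E_H`  (helper12)
-/

set_option autoImplicit false

open NumberField Polynomial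
open scoped nonZeroDivisors IntermediateField

namespace Fermat.Agent.S14.Cross

/-- **C5 (U1b)**: if `L/K` is unramified everywhere then so is `M_H/E_H`. -/
theorem unramEHMH : UnramEHMH := by
  intro L _ _ _ ζ m _ H hL P hP hP0 σ hσ
  -- lift `σ` to `Ω`
  let σ' : Om L m ≃ₐ[EH L ζ m H] Om L m := AlgEquiv.liftNormal σ (Om L m)
  have hcomm : ∀ y : MH L ζ m H,
      σ' (algebraMap (MH L ζ m H) (Om L m) y) = algebraMap (MH L ζ m H) (Om L m) (σ y) :=
    fun y => AlgEquiv.liftNormal_commutes σ (Om L m) y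
  let τ : L ≃ₐ[ℚ⟮ζ⟯] L := resL L ζ m (AlgEquiv.restrictScalarsHom ℚ⟮ζ⟯ σ')
  -- `τ` and `σ` agree on `L`
  have hτσ : ∀ x : L, algebraMap L (MH L ζ m H) (τ x) = σ (algebraMap L (MH L ζ m H) x) := by
    intro x
    apply Subtype.ext
    rw [algebraMap_L_MH_coe]
    have h1 := resL_commutes L ζ m (AlgEquiv.restrictScalarsHom ℚ⟮ζ⟯ σ') x
    rw [h1]
    have h2 := hcomm (algebraMap L (MH L ζ m H) x)
    exact h2
  have hτ1 : τ = 1 := by
    have hPu : (P.under (𝓞 L)).IsPrime := inferInstance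
    have hPu0 : P.under (𝓞 L) ≠ ⊥ := by
      intro hbot
      exact hP0 (Ideal.eq_bot_of_comap_eq_bot hbot)
    refine hL (P.under (𝓞 L)) hPu hPu0 τ ?_
    intro x
    obtain ⟨y, hyP, hy⟩ := hσ (algebraMap (𝓞 L) (𝓞 (MH L ζ m H)) x)
    have hint : IsIntegral ℤ (τ (x : L) - (x : L)) :=
      (map_isIntegral_int τ x.2).sub x.2
    refine ⟨⟨τ (x : L) - (x : L), hint⟩, ?_, rfl⟩
    rw [Ideal.under_def, Ideal.mem_comap]
    have hyeq : algebraMap (𝓞 L) (𝓞 (MH L ζ m H)) ⟨τ (x : L) - (x : L), hint⟩ = y := by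
      apply RingOfIntegers.ext
      rw [← hy]
      show algebraMap L (MH L ζ m H) (τ (x : L) - (x : L)) = _
      rw [map_sub, hτσ]
      rfl
    rw [hyeq]
    exact hyP
  -- hence `σ'` is trivial on `L`, so fixes `M_H`
  have hmem : σ' ∈ HL L ζ m H := hτ1
  ext y
  have h3 := hcomm y
  have h4 : σ' (algebraMap (MH L ζ m H) (Om L m) y) = algebraMap (MH L ζ m H) (Om L m) y := by
    have := (IntermediateField.mem_fixedField_iff (HL L ζ m H) (y : Om L m)).mp y.2 σ' hmem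
    exact this
  rw [h4] at h3
  exact h3.symm

end Fermat.Agent.S14.Cross
end MergeWrap_S14_Crossing_UnramEHMH

section MergeWrap_S14_Crossing_SplitIsNorm -- from S14/Crossing/SplitIsNorm.lean

/-!
# S14 crossing, piece C9: `SplitIsNorm` (helper13)
-/

set_option autoImplicit false
set_option linter.unusedSectionVars false

open NumberField Polynomial
open scoped nonZeroDivisors IntermediateField

namespace Fermat.Agent.S14.Cross

section c9

variable {L : Type} [Field L] [NumberField L] [IsGalois ℚ L] {ζ : L} {m : ℕ} [NeZero m]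

/-- An element of `H` which is trivial on `L` fixes `M_H` pointwise. -/
theorem c9_fix_MH (H : Subgroup (Gam L ζ m)) {g : Gam L ζ m} (hgH : g ∈ H)
    (hg1 : resL L ζ m g = 1) (x : Om L m) (hx : x ∈ MH L ζ m H) : g x = x := by
  have hfix : g ∈ (EH L ζ m H).fixingSubgroup := by
    have := (IntermediateField.le_iff_le H (EH L ζ m H)).mp le_rfl
    exact this hgH
  set g' : Om L m ≃ₐ[EH L ζ m H] Om L m :=
    IntermediateField.fixingSubgroupEquiv (EH L ζ m H) ⟨g, hfix⟩ with hg'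
  have hg'g : AlgEquiv.restrictScalarsHom ℚ⟮ζ⟯ g' = g := by
    ext y
    rfl
  have hmem : g' ∈ HL L ζ m H := by
    show (resL L ζ m) (AlgEquiv.restrictScalarsHom ℚ⟮ζ⟯ g') = 1
    rw [hg'g, hg1]
  have := (IntermediateField.mem_fixedField_iff (HL L ζ m H) x).mp hx g' hmem
  exact this

end c9

/-- **(C9)** `SplitIsNorm`. -/
theorem splitIsNorm : SplitIsNorm := by
  intro L _ _ _ ζ m _ H B g P _ hB hgH hP hPB hg hg1
  have hB0 : (B : Ideal (𝓞 (EH L ζ m H))) ≠ ⊥ := mem_nonZeroDivisors_iff_ne_zero.mp B.2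
  -- the prime of `M_H` below `P`
  set B' : Ideal (𝓞 (MH L ζ m H)) := P.under (𝓞 (MH L ζ m H)) with hB'def
  have hB' : B'.IsPrime := inferInstance
  have hB'B : B'.under (𝓞 (EH L ζ m H)) = B := by
    rw [hB'def, Ideal.under_under, hPB]
  have hover : B'.LiesOver (B : Ideal (𝓞 (EH L ζ m H))) := ⟨hB'B.symm⟩
  have hB'0 : B' ≠ ⊥ := Ideal.ne_bot_of_liesOver_of_ne_bot hB0 B'
  -- the residue field of `B'` is small
  have hN1 : 1 < Ideal.absNorm (B : Ideal (𝓞 (EH L ζ m H))) := by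
    have h0 : Ideal.absNorm (B : Ideal (𝓞 (EH L ζ m H))) ≠ 0 :=
      fun h => hB0 (Ideal.absNorm_eq_zero_iff.mp h)
    have h1 : Ideal.absNorm (B : Ideal (𝓞 (EH L ζ m H))) ≠ 1 :=
      fun h => hB.ne_top (Ideal.absNorm_eq_one_iff.mp h)
    omega
  have hle : Ideal.absNorm B' ≤ Ideal.absNorm (B : Ideal (𝓞 (EH L ζ m H))) := by
    have : Finite (𝓞 (MH L ζ m H) ⧸ B') := Ideal.finiteQuotientOfFreeOfNeBot B' hB'0
    have : IsDomain (𝓞 (MH L ζ m H) ⧸ B') := Ideal.Quotient.isDomain B'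
    rw [Ideal.absNorm_apply B', Submodule.cardQuot_apply]
    refine x9a_card_le_of_pow_eq hN1 fun y => ?_
    obtain ⟨x, rfl⟩ := Ideal.Quotient.mk_surjective y
    rw [← map_pow, ← sub_eq_zero, ← map_sub, Ideal.Quotient.eq_zero_iff_mem, hB'def,
      Ideal.under_def, Ideal.mem_comap]
    obtain ⟨z, hz, hxz⟩ := hg (algebraMap (𝓞 (MH L ζ m H)) (𝓞 (Om L m)) x)
    have hfix : g ((algebraMap (𝓞 (MH L ζ m H)) (𝓞 (Om L m)) x : 𝓞 (Om L m)) : Om L m) =
        ((algebraMap (𝓞 (MH L ζ m H)) (𝓞 (Om L m)) x : 𝓞 (Om L m)) : Om L m) :=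
      c9_fix_MH H hgH hg1 _ (x : MH L ζ m H).2
    rw [hfix] at hxz
    have : algebraMap (𝓞 (MH L ζ m H)) (𝓞 (Om L m))
        (x ^ Ideal.absNorm (B : Ideal (𝓞 (EH L ζ m H))) - x) = -z := by
      apply RingOfIntegers.ext
      show _ = -(z : Om L m)
      rw [← hxz, map_sub, map_pow]
      simp
    rw [this]
    exact P.neg_mem hz
  -- the relative norm of `B'` is `B`
  obtain ⟨s, hs⟩ := Ideal.exists_relNorm_eq_pow_of_isPrime B' (B : Ideal (𝓞 (EH L ζ m H)))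
  have h1 : Ideal.absNorm B' = Ideal.absNorm (B : Ideal (𝓞 (EH L ζ m H))) ^ s := by
    rw [← Ideal.absNorm_relNorm (R := 𝓞 (EH L ζ m H)), hs, map_pow]
  have hs1 : s = 1 := by
    rcases Nat.lt_or_ge s 1 with h | h
    · have hs0 : s = 0 := by omega
      rw [hs0, pow_zero, Ideal.absNorm_eq_one_iff] at h1
      exact absurd h1 hB'.ne_top
    · rcases Nat.lt_or_ge 1 s with h' | h'
      · have := Nat.pow_lt_pow_right hN1 h'
        rw [pow_one, ← h1] at this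
        omega
      · omega
  rw [hs1, pow_one] at hs
  exact ⟨⟨B', mem_nonZeroDivisors_iff_ne_zero.mpr hB'0⟩, B, hs.symm, rfl⟩

end Fermat.Agent.S14.Cross
end MergeWrap_S14_Crossing_SplitIsNorm

section MergeWrap_S14_Crossing_ResFrob -- from S14/Crossing/ResFrob.lean

/-!
# S14 crossing, piece C8: `ResFrob` (helper13)
-/

set_option autoImplicit false

open NumberField Polynomial
open scoped nonZeroDivisors IntermediateField

namespace Fermat.Agent.S14.Cross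

section c8

variable {L : Type} [Field L] [NumberField L] [IsGalois ℚ L] {ζ : L} {m : ℕ} [NeZero m]

/-- The Frobenius congruence for `g` on `Ω` gives the Frobenius congruence for `resL g`
on `L`. -/
theorem c8_resL_frob {g : Gam L ζ m} {P : Ideal (𝓞 (Om L m))} {q : ℕ} (hg : IsFrobOm g P q)
    (x : 𝓞 L) : (resL L ζ m g) • x - x ^ q ∈ P.under (𝓞 L) := by
  obtain ⟨y, hy, hxy⟩ := hg (algebraMap (𝓞 L) (𝓞 (Om L m)) x)
  rw [Ideal.under_def, Ideal.mem_comap]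
  have h1 : algebraMap (𝓞 L) (𝓞 (Om L m)) ((resL L ζ m g) • x - x ^ q) = y := by
    apply RingOfIntegers.ext
    rw [← hxy]
    show algebraMap L (Om L m) ((resL L ζ m g) (x : L) - (x : L) ^ q) = _
    rw [map_sub, map_pow, resL_commutes]
    rfl
  rw [h1]
  exact hy

end c8

/-- **(C8)** `ResFrob`. -/
theorem resFrob : ResFrob := by
  intro L _ _ _ ζ m _ g P q τ hU hP hP0 hg hτ
  have hp : (P.under (𝓞 L)).IsPrime := inferInstance
  have hp0 : P.under (𝓞 L) ≠ ⊥ := Ideal.under_ne_bot (𝓞 L) hP0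
  have hin : InInertia ((resL L ζ m g) * τ⁻¹) (P.under (𝓞 L)) := by
    intro x
    have h1 := c8_resL_frob hg (τ⁻¹ • x)
    obtain ⟨y, hy, hxy⟩ := hτ (τ⁻¹ • x)
    refine ⟨(resL L ζ m g) • (τ⁻¹ • x) - (τ⁻¹ • x) ^ q - y, Ideal.sub_mem _ h1 hy, ?_⟩
    have h2 : τ ((τ⁻¹ • x : 𝓞 L) : L) = (x : L) := by
      show τ (τ⁻¹ (x : L)) = x
      rw [← AlgEquiv.mul_apply, mul_inv_cancel, AlgEquiv.one_apply]
    rw [h2] at hxy
    show (resL L ζ m g * τ⁻¹) (x : L) - (x : L) =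
      (resL L ζ m g) (τ⁻¹ (x : L)) - (τ⁻¹ (x : L)) ^ q - (y : L)
    rw [← hxy, AlgEquiv.mul_apply]
    show _ = (resL L ζ m g) (τ⁻¹ (x : L)) - (τ⁻¹ (x : L)) ^ q - ((x : L) - (τ⁻¹ (x : L)) ^ q)
    ring
  have h := hU _ hp hp0 _ hin
  exact mul_inv_eq_one.mp h

end Fermat.Agent.S14.Cross
end MergeWrap_S14_Crossing_ResFrob

section MergeWrap_S14_Crossing_SplitPrimeEH -- from S14/Crossing/SplitPrimeEH.lean

/-!
# S14 crossing, piece C11: `SplitPrimeEH` (helper13)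
-/

set_option autoImplicit false
set_option linter.unusedSectionVars false

open NumberField Polynomial
open scoped nonZeroDivisors IntermediateField

namespace Fermat.Agent.S14.Cross

section c11

variable {L : Type} [Field L] [NumberField L] [IsGalois ℚ L] {ζ : L} {m : ℕ} [NeZero m]

/-- Existence of a Frobenius element in `Gal(Ω/K)` at a given prime `P` of `Ω`. -/
theorem c11_exists_frob_at (P : Ideal (𝓞 (Om L m))) (hP : P.IsPrime) (hP0 : P ≠ ⊥) :
    ∃ g : Gam L ζ m, IsFrobOm g P (Ideal.absNorm (P.under (𝓞 ℚ⟮ζ⟯))) := by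
  have : Finite (𝓞 (Om L m) ⧸ P) := Ideal.finiteQuotientOfFreeOfNeBot P hP0
  obtain ⟨σ, hσ⟩ := IsArithFrobAt.exists_of_isInvariant (𝓞 ℚ⟮ζ⟯) (Gam L ζ m) P
  refine ⟨σ, fun x => ?_⟩
  have h := hσ x
  have hcard : Nat.card (𝓞 ℚ⟮ζ⟯ ⧸ P.under (𝓞 ℚ⟮ζ⟯)) = Ideal.absNorm (P.under (𝓞 ℚ⟮ζ⟯)) := by
    rw [Ideal.absNorm_apply, Submodule.cardQuot_apply]
  rw [hcard] at h
  exact ⟨_, h, rfl⟩

/-- An element of `H` fixes `E_H` pointwise. -/
theorem c11_fix_EH (H : Subgroup (Gam L ζ m)) {g : Gam L ζ m} (hgH : g ∈ H)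
    (x : Om L m) (hx : x ∈ EH L ζ m H) : g x = x :=
  (IntermediateField.mem_fixedField_iff H x).mp hx g hgH

/-- A prime `B'` of `M` such that `x ^ N(b) ≡ x mod B'` for all integers `x` of `M`, where
`b = B' ∩ E`, has residue degree one over `E`: its relative norm is `b`. -/
theorem c11_relNorm_eq_under {E M : Type} [Field E] [NumberField E] [Field M] [NumberField M]
    [Algebra E M] (B' : Ideal (𝓞 M)) (hB' : B'.IsPrime) (hB'0 : B' ≠ ⊥)
    (hpow : ∀ x : 𝓞 M, x ^ Ideal.absNorm (B'.under (𝓞 E)) - x ∈ B') :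
    Ideal.relNorm (𝓞 E) B' = B'.under (𝓞 E) ∧
      Ideal.absNorm B' = Ideal.absNorm (B'.under (𝓞 E)) := by
  have hb : (B'.under (𝓞 E)).IsPrime := inferInstance
  have hb0 : B'.under (𝓞 E) ≠ ⊥ := Ideal.under_ne_bot (𝓞 E) hB'0
  have hN1 : 1 < Ideal.absNorm (B'.under (𝓞 E)) := by
    have h0 : Ideal.absNorm (B'.under (𝓞 E)) ≠ 0 :=
      fun h => hb0 (Ideal.absNorm_eq_zero_iff.mp h)
    have h1 : Ideal.absNorm (B'.under (𝓞 E)) ≠ 1 :=
      fun h => hb.ne_top (Ideal.absNorm_eq_one_iff.mp h)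
    omega
  have hle : Ideal.absNorm B' ≤ Ideal.absNorm (B'.under (𝓞 E)) := by
    have : Finite (𝓞 M ⧸ B') := Ideal.finiteQuotientOfFreeOfNeBot B' hB'0
    have : IsDomain (𝓞 M ⧸ B') := Ideal.Quotient.isDomain B'
    rw [Ideal.absNorm_apply B', Submodule.cardQuot_apply]
    refine x9a_card_le_of_pow_eq hN1 fun y => ?_
    obtain ⟨x, rfl⟩ := Ideal.Quotient.mk_surjective y
    rw [← map_pow, ← sub_eq_zero, ← map_sub, Ideal.Quotient.eq_zero_iff_mem]
    exact hpow x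
  obtain ⟨s, hs⟩ := Ideal.exists_relNorm_eq_pow_of_isPrime B' (B'.under (𝓞 E))
  have h1 : Ideal.absNorm B' = Ideal.absNorm (B'.under (𝓞 E)) ^ s := by
    rw [← Ideal.absNorm_relNorm (R := 𝓞 E), hs, map_pow]
  have hs1 : s = 1 := by
    rcases Nat.lt_or_ge s 1 with h | h
    · have hs0 : s = 0 := by omega
      rw [hs0, pow_zero, Ideal.absNorm_eq_one_iff] at h1
      exact absurd h1 hB'.ne_top
    · rcases Nat.lt_or_ge 1 s with h' | h'
      · have := Nat.pow_lt_pow_right hN1 h'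
        rw [pow_one, ← h1] at this
        omega
      · omega
  rw [hs1, pow_one] at hs h1
  exact ⟨hs, h1⟩

end c11

/-- **(C11)** `SplitPrimeEH`. -/
theorem splitPrimeEH : SplitPrimeEH := by
  intro p L _ _ _ ζ m _ H ℓ Q τ hp hζ hU hℓ hℓ1 hℓm hQ hℓQ hτ hH
  have hQ0 : Q ≠ ⊥ := x9a_ne_bot_of_natCast_mem hℓ hℓQ
  have hQmax : Q.IsMaximal := hQ.isMaximal hQ0
  -- a prime of `Ω` above `Q`
  obtain ⟨P, hPmax, hPover⟩ :=
    Ideal.exists_maximal_ideal_liesOver_of_isIntegral (S := 𝓞 (Om L m)) Q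
  have hP : P.IsPrime := hPmax.isPrime
  have hPQ : P.under (𝓞 L) = Q := hPover.over.symm
  have hP0 : P ≠ ⊥ := Ideal.ne_bot_of_liesOver_of_ne_bot hQ0 P
  have hPK : P.under (𝓞 ℚ⟮ζ⟯) = Q.under (𝓞 ℚ⟮ζ⟯) := by
    rw [← hPQ, Ideal.under_under]
  -- the norm of `q`
  have hℓp : ℓ ≠ p := by
    rintro rfl
    rw [Nat.mod_self] at hℓ1
    exact absurd hℓ1 (by norm_num)
  have hℓp' : ¬ ℓ ∣ p := fun h => hℓp ((Nat.prime_dvd_prime_iff_eq hℓ hp).mp h)
  have : NeZero p := ⟨hp.ne_zero⟩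
  have hcyc : IsCyclotomicExtension {p} ℚ ℚ⟮ζ⟯ :=
    hζ.intermediateField_adjoin_isCyclotomicExtension ℚ
  have hone : (ℓ : ZMod p) = 1 := by
    have h1 : ((ℓ : ℕ) : ZMod p) = ((1 : ℕ) : ZMod p) := by
      rw [ZMod.natCast_eq_natCast_iff', hℓ1, Nat.mod_eq_of_lt hp.one_lt]
    simpa using h1
  have hqn : Ideal.absNorm (Q.under (𝓞 ℚ⟮ζ⟯)) = ℓ := by
    have := x9a_absNorm_cyclo ℚ⟮ζ⟯ p ℓ hℓ hℓp' _ inferInstance (x9a_natCast_mem_under (ζ := ζ) hℓQ)
    rw [this, hone, orderOf_one, pow_one]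
  -- the Frobenius at `P`
  obtain ⟨g, hg⟩ := c11_exists_frob_at (ζ := ζ) P hP hP0
  rw [hPK, hqn] at hg
  have hres : resL L ζ m g = τ := by
    refine resFrob L ζ m g P ℓ τ hU hP hP0 hg ?_
    rw [hPQ]
    exact hτ
  have hℓP : (ℓ : 𝓞 (Om L m)) ∈ P := by
    have h1 : (ℓ : 𝓞 L) ∈ P.under (𝓞 L) := by rw [hPQ]; exact hℓQ
    rw [Ideal.under_def, Ideal.mem_comap, map_natCast] at h1
    exact h1
  have hmP : (m : 𝓞 (Om L m)) ∉ P := by
    refine x9a_natCast_not_mem hℓ hP hℓP ?_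
    intro hd
    have := Nat.dvd_gcd (dvd_refl ℓ) hd
    rw [hℓm] at this
    exact hℓ.one_lt.ne' (Nat.dvd_one.mp this)
  have hcyc' : ((cyc L ζ m g : (ZMod m)ˣ) : ZMod m) = (ℓ : ZMod m) := by
    have := cycFrob L ζ m g P ℓ m (dvd_refl m) hP hg hmP
    rwa [ZMod.unitsMap_self, MonoidHom.id_apply] at this
  have hgH : g ∈ H := hH g hres hcyc'
  -- the prime of `E_H` below `P`
  set B : Ideal (𝓞 (EH L ζ m H)) := P.under (𝓞 (EH L ζ m H)) with hBdef
  have hB : B.IsPrime := inferInstance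
  have hB0 : B ≠ ⊥ := Ideal.under_ne_bot _ hP0
  have hBK : B.under (𝓞 ℚ⟮ζ⟯) = Q.under (𝓞 ℚ⟮ζ⟯) := by
    rw [hBdef, Ideal.under_under, hPK]
  have hpow : ∀ x : 𝓞 (EH L ζ m H), x ^ Ideal.absNorm (B.under (𝓞 ℚ⟮ζ⟯)) - x ∈ B := by
    intro x
    rw [hBK, hqn, hBdef, Ideal.under_def, Ideal.mem_comap]
    obtain ⟨z, hz, hxz⟩ := hg (algebraMap (𝓞 (EH L ζ m H)) (𝓞 (Om L m)) x)
    have hfix : g ((algebraMap (𝓞 (EH L ζ m H)) (𝓞 (Om L m)) x : 𝓞 (Om L m)) : Om L m) =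
        ((algebraMap (𝓞 (EH L ζ m H)) (𝓞 (Om L m)) x : 𝓞 (Om L m)) : Om L m) :=
      c11_fix_EH H hgH _ (x : EH L ζ m H).2
    rw [hfix] at hxz
    have : algebraMap (𝓞 (EH L ζ m H)) (𝓞 (Om L m)) (x ^ ℓ - x) = -z := by
      apply RingOfIntegers.ext
      show _ = -(z : Om L m)
      rw [← hxz, map_sub, map_pow]
      simp
    rw [this]
    exact P.neg_mem hz
  obtain ⟨h1, h2⟩ := c11_relNorm_eq_under (E := ℚ⟮ζ⟯) B hB hB0 hpow
  refine ⟨B, hB, ?_, ?_⟩
  · rw [h2, hBK, hqn]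
  · rw [h1, hBK]

end Fermat.Agent.S14.Cross
end MergeWrap_S14_Crossing_SplitPrimeEH

section MergeWrap_S14_CoprimeRep -- from S14/CoprimeRep.lean

/-!
# S14 (X3): every ideal class contains an integral ideal of norm prime to `m`
-/

set_option autoImplicit false

open NumberField
open scoped nonZeroDivisors

namespace Fermat.Agent.S14

/-- If `K ⊔ span {n} = ⊤` then the absolute norm of `K` is prime to `n`. -/
theorem cr_coprime_absNorm_of_sup_eq_top {E : Type} [Field E] [NumberField E]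
    (K : Ideal (𝓞 E)) (n : ℕ) (h : K ⊔ Ideal.span {(n : 𝓞 E)} = ⊤) :
    (Ideal.absNorm K).Coprime n := by
  by_contra hc
  obtain ⟨ℓ, hℓ, hℓK, hℓn⟩ := Nat.Prime.not_coprime_iff_dvd.mp hc
  obtain ⟨P, hPmax, hPunder, hPK⟩ := Ideal.exists_isMaximal_dvd_of_dvd_absNorm' hℓ K hℓK
  have hKP : K ≤ P := Ideal.le_of_dvd hPK
  have hℓP : ((ℓ : ℤ) : 𝓞 E) ∈ P := by
    have : (ℓ : ℤ) ∈ P.under ℤ := by
      rw [hPunder]; exact Ideal.mem_span_singleton_self _
    simpa [Ideal.under, Ideal.mem_comap] using this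
  have hnP : (n : 𝓞 E) ∈ P := by
    obtain ⟨k, rfl⟩ := hℓn
    have : ((ℓ * k : ℕ) : 𝓞 E) = ((ℓ : ℤ) : 𝓞 E) * (k : 𝓞 E) := by push_cast; ring
    rw [this]
    exact P.mul_mem_right _ hℓP
  have : (⊤ : Ideal (𝓞 E)) ≤ P := by
    rw [← h]
    exact sup_le hKP ((Ideal.span_singleton_le_iff_mem _).mpr hnP)
  exact hPmax.ne_top (top_le_iff.mp this)

/-- `span {n}` is a proper ideal of `𝓞 E` for `n ≥ 2`. -/
theorem cr_span_natCast_ne_top {E : Type} [Field E] [NumberField E] (n : ℕ) (hn : 2 ≤ n) :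
    Ideal.span {(n : 𝓞 E)} ≠ ⊤ := by
  intro h
  have h1 : Ideal.absNorm (Ideal.span {(n : 𝓞 E)}) = 1 := by rw [h, Ideal.absNorm_top]
  rw [Ideal.absNorm_span_natCast] at h1
  have hpos : 0 < Module.finrank ℤ (𝓞 E) := Module.finrank_pos
  have : n = 1 := by
    rcases Nat.pow_eq_one.mp h1 with h | h
    · exact h
    · omega
  omega

/-- **(X3) coprime representatives.** -/
theorem coprimeRep : CoprimeRep := by
  intro E _ _ m hm c
  classical
  obtain ⟨J, hJ⟩ := ClassGroup.mk0_surjective c⁻¹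
  have hJ0 : (J : Ideal (𝓞 E)) ≠ ⊥ := nonZeroDivisors.coe_ne_zero J
  set n : ℕ := 2 * m with hn
  have hn2 : 2 ≤ n := by omega
  have hn0 : (n : 𝓞 E) ≠ 0 := by
    have : n ≠ 0 := by omega
    exact_mod_cast this
  set 𝔪 : Ideal (𝓞 E) := Ideal.span {(n : 𝓞 E)} with h𝔪
  have h𝔪0 : 𝔪 ≠ ⊥ := by
    rw [h𝔪, Ne, Ideal.span_singleton_eq_bot]; exact hn0
  have h𝔪top : 𝔪 ≠ ⊤ := cr_span_natCast_ne_top n hn2
  obtain ⟨a, ha⟩ := IsDedekindDomain.exists_sup_span_eq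
    (I := (J : Ideal (𝓞 E)) * 𝔪) (J := (J : Ideal (𝓞 E))) Ideal.mul_le_left
    (mul_ne_zero hJ0 h𝔪0)
  have haJ : a ∈ (J : Ideal (𝓞 E)) := by
    rw [← ha]; exact Ideal.mem_sup_right (Ideal.mem_span_singleton_self a)
  obtain ⟨K, hK⟩ : (J : Ideal (𝓞 E)) ∣ Ideal.span {a} :=
    Ideal.dvd_iff_le.mpr ((Ideal.span_singleton_le_iff_mem _).mpr haJ)
  have hcop : 𝔪 ⊔ K = ⊤ := by
    have h1 : (J : Ideal (𝓞 E)) * (𝔪 ⊔ K) = (J : Ideal (𝓞 E)) * ⊤ := by
      rw [Ideal.mul_sup, ← hK, ha, Ideal.mul_top]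
    exact mul_left_cancel₀ hJ0 h1
  have hK0 : K ≠ ⊥ := by
    intro h
    rw [h, sup_bot_eq] at hcop
    exact h𝔪top hcop
  have hKmem : K ∈ (Ideal (𝓞 E))⁰ := mem_nonZeroDivisors_of_ne_zero hK0
  have ha0 : a ≠ 0 := by
    intro h
    rw [h] at hK
    have : (J : Ideal (𝓞 E)) * K = ⊥ := by
      rw [← hK]; exact Ideal.span_singleton_eq_bot.mpr rfl
    rcases mul_eq_zero.mp this with h' | h'
    · exact hJ0 h'
    · exact hK0 h'
  refine ⟨⟨K, hKmem⟩, ?_, ?_⟩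
  · have hprod : ClassGroup.mk0 J * ClassGroup.mk0 ⟨K, hKmem⟩ = 1 := by
      rw [← map_mul, ClassGroup.mk0_eq_one_iff]
      have : ((J * ⟨K, hKmem⟩ : (Ideal (𝓞 E))⁰) : Ideal (𝓞 E)) = Ideal.span {a} := by
        rw [hK]; rfl
      rw [this]
      exact ⟨⟨a, rfl⟩⟩
    rw [hJ] at hprod
    exact (inv_mul_eq_one.mp hprod).symm ▸ rfl
  · have h2 : (Ideal.absNorm K).Coprime n := by
      apply cr_coprime_absNorm_of_sup_eq_top
      rw [sup_comm]; exact hcop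
    exact Nat.Coprime.coprime_dvd_right (Dvd.intro_left 2 rfl) h2

end Fermat.Agent.S14
end MergeWrap_S14_CoprimeRep

section MergeWrap_S14_Crossing_NormResidue -- from S14/Crossing/NormResidue.lean

/-!
# S14 (X5): the norm residue lemma, abstract form (helper53)

`Ω/ℚ` Galois number field, `K ⊆ E ⊆ Ω`, `r` a prime number, `d = [E : K]`, `χ` a Dirichlet
character mod `r` with `χ ^ d = 1` and `χ (-1) = 1`.  Assume

* (h1) every `K`-embedding of `E` into `Ω` is induced by an automorphism of `Ω` which acts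
  trivially on `𝓞 Ω / P` for every prime `P ∣ r` ("`E/K` is totally ramified above `r`");
* (h3) for every prime `P ∣ r` of `Ω` there is a Frobenius element at `P` (w.r.t. `𝔽_r`) fixing `K`
  ("`r` splits completely in `K`").

Then `χ (absNorm (β)) = 1` for every `β ∈ 𝓞 E` prime to `r`.
-/

set_option autoImplicit false
set_option linter.unusedSectionVars false
set_option linter.style.haveILetI false

open NumberField IntermediateField
open scoped nonZeroDivisors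

namespace Fermat.Agent.S14

/-- **(X5) norm residue lemma**, abstract form. -/
def NormResidue : Prop :=
  ∀ (r d : ℕ) (K E Ω : Type) [Field K] [NumberField K] [Field E] [NumberField E]
    [Field Ω] [NumberField Ω] [Algebra K E] [Algebra E Ω] [Algebra K Ω] [IsScalarTower K E Ω]
    [IsGalois ℚ Ω] (χ : DirichletCharacter ℂ r),
    r.Prime → Module.finrank K E = d → χ ^ d = 1 → χ (-1) = 1 →
    (∀ σ : E →ₐ[K] Ω, ∃ i : Ω ≃ₐ[ℚ] Ω, (∀ x : E, i (algebraMap E Ω x) = σ x) ∧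
      ∀ (P : Ideal (𝓞 Ω)), P.IsPrime → (r : 𝓞 Ω) ∈ P →
        ∀ x : 𝓞 Ω, ∃ y ∈ P, i (x : Ω) - (x : Ω) = (y : Ω)) →
    (∀ (P : Ideal (𝓞 Ω)), P.IsPrime → (r : 𝓞 Ω) ∈ P →
      ∃ φ : Ω ≃ₐ[K] Ω, ∀ x : 𝓞 Ω, ∃ y ∈ P, φ (x : Ω) - (x : Ω) ^ r = (y : Ω)) →
    ∀ β : 𝓞 E, (Ideal.absNorm (Ideal.span {β})).Coprime r →
      χ ((Ideal.absNorm (Ideal.span {β}) : ℕ) : ZMod r) = 1

section nrc

variable {Ω : Type} [Field Ω] [NumberField Ω]

/-- Congruence of elements of `Ω` modulo an ideal of `𝓞 Ω`. -/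
def NRCong (P : Ideal (𝓞 Ω)) (x y : Ω) : Prop := ∃ p ∈ P, x - y = (p : Ω)

variable {P : Ideal (𝓞 Ω)} {x y z : Ω}

theorem NRCong.refl (P : Ideal (𝓞 Ω)) (x : Ω) : NRCong P x x := ⟨0, P.zero_mem, by simp⟩

theorem NRCong.symm (h : NRCong P x y) : NRCong P y x := by
  obtain ⟨p, hp, h⟩ := h
  exact ⟨-p, P.neg_mem hp, by push_cast; linear_combination -h⟩

theorem NRCong.trans (h : NRCong P x y) (h' : NRCong P y z) : NRCong P x z := by
  obtain ⟨p, hp, h⟩ := h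
  obtain ⟨q, hq, h'⟩ := h'
  exact ⟨p + q, P.add_mem hp hq, by push_cast; linear_combination h + h'⟩

theorem NRCong.mul {x' : Ω} (a b : 𝓞 Ω) (h : NRCong P x (a : Ω)) (h' : NRCong P x' (b : Ω)) :
    NRCong P (x * x') ((a * b : 𝓞 Ω) : Ω) := by
  obtain ⟨p, hp, h⟩ := h
  obtain ⟨q, hq, h'⟩ := h'
  refine ⟨a * q + p * b + p * q, P.add_mem (P.add_mem (P.mul_mem_left _ hq) (P.mul_mem_right _ hp))
    (P.mul_mem_left _ hq), ?_⟩
  have hx : x = (a : Ω) + (p : Ω) := by rw [← h]; ring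
  have hx' : x' = (b : Ω) + (q : Ω) := by rw [← h']; ring
  rw [hx, hx']
  push_cast
  ring

theorem NRCong.pow (a : 𝓞 Ω) (h : NRCong P x (a : Ω)) (n : ℕ) :
    NRCong P (x ^ n) ((a ^ n : 𝓞 Ω) : Ω) := by
  induction n with
  | zero => simpa using NRCong.refl P 1
  | succ n ih =>
    rw [pow_succ, pow_succ]
    exact NRCong.mul _ _ ih h

theorem NRCong.multiset_prod (a : 𝓞 Ω) (S : Multiset Ω) (h : ∀ ρ ∈ S, NRCong P ρ (a : Ω)) :
    NRCong P S.prod ((a ^ Multiset.card S : 𝓞 Ω) : Ω) := by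
  induction S using Multiset.induction with
  | empty => simpa using NRCong.refl P 1
  | cons ρ S ih =>
    rw [Multiset.prod_cons, Multiset.card_cons, pow_succ, mul_comm]
    exact NRCong.mul _ _ (ih fun ρ' hρ' => h ρ' (Multiset.mem_cons_of_mem hρ'))
      (h ρ (Multiset.mem_cons_self _ _))

theorem NRCong.map (g : Ω ≃ₐ[ℚ] Ω)
    (h : NRCong (P.comap (galRestrict ℤ ℚ Ω (𝓞 Ω) g)) x y) : NRCong P (g x) (g y) := by
  obtain ⟨p, hp, h⟩ := h
  refine ⟨galRestrict ℤ ℚ Ω (𝓞 Ω) g p, hp, ?_⟩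
  rw [← map_sub, h]
  exact (algebraMap_galRestrict_apply ℤ g p).symm

/-- `x` is congruent mod `P` to the `d`-th power of a rational integer. -/
def NRPow (P : Ideal (𝓞 Ω)) (d : ℕ) (x : Ω) : Prop := ∃ b : ℤ, NRCong P x (((b : 𝓞 Ω) ^ d : 𝓞 Ω) : Ω)

theorem NRPow.one (P : Ideal (𝓞 Ω)) (d : ℕ) : NRPow P d 1 :=
  ⟨1, by simpa using NRCong.refl P 1⟩

theorem NRPow.mul {d : ℕ} {x' : Ω} (h : NRPow P d x) (h' : NRPow P d x') : NRPow P d (x * x') := by
  obtain ⟨b, hb⟩ := h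
  obtain ⟨b', hb'⟩ := h'
  refine ⟨b * b', ?_⟩
  have := NRCong.mul _ _ hb hb'
  rwa [← mul_pow, ← Int.cast_mul] at this

theorem NRPow.pow {d : ℕ} (h : NRPow P d x) (n : ℕ) : NRPow P d (x ^ n) := by
  induction n with
  | zero => simpa using NRPow.one P d
  | succ n ih => rw [pow_succ]; exact ih.mul h

theorem NRPow.multiset_prod {d : ℕ} (S : Multiset Ω) (h : ∀ ρ ∈ S, NRPow P d ρ) :
    NRPow P d S.prod := by
  induction S using Multiset.induction with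
  | empty => simpa using NRPow.one P d
  | cons ρ S ih =>
    rw [Multiset.prod_cons]
    exact (h ρ (Multiset.mem_cons_self _ _)).mul
      (ih fun ρ' hρ' => h ρ' (Multiset.mem_cons_of_mem hρ'))

theorem nrc_ne_bot {P : Ideal (𝓞 Ω)} {r : ℕ} (hr : r.Prime) (hrP : (r : 𝓞 Ω) ∈ P) : P ≠ ⊥ := by
  rintro rfl
  rw [Ideal.mem_bot] at hrP
  exact hr.ne_zero (by exact_mod_cast hrP)

theorem nrc_int_dvd {P : Ideal (𝓞 Ω)} (hP : P.IsPrime) {r : ℕ} (hr : r.Prime)
    (hrP : (r : 𝓞 Ω) ∈ P) (n : ℤ) (hn : (n : 𝓞 Ω) ∈ P) : (r : ℤ) ∣ n := by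
  by_contra h
  have hcop : IsCoprime (r : ℤ) n :=
    (Prime.coprime_iff_not_dvd (Nat.prime_iff_prime_int.mp hr)).mpr h
  obtain ⟨a, b, hab⟩ := hcop
  apply hP.ne_top
  rw [Ideal.eq_top_iff_one]
  have h1 : ((a * r + b * n : ℤ) : 𝓞 Ω) ∈ P := by
    push_cast
    exact P.add_mem (P.mul_mem_left _ hrP) (P.mul_mem_left _ hn)
  rw [hab] at h1
  simpa using h1

theorem nrc_exists_int {P : Ideal (𝓞 Ω)} (hP : P.IsPrime) {r : ℕ} (hr : r.Prime)
    (hrP : (r : 𝓞 Ω) ∈ P) (z : 𝓞 Ω) (hz : z ^ r - z ∈ P) : ∃ b : ℤ, z - (b : 𝓞 Ω) ∈ P := by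
  haveI : Fact r.Prime := ⟨hr⟩
  haveI hmax : P.IsMaximal := hP.isMaximal (nrc_ne_bot hr hrP)
  letI : Field (𝓞 Ω ⧸ P) := Ideal.Quotient.field P
  haveI : CharP (𝓞 Ω ⧸ P) r := by
    have h0 : ((r : ℕ) : 𝓞 Ω ⧸ P) = 0 := by
      have : Ideal.Quotient.mk P (r : 𝓞 Ω) = 0 := Ideal.Quotient.eq_zero_iff_mem.mpr hrP
      simpa using this
    have hdvd : ringChar (𝓞 Ω ⧸ P) ∣ r := (ringChar.spec (𝓞 Ω ⧸ P) r).mp h0
    have hne : ringChar (𝓞 Ω ⧸ P) ≠ 1 := CharP.ringChar_ne_one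
    have : ringChar (𝓞 Ω ⧸ P) = r := ((Nat.dvd_prime hr).mp hdvd).resolve_left hne
    exact this ▸ ringChar.charP (𝓞 Ω ⧸ P)
  have hz' : (Ideal.Quotient.mk P z) ^ r = Ideal.Quotient.mk P z := by
    rw [← map_pow, ← sub_eq_zero, ← map_sub]
    exact Ideal.Quotient.eq_zero_iff_mem.mpr hz
  have hmem := (Subfield.mem_bot_iff_pow_eq_self (F := 𝓞 Ω ⧸ P) (p := r)).mpr hz'
  rw [mem_bot_iff_intCast r] at hmem
  obtain ⟨n, hn⟩ := hmem
  refine ⟨n, ?_⟩
  rw [← Ideal.Quotient.eq_zero_iff_mem, map_sub, map_intCast, hn, sub_self]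


end nrc

section main

variable {r d : ℕ} {K E Ω : Type} [Field K] [NumberField K] [Field E] [NumberField E]
  [Field Ω] [NumberField Ω] [Algebra K E] [Algebra E Ω] [Algebra K Ω] [IsScalarTower K E Ω]
  [IsGalois ℚ Ω]

theorem nrc_coe_algebraMap (x : 𝓞 E) :
    ((algebraMap (𝓞 E) (𝓞 Ω) x : 𝓞 Ω) : Ω) = algebraMap E Ω (x : E) := rfl

/-- Step A: the residue fields of `E` above `r` are prime fields. -/
theorem nrc_stepA (hr : r.Prime)
    (h1 : ∀ (γ : Ω ≃ₐ[K] Ω) (P : Ideal (𝓞 Ω)), P.IsPrime → (r : 𝓞 Ω) ∈ P →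
      ∀ x : 𝓞 E, NRCong P (γ (algebraMap E Ω (x : E))) (algebraMap E Ω (x : E)))
    (h3 : ∀ (P : Ideal (𝓞 Ω)), P.IsPrime → (r : 𝓞 Ω) ∈ P →
      ∃ φ : Ω ≃ₐ[K] Ω, ∀ x : 𝓞 Ω, ∃ y ∈ P, φ (x : Ω) - (x : Ω) ^ r = (y : Ω))
    (P : Ideal (𝓞 Ω)) (hP : P.IsPrime) (hrP : (r : 𝓞 Ω) ∈ P) (x : 𝓞 E) :
    ∃ b : ℤ, NRCong P (algebraMap E Ω (x : E)) ((b : 𝓞 Ω) : Ω) := by
  obtain ⟨φ, hφ⟩ := h3 P hP hrP
  set z : 𝓞 Ω := algebraMap (𝓞 E) (𝓞 Ω) x with hz
  have hzx : (z : Ω) = algebraMap E Ω (x : E) := rfl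
  have e1 : NRCong P (φ (z : Ω)) ((z : Ω) ^ r) := hφ z
  have e2 : NRCong P (φ (z : Ω)) (z : Ω) := h1 φ P hP hrP x
  obtain ⟨p, hp, hpz⟩ := e1.symm.trans e2
  have hmem : z ^ r - z ∈ P := by
    have : z ^ r - z = p := by
      apply RingOfIntegers.ext
      rw [← hpz]
      push_cast
      rfl
    rw [this]
    exact hp
  obtain ⟨b, hb⟩ := nrc_exists_int hP hr hrP z hmem
  refine ⟨b, z - (b : 𝓞 Ω), hb, ?_⟩
  rw [← hzx]
  push_cast
  rfl

end main

section main2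

variable {r d : ℕ} {K E Ω : Type} [Field K] [NumberField K] [Field E] [NumberField E]
  [Field Ω] [NumberField Ω] [Algebra K E] [Algebra E Ω] [Algebra K Ω] [IsScalarTower K E Ω]
  [IsGalois ℚ Ω]

/-- Step B: `N_{E/K} β ≡ β ^ d` modulo every prime above `r`. -/
theorem nrc_stepB (hd : Module.finrank K E = d)
    (h1 : ∀ (γ : Ω ≃ₐ[K] Ω) (P : Ideal (𝓞 Ω)), P.IsPrime → (r : 𝓞 Ω) ∈ P →
      ∀ x : 𝓞 E, NRCong P (γ (algebraMap E Ω (x : E))) (algebraMap E Ω (x : E)))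
    (P : Ideal (𝓞 Ω)) (hP : P.IsPrime) (hrP : (r : 𝓞 Ω) ∈ P) (β : 𝓞 E) :
    NRCong P (algebraMap K Ω (Algebra.norm K (β : E)))
      (((algebraMap (𝓞 E) (𝓞 Ω) β) ^ d : 𝓞 Ω) : Ω) := by
  haveI : FiniteDimensional K E := FiniteDimensional.right ℚ K E
  haveI : IsGalois K Ω := IsGalois.tower_top_of_isGalois ℚ K Ω
  have hint : IsIntegral K (β : E) := Algebra.IsIntegral.isIntegral _
  have hinj : Function.Injective (algebraMap E Ω) := (algebraMap E Ω).injective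
  have hmin : minpoly K (algebraMap E Ω (β : E)) = minpoly K (β : E) :=
    minpoly.algebraMap_eq hinj _
  have hsplit : ((minpoly K (β : E)).map (algebraMap K Ω)).Splits := by
    rw [← hmin]
    exact Normal.splits inferInstance _
  rw [Algebra.norm_eq_prod_roots (F := Ω) hsplit]
  set z : 𝓞 Ω := algebraMap (𝓞 E) (𝓞 Ω) β with hz
  have hroots : ∀ ρ ∈ (minpoly K (β : E)).aroots Ω, NRCong P ρ (z : Ω) := by
    intro ρ hρ
    rw [Polynomial.mem_aroots] at hρ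
    have hρ' : Polynomial.aeval ρ (minpoly K (algebraMap E Ω (β : E))) = 0 := by
      rw [hmin]; exact hρ.2
    obtain ⟨g, hg⟩ := minpoly.exists_algEquiv_of_root'
      (Algebra.IsIntegral.isIntegral (R := K) (algebraMap E Ω (β : E))).isAlgebraic hρ'
    have e2 : NRCong P (g (algebraMap E Ω (β : E))) (z : Ω) := h1 g P hP hrP β
    rwa [hg] at e2
  have h2 := (NRCong.multiset_prod z _ hroots).pow _ (Module.finrank K⟮(β : E)⟯ E)
  have hcard : Multiset.card ((minpoly K (β : E)).aroots Ω) * Module.finrank K⟮(β : E)⟯ E = d := by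
    rw [← hd, ← Module.finrank_mul_finrank K K⟮(β : E)⟯ E, IntermediateField.adjoin.finrank hint]
    congr 1
    rw [Polynomial.aroots, ← hsplit.natDegree_eq_card_roots, Polynomial.natDegree_map]
  rw [← pow_mul, hcard] at h2
  exact h2

end main2

theorem nrc_chi_natAbs {r : ℕ} (χ : DirichletCharacter ℂ r) (hχ1 : χ (-1) = 1) (m : ℤ) :
    χ ((m.natAbs : ℕ) : ZMod r) = χ (m : ZMod r) := by
  obtain ⟨k, rfl | rfl⟩ := Int.eq_nat_or_neg m
  · simp
  · rw [Int.natAbs_neg, Int.natAbs_natCast, Int.cast_neg, Int.cast_natCast, neg_eq_neg_one_mul,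
      map_mul, hχ1, one_mul]

theorem nrc_isUnit_of_natAbs {r : ℕ} (m : ℤ) (h : IsUnit ((m.natAbs : ℕ) : ZMod r)) :
    IsUnit (m : ZMod r) := by
  obtain ⟨k, rfl | rfl⟩ := Int.eq_nat_or_neg m
  · simpa using h
  · rw [Int.natAbs_neg, Int.natAbs_natCast] at h
    rw [Int.cast_neg, Int.cast_natCast]
    exact h.neg

/-- **(X5)** the norm residue lemma, Galois form: it is enough that every element of
`Gal(Ω/K)` acts trivially on `𝓞 E` modulo every prime of `Ω` above `r`. -/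
theorem normResidue_gal (r d : ℕ) (K E Ω : Type) [Field K] [NumberField K] [Field E]
    [NumberField E] [Field Ω] [NumberField Ω] [Algebra K E] [Algebra E Ω] [Algebra K Ω]
    [IsScalarTower K E Ω] [IsGalois ℚ Ω] (χ : DirichletCharacter ℂ r)
    (hr : r.Prime) (hd : Module.finrank K E = d) (hχd : χ ^ d = 1) (hχ1 : χ (-1) = 1)
    (h1 : ∀ (γ : Ω ≃ₐ[K] Ω) (P : Ideal (𝓞 Ω)), P.IsPrime → (r : 𝓞 Ω) ∈ P →
      ∀ x : 𝓞 E, ∃ y ∈ P, γ (algebraMap E Ω (x : E)) - algebraMap E Ω (x : E) = (y : Ω))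
    (h3 : ∀ (P : Ideal (𝓞 Ω)), P.IsPrime → (r : 𝓞 Ω) ∈ P →
      ∃ φ : Ω ≃ₐ[K] Ω, ∀ x : 𝓞 Ω, ∃ y ∈ P, φ (x : Ω) - (x : Ω) ^ r = (y : Ω))
    (β : 𝓞 E) (hβ : (Ideal.absNorm (Ideal.span {β})).Coprime r) :
    χ ((Ideal.absNorm (Ideal.span {β}) : ℕ) : ZMod r) = 1 := by
  haveI : FiniteDimensional K E := FiniteDimensional.right ℚ K E
  have hd0 : d ≠ 0 := by
    rw [← hd]
    exact Module.finrank_pos.ne'
  -- a prime `P` above `r`
  obtain ⟨P, hPmax, hPr⟩ :=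
    Ideal.exists_le_maximal _ (cr_span_natCast_ne_top (E := Ω) r hr.two_le)
  have hP : P.IsPrime := hPmax.isPrime
  have hrP : (r : 𝓞 Ω) ∈ P := hPr (Ideal.mem_span_singleton_self _)
  -- Step C
  have hC : ∀ (P' : Ideal (𝓞 Ω)), P'.IsPrime → (r : 𝓞 Ω) ∈ P' →
      NRPow P' d (algebraMap K Ω (Algebra.norm K (β : E))) := by
    intro P' hP' hrP'
    obtain ⟨b, hb⟩ := nrc_stepA hr h1 h3 P' hP' hrP' β
    refine ⟨b, (nrc_stepB hd h1 P' hP' hrP' β).trans ?_⟩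
    have h := hb.pow (b : 𝓞 Ω) d
    rw [← nrc_coe_algebraMap] at h
    simpa using h
  -- Step D
  have hD : NRPow P d (algebraMap ℚ Ω (Algebra.norm ℚ (Algebra.norm K (β : E)))) := by
    set z := Algebra.norm K (β : E) with hz
    have hmin : minpoly ℚ (algebraMap K Ω z) = minpoly ℚ z :=
      minpoly.algebraMap_eq (algebraMap K Ω).injective z
    have hsplit : ((minpoly ℚ z).map (algebraMap ℚ Ω)).Splits := by
      rw [← hmin]
      exact Normal.splits inferInstance _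
    rw [Algebra.norm_eq_prod_roots (F := Ω) hsplit]
    apply NRPow.pow
    apply NRPow.multiset_prod
    intro ρ hρ
    rw [Polynomial.mem_aroots] at hρ
    have hρ' : Polynomial.aeval ρ (minpoly ℚ (algebraMap K Ω z)) = 0 := by
      rw [hmin]; exact hρ.2
    obtain ⟨g, hg⟩ := minpoly.exists_algEquiv_of_root'
      (Algebra.IsIntegral.isIntegral (R := ℚ) (algebraMap K Ω z)).isAlgebraic hρ'
    have hP' : (P.comap (galRestrict ℤ ℚ Ω (𝓞 Ω) g)).IsPrime := Ideal.comap_isPrime _ _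
    have hrP' : (r : 𝓞 Ω) ∈ P.comap (galRestrict ℤ ℚ Ω (𝓞 Ω) g) := by
      rw [Ideal.mem_comap, map_natCast]
      exact hrP
    obtain ⟨b, hb⟩ := hC _ hP' hrP'
    refine ⟨b, ?_⟩
    have h := hb.map g
    rw [hg] at h
    have hcast : ((((b : 𝓞 Ω) ^ d : 𝓞 Ω)) : Ω) = ((b ^ d : ℤ) : Ω) := by
      push_cast
      simp
    have hfix : g ((((b : 𝓞 Ω) ^ d : 𝓞 Ω)) : Ω) = ((((b : 𝓞 Ω) ^ d : 𝓞 Ω)) : Ω) := by
      rw [hcast, map_intCast]
    rwa [hfix] at h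
  obtain ⟨B, p, hp, hBp⟩ := hD
  have hn : Algebra.norm ℚ (Algebra.norm K (β : E)) = ((Algebra.norm ℤ β : ℤ) : ℚ) := by
    rw [Algebra.norm_norm, Algebra.coe_norm_int]
  set n : ℤ := Algebra.norm ℤ β with hndef
  have hmem : ((n - B ^ d : ℤ) : 𝓞 Ω) ∈ P := by
    have : ((n - B ^ d : ℤ) : 𝓞 Ω) = p := by
      apply RingOfIntegers.ext
      rw [← hBp, hn]
      push_cast
      simp
    rw [this]
    exact hp
  have hdvd := nrc_int_dvd hP hr hrP _ hmem
  have hmod : (n : ZMod r) = (B : ZMod r) ^ d := by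
    have := (ZMod.intCast_zmod_eq_zero_iff_dvd _ r).mpr hdvd
    push_cast at this
    exact sub_eq_zero.mp this
  rw [Ideal.absNorm_span_singleton] at hβ ⊢
  have hunit : IsUnit ((n.natAbs : ℕ) : ZMod r) := (ZMod.isUnit_iff_coprime _ _).mpr hβ
  have hχn : χ ((n.natAbs : ℕ) : ZMod r) = χ (n : ZMod r) := nrc_chi_natAbs χ hχ1 n
  have hunit' : IsUnit (n : ZMod r) := nrc_isUnit_of_natAbs n hunit
  have hBunit : IsUnit (B : ZMod r) := by
    rw [hmod] at hunit'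
    exact (isUnit_pow_iff hd0).mp hunit'
  rw [hχn, hmod, map_pow, ← MulChar.pow_apply' χ hd0, hχd, MulChar.one_apply hBunit]


/-- **(X5)** the norm residue lemma. -/
theorem normResidue : NormResidue := by
  intro r d K E Ω _ _ _ _ _ _ _ _ _ _ _ χ hr hd hχd hχ1 h1 h3 β hβ
  refine normResidue_gal r d K E Ω χ hr hd hχd hχ1 ?_ h3 β hβ
  intro γ P hP hrP x
  obtain ⟨i, hi, hiP⟩ := h1 ((γ : Ω →ₐ[K] Ω).comp (IsScalarTower.toAlgHom K E Ω))
  obtain ⟨y, hy, hxy⟩ := hiP P hP hrP (algebraMap (𝓞 E) (𝓞 Ω) x)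
  refine ⟨y, hy, ?_⟩
  rw [← hxy, nrc_coe_algebraMap, hi]
  rfl

end Fermat.Agent.S14
end MergeWrap_S14_Crossing_NormResidue

section MergeWrap_S14_Crossing_NormResidueImp -- from S14/Crossing/NormResidueImp.lean

/-!
# S14 crossing, piece C14: `NormResidueImp : GamTrivModR → Cross.NormResidue` (helper53)

Glue between the abstract norm computation `Fermat.Agent.S14.normResidue_gal` and the set-up
of `Crossing/Setup.lean`.
-/

set_option autoImplicit false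
set_option linter.unusedSectionVars false
set_option linter.style.haveILetI false

open NumberField Polynomial
open scoped nonZeroDivisors IntermediateField

noncomputable section

namespace Fermat.Agent.S14.Cross

section tower

variable {L : Type} [Field L] [NumberField L] [IsGalois ℚ L] {ζ : L} {m : ℕ} [NeZero m]

/-- An automorphism of `Ω/ℚ` fixing `ζ` fixes `K = ℚ(ζ)`. -/
theorem c14_fix_K (hζ : IsIntegral ℚ ζ) (φ : Om L m ≃ₐ[ℚ] Om L m)
    (h : φ (algebraMap L (Om L m) ζ) = algebraMap L (Om L m) ζ) (k : ℚ⟮ζ⟯) :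
    φ (algebraMap ℚ⟮ζ⟯ (Om L m) k) = algebraMap ℚ⟮ζ⟯ (Om L m) k := by
  have key : ((φ : Om L m →ₐ[ℚ] Om L m).comp (IsScalarTower.toAlgHom ℚ ℚ⟮ζ⟯ (Om L m))) =
      IsScalarTower.toAlgHom ℚ ℚ⟮ζ⟯ (Om L m) := by
    apply (IntermediateField.adjoin.powerBasis hζ).algHom_ext
    rw [IntermediateField.adjoin.powerBasis_gen]
    exact h
  exact congrArg (fun f : ℚ⟮ζ⟯ →ₐ[ℚ] Om L m => f k) key

/-- An automorphism of `Ω/ℚ` fixing `ζ`, as an element of `Gal(Ω/K)`. -/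
def c14_toGam (hζ : IsIntegral ℚ ζ) (φ : Om L m ≃ₐ[ℚ] Om L m)
    (h : φ (algebraMap L (Om L m) ζ) = algebraMap L (Om L m) ζ) : Gam L ζ m :=
  AlgEquiv.ofRingEquiv (f := φ.toRingEquiv) (c14_fix_K hζ φ h)

theorem c14_toGam_apply (hζ : IsIntegral ℚ ζ) (φ : Om L m ≃ₐ[ℚ] Om L m)
    (h : φ (algebraMap L (Om L m) ζ) = algebraMap L (Om L m) ζ) (x : Om L m) :
    c14_toGam hζ φ h x = φ x := rfl

end tower


section chi

variable {L : Type} [Field L] [NumberField L] [IsGalois ℚ L] {ζ : L} {m : ℕ} [NeZero m]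

/-- `[E_H : K] = [Γ : H]`. -/
theorem c14_finrank_EH (H : Subgroup (Gam L ζ m)) :
    Module.finrank ℚ⟮ζ⟯ (EH L ζ m H) = H.index := by
  rw [IntermediateField.finrank_eq_fixingSubgroup_index,
    IntermediateField.fixingSubgroup_fixedField]

/-- `χ ^ [Γ : ker Θ] = 1` when `(resL, cyc)` is onto. -/
theorem c14_chi_pow {r : ℕ} (hrm : r ∣ m) (ψ : (L ≃ₐ[ℚ⟮ζ⟯] L) →* ℂˣ)
    (χ : DirichletCharacter ℂ r)
    (hsurj : ∀ (σ : L ≃ₐ[ℚ⟮ζ⟯] L) (a : (ZMod m)ˣ),
      ∃ g : Gam L ζ m, resL L ζ m g = σ ∧ cyc L ζ m g = a) :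
    χ ^ (Theta L ζ m ψ hrm χ).ker.index = 1 := by
  ext a
  rw [MulChar.pow_apply_coe, MulChar.one_apply_coe]
  obtain ⟨a', ha'⟩ := ZMod.unitsMap_surjective hrm a
  obtain ⟨g, hg1, hga⟩ := hsurj 1 a'
  have hmem := (Theta L ζ m ψ hrm χ).ker.pow_index_mem g
  rw [MonoidHom.mem_ker, map_pow] at hmem
  have hΘ : Theta L ζ m ψ hrm χ g = (χ.toUnitHom a)⁻¹ := by
    simp only [Theta, MonoidHom.mul_apply, MonoidHom.inv_apply, MonoidHom.comp_apply, hg1, hga,
      ha', map_one, one_mul]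
  rw [hΘ, inv_pow, inv_eq_one] at hmem
  have := congrArg (fun u : ℂˣ => (u : ℂ)) hmem
  simpa [MulChar.coe_toUnitHom] using this

/-- A character of odd order is even. -/
theorem c14_chi_neg_one {r p k : ℕ} (hp : p.Prime) (hp2 : p ≠ 2) (χ : DirichletCharacter ℂ r)
    (hχ : χ ^ (p ^ k) = 1) : χ (-1) = 1 := by
  have hodd : Odd (p ^ k) := (hp.odd_of_ne_two hp2).pow
  obtain ⟨j, hj⟩ := hodd
  have hu : IsUnit (-1 : ZMod r) := isUnit_one.neg
  have h1 : (χ ^ (p ^ k)) (-1) = 1 := by rw [hχ, MulChar.one_apply hu]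
  have hk0 : p ^ k ≠ 0 := pow_ne_zero _ hp.ne_zero
  rw [MulChar.pow_apply' χ hk0, hj, pow_succ, pow_mul] at h1
  have h2 : χ (-1) ^ 2 = 1 := by
    rw [← map_pow]
    simp
  rw [h2, one_pow, one_mul] at h1
  exact h1

end chi

/-- **(C14)** the norm residue lemma from `GamTrivModR`. -/
theorem normResidueImp : NormResidueImp := by
  intro hG p L _ _ _ ζ m _ r hrm ψ χ hp hp2 hζ hcard hunr hr hrp hcop hsurj hχk hψχ β hβ
  obtain ⟨k, hχk'⟩ := hχk
  have hζint : IsIntegral ℚ ζ := Algebra.IsIntegral.isIntegral ζ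
  refine Fermat.Agent.S14.normResidue_gal r _ ℚ⟮ζ⟯ (EH L ζ m (Theta L ζ m ψ hrm χ).ker) (Om L m) χ
    hr (c14_finrank_EH _) (c14_chi_pow hrm ψ χ hsurj) (c14_chi_neg_one hp hp2 χ hχk') ?_ ?_ β hβ
  · -- (h1)
    intro γ P hP hrP x
    have hx : ((algebraMap (𝓞 (EH L ζ m (Theta L ζ m ψ hrm χ).ker)) (𝓞 (Om L m)) x :
        𝓞 (Om L m)) : Om L m) ∈ EH L ζ m (Theta L ζ m ψ hrm χ).ker :=
      SetLike.coe_mem (x : EH L ζ m (Theta L ζ m ψ hrm χ).ker)
    exact hG p L ζ m r hrm ψ χ hp hp2 hζ hcard hunr hr hrp hcop hsurj ⟨k, hχk'⟩ hψχ γ P hP hrP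
      (algebraMap (𝓞 (EH L ζ m (Theta L ζ m ψ hrm χ).ker)) (𝓞 (Om L m)) x) hx
  · -- (h3)
    intro P hP hrP
    obtain ⟨φ, hφ⟩ := Fermat.Agent.S14.x9a_exists_frob hr hP hrP
    have hrp' : ¬ r ∣ p := by
      intro h
      rcases (Nat.dvd_prime hp).mp h with h1 | h1
      · exact hr.one_lt.ne' h1
      · rw [h1, Nat.mod_self] at hrp
        exact zero_ne_one hrp
    have hζp : (algebraMap L (Om L m) ζ) ^ p = 1 := by
      rw [← map_pow, hζ.pow_eq_one, map_one]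
    have hroot := Fermat.Agent.S14.x9a_frob_root hr hP hrP hφ hp.ne_zero hζp hrp'
    have hfix : φ (algebraMap L (Om L m) ζ) = algebraMap L (Om L m) ζ := by
      rw [hroot]
      conv_lhs => rw [← Nat.div_add_mod r p, hrp, pow_add, pow_mul, hζp, one_pow, one_mul, pow_one]
    exact ⟨c14_toGam hζint φ hfix, fun x => hφ x⟩

end Fermat.Agent.S14.Cross
end
end MergeWrap_S14_Crossing_NormResidueImp

section MergeWrap_S14_Crossing_GamTrivModRImp -- from S14/Crossing/GamTrivModRImp.lean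

/-!
# S14 crossing, piece C13: `GamTrivModRImp : InertiaAtR → GamTrivModR` (helper53)

`Γ = I' · ker Θ` with `I' = {resL = 1, cyc ≡ 1 mod m/r}`: for `γ ∈ Γ` choose (by the surjectivity
of `(resL, cyc)` and the Chinese remainder theorem) `i ∈ I'` with `Θ i = Θ γ`; then `i⁻¹ γ` fixes
`E = Ω^(ker Θ)`, so `γ x = i x ≡ x` for `x ∈ 𝓞 E`, by `InertiaAtR`.
-/

set_option autoImplicit false
set_option linter.unusedSectionVars false

open NumberField Polynomial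
open scoped nonZeroDivisors IntermediateField

noncomputable section

namespace Fermat.Agent.S14.Cross

/-- Chinese remainder theorem for units: a unit mod `m` with given residue mod `r` and residue
`1` mod `m / r`. -/
theorem c13_exists_unit {m r : ℕ} [NeZero m] (hrm : r ∣ m) (hcop : (m / r).Coprime r)
    (u : (ZMod r)ˣ) :
    ∃ b : (ZMod m)ˣ, ZMod.unitsMap hrm b = u ∧
      ZMod.unitsMap (Nat.div_dvd_of_dvd hrm) b = 1 := by
  have hm0 : m ≠ 0 := NeZero.ne m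
  have hr0 : r ≠ 0 := fun h => hm0 (by rw [h] at hrm; exact zero_dvd_iff.mp hrm)
  haveI : NeZero r := ⟨hr0⟩
  obtain ⟨n, hn1, hnu⟩ := Nat.chineseRemainder hcop 1 (u : ZMod r).val
  have hc1 : n.Coprime (m / r) := by
    have := (Nat.ModEq.gcd_eq hn1)
    rw [Nat.Coprime, this]
    exact Nat.gcd_one_left _
  have hc2 : n.Coprime r := by
    have := (Nat.ModEq.gcd_eq hnu)
    rw [Nat.Coprime, this]
    exact ZMod.val_coe_unit_coprime u
  have hc : n.Coprime m := by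
    have : n.Coprime (m / r * r) := Nat.Coprime.mul_right hc1 hc2
    rwa [Nat.div_mul_cancel hrm] at this
  refine ⟨ZMod.unitOfCoprime n hc, ?_, ?_⟩
  · apply Units.ext
    rw [ZMod.unitsMap_val, ZMod.coe_unitOfCoprime, ZMod.cast_natCast hrm]
    rw [← ZMod.natCast_zmod_val (u : ZMod r)]
    exact (ZMod.natCast_eq_natCast_iff _ _ _).mpr hnu
  · apply Units.ext
    rw [ZMod.unitsMap_val, ZMod.coe_unitOfCoprime, ZMod.cast_natCast (Nat.div_dvd_of_dvd hrm)]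
    have := (ZMod.natCast_eq_natCast_iff _ _ _).mpr hn1
    simpa using this

/-- **(C13)** -/
theorem gamTrivModRImp : GamTrivModRImp := by
  intro hI p L _ _ _ ζ m _ r hrm ψ χ hp hp2 hζ hcard hunr hr hrp hcop hsurj hχk hψχ γ ℜ hℜ hrℜ x hx
  have hrp' : r ≠ p := by
    rintro rfl
    rw [Nat.mod_self] at hrp
    exact zero_ne_one hrp
  -- the unit `u = c * a⁻¹` of `ZMod r`
  obtain ⟨a, ha⟩ := hψχ (resL L ζ m γ)
  have ha' : χ.toUnitHom a = ψ (resL L ζ m γ) := by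
    apply Units.ext
    rw [MulChar.coe_toUnitHom, ha]
  obtain ⟨b, hb, hb1⟩ := c13_exists_unit hrm hcop (ZMod.unitsMap hrm (cyc L ζ m γ) * a⁻¹)
  obtain ⟨i, hi1, hib⟩ := hsurj 1 b
  -- `Θ i = Θ γ`
  have hΘ : Theta L ζ m ψ hrm χ i = Theta L ζ m ψ hrm χ γ := by
    simp only [Theta, MonoidHom.mul_apply, MonoidHom.inv_apply, MonoidHom.comp_apply, hi1, hib,
      hb, map_one, one_mul, map_mul, map_inv, ha', mul_inv_rev, inv_inv]
  have hη : i⁻¹ * γ ∈ (Theta L ζ m ψ hrm χ).ker := by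
    rw [MonoidHom.mem_ker, map_mul, map_inv, hΘ, inv_mul_cancel]
  have hfix : (i⁻¹ * γ) (x : Om L m) = (x : Om L m) := by
    rw [IntermediateField.mem_fixedField_iff] at hx
    exact hx _ hη
  have hγ : γ (x : Om L m) = i (x : Om L m) := by
    have := congrArg i hfix
    rw [AlgEquiv.mul_apply] at this
    rw [← this]
    show γ (x : Om L m) = i (i.symm (γ (x : Om L m)))
    rw [AlgEquiv.apply_symm_apply]
  rw [hγ]
  have hib' : ZMod.unitsMap (Nat.div_dvd_of_dvd hrm) (cyc L ζ m i) = 1 := by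
    rw [hib, hb1]
  exact hI p L ζ m r hrm hp hζ hunr hr hrp' hcop i ℜ hi1 hib' hℜ hrℜ x

end Fermat.Agent.S14.Cross
end
end MergeWrap_S14_Crossing_GamTrivModRImp

section MergeWrap_S14_FinalB -- from S14/FinalB.lean

set_option autoImplicit false

open NumberField IntermediateField
open scoped nonZeroDivisors

namespace Fermat.Agent.S14

section

variable {p : ℕ} {L : Type} [Field L] [NumberField L] [IsGalois ℚ L] {ζ : L}

/-- (E1) the Galois conjugates of `ζ`. -/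
theorem x9b_exists_aut_pow (hp : p.Prime) (hζ : IsPrimitiveRoot ζ p) {s : ℕ} (hs : s.Coprime p) :
    ∃ h : L ≃ₐ[ℚ] L, h ζ = ζ ^ s := by
  have : NeZero p := ⟨hp.ne_zero⟩
  have hirr : Irreducible (Polynomial.cyclotomic p ℚ) :=
    Polynomial.cyclotomic.irreducible_rat hp.pos
  have hζs : IsPrimitiveRoot (ζ ^ s) p := hζ.pow_of_coprime s hs
  have h1 := hζ.minpoly_eq_cyclotomic_of_irreducible hirr
  have h2 := hζs.minpoly_eq_cyclotomic_of_irreducible hirr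
  have halg : IsAlgebraic ℚ (ζ ^ s) := Algebra.IsAlgebraic.isAlgebraic _
  refine minpoly.exists_algEquiv_of_root halg ?_
  rw [← h2, h1]
  exact minpoly.aeval ℚ ζ

/-- The prime `h⁻¹(Q)`. -/
noncomputable def x9b_conj (h : L ≃ₐ[ℚ] L) (Q : Ideal (𝓞 L)) : Ideal (𝓞 L) :=
  Q.comap (galRestrict ℤ ℚ L (𝓞 L) h)

theorem x9b_mem_conj (h : L ≃ₐ[ℚ] L) (Q : Ideal (𝓞 L)) (x : 𝓞 L) :
    x ∈ x9b_conj h Q ↔ galRestrict ℤ ℚ L (𝓞 L) h x ∈ Q := Iff.rfl

theorem x9b_coe_galRestrict (h : L ≃ₐ[ℚ] L) (x : 𝓞 L) :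
    ((galRestrict ℤ ℚ L (𝓞 L) h x : 𝓞 L) : L) = h (x : L) :=
  algebraMap_galRestrict_apply ℤ h x

instance x9b_conj_isPrime (h : L ≃ₐ[ℚ] L) (Q : Ideal (𝓞 L)) [Q.IsPrime] :
    (x9b_conj h Q).IsPrime :=
  Ideal.comap_isPrime _ _

theorem x9b_natCast_mem_conj (h : L ≃ₐ[ℚ] L) (Q : Ideal (𝓞 L)) (ℓ : ℕ) (hℓ : (ℓ : 𝓞 L) ∈ Q) :
    (ℓ : 𝓞 L) ∈ x9b_conj h Q := by
  rw [x9b_mem_conj, map_natCast]
  exact hℓ

/-- (E2) conjugating the Frobenius. -/
theorem x9b_isFrobAt_conj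
    (hconj : ∀ (g τ : L ≃ₐ[ℚ] L) (k : ℕ), τ ζ = ζ → g ζ = ζ ^ k → g⁻¹ * τ * g = τ ^ k)
    {τ h : L ≃ₐ[ℚ] L} {s ℓ : ℕ} {Q : Ideal (𝓞 L)} (hτ : τ ζ = ζ) (hh : h ζ = ζ ^ s)
    (hF : IsFrobAt τ Q ℓ) : IsFrobAt (τ ^ s) (x9b_conj h Q) ℓ := by
  intro x
  obtain ⟨y, hy, hxy⟩ := hF (galRestrict ℤ ℚ L (𝓞 L) h x)
  refine ⟨galRestrict ℤ ℚ L (𝓞 L) h⁻¹ y, ?_, ?_⟩
  · rw [x9b_mem_conj, ← AlgEquiv.mul_apply, ← map_mul, mul_inv_cancel, map_one]
    exact hy
  · rw [x9b_coe_galRestrict, ← hxy, x9b_coe_galRestrict, ← hconj h τ s hτ hh, map_sub, map_pow]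
    simp [AlgEquiv.mul_apply]

omit [IsGalois ℚ L] in
/-- `τ` fixes `ℚ(ζ)` pointwise iff it fixes `ζ`. -/
theorem x9b_fix_adjoin {τ : L ≃ₐ[ℚ] L} (hτ : τ ζ = ζ) (x : L) (hx : x ∈ ℚ⟮ζ⟯) : τ x = x := by
  induction hx using IntermediateField.adjoin_induction with
  | mem x hx =>
    rw [Set.mem_singleton_iff] at hx
    rw [hx, hτ]
  | algebraMap x => exact τ.commutes x
  | add x y _ _ hx hy => rw [map_add, hx, hy]
  | inv x _ hx => rw [map_inv₀, hx]
  | mul x y _ _ hx hy => rw [map_mul, hx, hy]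

/-- `Gal(L/ℚ(ζ))` is the stabiliser of `ζ`. -/
noncomputable def x9b_galEquiv : (L ≃ₐ[ℚ⟮ζ⟯] L) ≃ {τ : L ≃ₐ[ℚ] L // τ ζ = ζ} where
  toFun σ := ⟨σ.restrictScalars ℚ, by
    have := σ.commutes ⟨ζ, mem_adjoin_simple_self ℚ ζ⟩
    exact this⟩
  invFun τ := { (τ.1 : L ≃ₐ[ℚ] L) with
    commutes' := fun x => x9b_fix_adjoin τ.2 x.1 x.2 }
  left_inv σ := by ext x; rfl
  right_inv τ := by ext x; rfl

theorem x9b_finrank (hcard : Nat.card {τ : L ≃ₐ[ℚ] L // τ ζ = ζ} = p) :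
    Module.finrank ℚ⟮ζ⟯ L = p := by
  rw [← IsGalois.card_aut_eq_finrank, Nat.card_congr x9b_galEquiv, hcard]

omit [IsGalois ℚ L] in
/-- `ζ` as an element of `ℚ(ζ)`. -/
theorem x9b_zetaK_prim (hζ : IsPrimitiveRoot ζ p) :
    IsPrimitiveRoot (AdjoinSimple.gen ℚ ζ) p := by
  refine IsPrimitiveRoot.of_map_of_injective (f := algebraMap ℚ⟮ζ⟯ L) ?_
    (algebraMap ℚ⟮ζ⟯ L).injective
  rw [AdjoinSimple.algebraMap_gen]
  exact hζ

/-- The automorphism of `ℚ(ζ)` induced by an automorphism of `L`. -/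
theorem x9b_isGalois (hp : p.Prime) (hζ : IsPrimitiveRoot ζ p) : IsGalois ℚ ℚ⟮ζ⟯ := by
  have : NeZero p := ⟨hp.ne_zero⟩
  have h1 : IsCyclotomicExtension {p} ℚ ℚ⟮ζ⟯ :=
    hζ.intermediateField_adjoin_isCyclotomicExtension ℚ
  exact IsCyclotomicExtension.isGalois {p} ℚ ℚ⟮ζ⟯

noncomputable def x9b_res (hp : p.Prime) (hζ : IsPrimitiveRoot ζ p) (h : L ≃ₐ[ℚ] L) :
    ℚ⟮ζ⟯ ≃ₐ[ℚ] ℚ⟮ζ⟯ :=
  haveI : IsGalois ℚ ℚ⟮ζ⟯ := x9b_isGalois hp hζ
  h.restrictNormal ℚ⟮ζ⟯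

theorem x9b_res_commutes (hp : p.Prime) (hζ : IsPrimitiveRoot ζ p) (h : L ≃ₐ[ℚ] L)
    (x : ℚ⟮ζ⟯) : ((x9b_res hp hζ h x : ℚ⟮ζ⟯) : L) = h (x : L) := by
  have : IsGalois ℚ ℚ⟮ζ⟯ := x9b_isGalois hp hζ
  exact h.restrictNormal_commutes ℚ⟮ζ⟯ x

theorem x9b_res_gen (hp : p.Prime) (hζ : IsPrimitiveRoot ζ p) {h : L ≃ₐ[ℚ] L} {s : ℕ}
    (hh : h ζ = ζ ^ s) :
    x9b_res hp hζ h (AdjoinSimple.gen ℚ ζ) = (AdjoinSimple.gen ℚ ζ) ^ s := by
  apply Subtype.ext
  rw [x9b_res_commutes]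
  simp only [AdjoinSimple.coe_gen, SubmonoidClass.coe_pow]
  exact hh

/-- (E4) the prime of `ℚ(ζ)` below `h⁻¹(Q)`. -/
theorem x9b_under_conj (hp : p.Prime) (hζ : IsPrimitiveRoot ζ p) (h : L ≃ₐ[ℚ] L)
    (Q : Ideal (𝓞 L)) :
    (x9b_conj h Q).under (𝓞 ℚ⟮ζ⟯) =
      Ideal.comap (galRestrict ℤ ℚ ℚ⟮ζ⟯ (𝓞 ℚ⟮ζ⟯) (x9b_res hp hζ h)) (Q.under (𝓞 ℚ⟮ζ⟯)) := by
  ext x
  have key : galRestrict ℤ ℚ L (𝓞 L) h (algebraMap (𝓞 ℚ⟮ζ⟯) (𝓞 L) x) =
      algebraMap (𝓞 ℚ⟮ζ⟯) (𝓞 L) (galRestrict ℤ ℚ ℚ⟮ζ⟯ (𝓞 ℚ⟮ζ⟯) (x9b_res hp hζ h) x) := by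
    apply RingOfIntegers.ext
    rw [x9b_coe_galRestrict]
    show h ((x : ℚ⟮ζ⟯) : L) =
      (((galRestrict ℤ ℚ ℚ⟮ζ⟯ (𝓞 ℚ⟮ζ⟯) (x9b_res hp hζ h) x : 𝓞 ℚ⟮ζ⟯) : ℚ⟮ζ⟯) : L)
    have h2 : ((galRestrict ℤ ℚ ℚ⟮ζ⟯ (𝓞 ℚ⟮ζ⟯) (x9b_res hp hζ h) x : 𝓞 ℚ⟮ζ⟯) : ℚ⟮ζ⟯) =
        x9b_res hp hζ h (x : ℚ⟮ζ⟯) := algebraMap_galRestrict_apply ℤ (x9b_res hp hζ h) x
    rw [h2, x9b_res_commutes]
  simp only [Ideal.under_def, Ideal.mem_comap, x9b_mem_conj, key]

end

theorem x9b_sum_Icc_mul_two (m : ℕ) : (∑ s ∈ Finset.Icc 1 m, s) * 2 = m * (m + 1) := by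
  induction m with
  | zero => simp
  | succ m ih =>
    rw [Finset.sum_Icc_succ_top (by omega), add_mul, ih]
    ring

/-- `1 + 2 + ⋯ + (p-1)/2` is prime to `p`. -/
theorem x9b_sum_coprime {p : ℕ} (hp : p.Prime) (hp3 : 3 ≤ p) :
    Nat.Coprime (∑ s ∈ Finset.Icc 1 ((p - 1) / 2), s) p := by
  rw [Nat.coprime_comm, hp.coprime_iff_not_dvd]
  intro hdvd
  have h2 : p ∣ (∑ s ∈ Finset.Icc 1 ((p - 1) / 2), s) * 2 := Dvd.dvd.mul_right hdvd 2
  rw [x9b_sum_Icc_mul_two] at h2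
  have hm : (p - 1) / 2 < p := by omega
  have hm0 : 0 < (p - 1) / 2 := by omega
  rcases (Nat.Prime.dvd_mul hp).mp h2 with h | h
  · have := Nat.le_of_dvd (by omega) h
    omega
  · have := Nat.le_of_dvd (by omega) h
    omega

/-- In a group, `x ^ a ∈ N`, `x ^ p ∈ N` and `gcd(a, p) = 1` imply `x ∈ N`. -/
theorem x9b_mem_of_pow_mem {G : Type*} [Group G] (N : Subgroup G) {x : G} {a b : ℕ}
    (hab : Nat.Coprime a b) (ha : x ^ a ∈ N) (hb : x ^ b ∈ N) : x ∈ N := by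
  have h1 : (x ^ a) ^ (Nat.gcdA a b) * (x ^ b) ^ (Nat.gcdB a b) = x := by
    rw [← zpow_natCast, ← zpow_natCast, ← zpow_mul, ← zpow_mul, ← zpow_add,
      ← Nat.gcd_eq_gcd_ab, hab.gcd_eq_one, Nat.cast_one, zpow_one]
  rw [← h1]
  exact N.mul_mem (N.zpow_mem ha _) (N.zpow_mem hb _)

/-- (E): the class of a prime of `ℚ(ζ)` above `ℓ ≡ 1 mod p` with nontrivial Frobenius is a norm
class. -/
theorem x9b_mem_normClasses (hS : StickelbergerJacobi) (hN : NormClassesSubgroup) (hC : Compare)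
    (p : ℕ) (L : Type) [Field L] [NumberField L] [IsGalois ℚ L] (ζ : L) (hp : p.Prime)
    (hp3 : 3 ≤ p) (hζ : IsPrimitiveRoot ζ p)
    (hcard : Nat.card {τ : L ≃ₐ[ℚ] L // τ ζ = ζ} = p)
    (hconj : ∀ (g τ : L ≃ₐ[ℚ] L) (k : ℕ), τ ζ = ζ → g ζ = ζ ^ k → g⁻¹ * τ * g = τ ^ k)
    (hunr : ∀ (P : Ideal (𝓞 L)), P.IsPrime → P ≠ ⊥ →
      ∀ τ : L ≃ₐ[ℚ] L, τ ζ = ζ → InInertia τ P → τ = 1)
    (ℓ : ℕ) (Q : Ideal (𝓞 L)) (τ : L ≃ₐ[ℚ] L) (q : (Ideal (𝓞 ℚ⟮ζ⟯))⁰)
    (hℓ : ℓ.Prime) (hℓ1 : ℓ % p = 1) (hQ : Q.IsPrime) (hℓQ : (ℓ : 𝓞 L) ∈ Q) (hτ : τ ζ = ζ)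
    (hτ1 : τ ≠ 1) (hF : IsFrobAt τ Q ℓ)
    (hq : (q : Ideal (𝓞 ℚ⟮ζ⟯)) = Q.under (𝓞 ℚ⟮ζ⟯)) :
    ClassGroup.mk0 q ∈ normClasses ℚ⟮ζ⟯ L := by
  classical
  obtain ⟨N, hNc, hNpow⟩ := hN ℚ⟮ζ⟯ L
  have hfin : Module.finrank ℚ⟮ζ⟯ L = p := x9b_finrank hcard
  rw [← hNc, SetLike.mem_coe]
  -- the automorphisms `h s`, `h s ζ = ζ ^ s`
  have hex : ∀ s : ℕ, ∃ h : L ≃ₐ[ℚ] L, 0 < s → s < p → h ζ = ζ ^ s := by
    intro s
    by_cases hs : 0 < s ∧ s < p
    · have hcop : s.Coprime p :=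
        (Nat.coprime_comm.mp ((Nat.Prime.coprime_iff_not_dvd hp).mpr
          (fun hd => absurd (Nat.le_of_dvd hs.1 hd) (by omega))))
      obtain ⟨h, hh⟩ := x9b_exists_aut_pow hp hζ hcop
      exact ⟨h, fun _ _ => hh⟩
    · exact ⟨1, fun h0 h1 => absurd ⟨h0, h1⟩ hs⟩
  choose h hh using hex
  -- the primes `q_s`
  have hℓK : (ℓ : 𝓞 ℚ⟮ζ⟯) ≠ 0 := Nat.cast_ne_zero.mpr hℓ.ne_zero
  have hmem : ∀ s : ℕ, (ℓ : 𝓞 ℚ⟮ζ⟯) ∈ (x9b_conj (h s) Q).under (𝓞 ℚ⟮ζ⟯) := by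
    intro s
    rw [Ideal.under_def, Ideal.mem_comap, map_natCast]
    exact x9b_natCast_mem_conj (h s) Q ℓ hℓQ
  have hne : ∀ s : ℕ, (x9b_conj (h s) Q).under (𝓞 ℚ⟮ζ⟯) ∈ (Ideal (𝓞 ℚ⟮ζ⟯))⁰ := by
    intro s
    rw [mem_nonZeroDivisors_iff_ne_zero]
    intro h0
    have := hmem s
    rw [h0] at this
    exact hℓK this
  set qs : ℕ → (Ideal (𝓞 ℚ⟮ζ⟯))⁰ := fun s => ⟨(x9b_conj (h s) Q).under (𝓞 ℚ⟮ζ⟯), hne s⟩ with hqs
  -- `Compare`
  have hcmp : ∀ s ∈ Finset.Icc 1 ((p - 1) / 2),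
      ∃ c ∈ N, ClassGroup.mk0 (qs s) = ClassGroup.mk0 q ^ s * c := by
    intro s hs
    rw [Finset.mem_Icc] at hs
    have hs0 : 0 < s := by omega
    have hsp : s < p := by omega
    have hps : ¬ p ∣ s := fun hd => absurd (Nat.le_of_dvd hs0 hd) (by omega)
    have := hQ
    obtain ⟨c, hc, hcs⟩ := hC p L ζ hp hp3 hζ hcard hconj hunr ℓ s Q (x9b_conj (h s) Q) τ q (qs s)
      hℓ hℓ1 hps hQ inferInstance hℓQ (x9b_natCast_mem_conj (h s) Q ℓ hℓQ) hτ hτ1 hF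
      (x9b_isFrobAt_conj hconj hτ (hh s hs0 hsp) hF) hq rfl
    refine ⟨c, ?_, hcs⟩
    rw [← SetLike.mem_coe, hNc]
    exact hc
  choose! c hcN hcs using hcmp
  -- Stickelberger
  have hp2 : p ≠ 2 := by omega
  have hNZ : NeZero p := ⟨hp.ne_zero⟩
  have hcyc : IsCyclotomicExtension {p} ℚ ℚ⟮ζ⟯ :=
    hζ.intermediateField_adjoin_isCyclotomicExtension ℚ
  have hqprime : (q : Ideal (𝓞 ℚ⟮ζ⟯)).IsPrime := by
    rw [hq]
    have := hQ
    infer_instance
  have hℓq : (ℓ : 𝓞 ℚ⟮ζ⟯) ∈ (q : Ideal (𝓞 ℚ⟮ζ⟯)) := by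
    rw [hq, Ideal.under_def, Ideal.mem_comap, map_natCast]
    exact hℓQ
  have hSt := hS p ℚ⟮ζ⟯ (AdjoinSimple.gen ℚ ζ) (fun s => x9b_res hp hζ (h s)) ℓ
    (q : Ideal (𝓞 ℚ⟮ζ⟯)) hp hp2 (x9b_zetaK_prim hζ)
    (fun s h0 h1 => x9b_res_gen hp hζ (hh s h0 h1)) hℓ hℓ1 hqprime hℓq
  have hprod : (∏ s ∈ Finset.Icc 1 ((p - 1) / 2), ClassGroup.mk0 (qs s)) = 1 := by
    rw [← map_prod]
    have hmem' : ((∏ s ∈ Finset.Icc 1 ((p - 1) / 2), qs s : (Ideal (𝓞 ℚ⟮ζ⟯))⁰) :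
        Ideal (𝓞 ℚ⟮ζ⟯)) ∈ (Ideal (𝓞 ℚ⟮ζ⟯))⁰ := (∏ s ∈ Finset.Icc 1 ((p - 1) / 2), qs s).2
    have := (ClassGroup.mk0_eq_one_iff hmem').mpr (by
      rw [Submonoid.coe_finsetProd]
      have heq : ∀ s ∈ Finset.Icc 1 ((p - 1) / 2), ((qs s : (Ideal (𝓞 ℚ⟮ζ⟯))⁰) :
          Ideal (𝓞 ℚ⟮ζ⟯)) = Ideal.comap (galRestrict ℤ ℚ ℚ⟮ζ⟯ (𝓞 ℚ⟮ζ⟯) (x9b_res hp hζ (h s)))
            (q : Ideal (𝓞 ℚ⟮ζ⟯)) := by
        intro s _
        rw [hq, ← x9b_under_conj hp hζ (h s) Q]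
      rw [Finset.prod_congr rfl heq]
      exact hSt)
    exact this
  -- conclusion
  have hpow : ClassGroup.mk0 q ^ (∑ s ∈ Finset.Icc 1 ((p - 1) / 2), s) ∈ N := by
    have h1 : (∏ s ∈ Finset.Icc 1 ((p - 1) / 2), ClassGroup.mk0 (qs s)) =
        ClassGroup.mk0 q ^ (∑ s ∈ Finset.Icc 1 ((p - 1) / 2), s) *
          ∏ s ∈ Finset.Icc 1 ((p - 1) / 2), c s := by
      rw [← Finset.prod_pow_eq_pow_sum, ← Finset.prod_mul_distrib]
      exact Finset.prod_congr rfl fun s hs => hcs s hs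
    rw [hprod] at h1
    have h2 : ClassGroup.mk0 q ^ (∑ s ∈ Finset.Icc 1 ((p - 1) / 2), s) =
        (∏ s ∈ Finset.Icc 1 ((p - 1) / 2), c s)⁻¹ := eq_inv_of_mul_eq_one_left h1.symm
    rw [h2]
    exact N.inv_mem (N.prod_mem fun s hs => hcN s hs)
  have hpp : ClassGroup.mk0 q ^ p ∈ N := by
    have := hNpow (ClassGroup.mk0 q)
    rwa [hfin] at this
  exact x9b_mem_of_pow_mem N (x9b_sum_coprime hp hp3) hpow hpp

/-- (E) in the form consumed by the final assembly. -/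
theorem x9b_mem_of_frob_ne_one (hS : StickelbergerJacobi) (hN : NormClassesSubgroup)
    (hC : Compare)
    (p : ℕ) (L : Type) [Field L] [NumberField L] [IsGalois ℚ L] (ζ : L) (hp : p.Prime)
    (hp3 : 3 ≤ p) (hζ : IsPrimitiveRoot ζ p)
    (hcard : Nat.card {τ : L ≃ₐ[ℚ] L // τ ζ = ζ} = p)
    (hconj : ∀ (g τ : L ≃ₐ[ℚ] L) (k : ℕ), τ ζ = ζ → g ζ = ζ ^ k → g⁻¹ * τ * g = τ ^ k)
    (hunr : ∀ (P : Ideal (𝓞 L)), P.IsPrime → P ≠ ⊥ →
      ∀ τ : L ≃ₐ[ℚ] L, τ ζ = ζ → InInertia τ P → τ = 1)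
    (ℓ : ℕ) (Q : Ideal (𝓞 L)) (τ : L ≃ₐ[ℚ] L) (q : (Ideal (𝓞 ℚ⟮ζ⟯))⁰)
    (hℓ : ℓ.Prime) (hℓ1 : ℓ % p = 1) (hQ : Q.IsPrime) (hℓQ : (ℓ : 𝓞 L) ∈ Q) (hτ : τ ζ = ζ)
    (hτ1 : τ ≠ 1) (hF : IsFrobAt τ Q ℓ)
    (hq : (q : Ideal (𝓞 ℚ⟮ζ⟯)) = Q.under (𝓞 ℚ⟮ζ⟯)) :
    ∃ N : Subgroup (ClassGroup (𝓞 ℚ⟮ζ⟯)),
      (N : Set (ClassGroup (𝓞 ℚ⟮ζ⟯))) = normClasses ℚ⟮ζ⟯ L ∧ ClassGroup.mk0 q ∈ N := by
  obtain ⟨N, hNc, -⟩ := hN ℚ⟮ζ⟯ L
  refine ⟨N, hNc, ?_⟩
  rw [← SetLike.mem_coe, hNc]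
  exact x9b_mem_normClasses hS hN hC p L ζ hp hp3 hζ hcard hconj hunr ℓ Q τ q hℓ hℓ1 hQ hℓQ hτ
    hτ1 hF hq

end Fermat.Agent.S14
end MergeWrap_S14_FinalB

section MergeWrap_S14_FinalAssembly -- from S14/FinalAssembly.lean

/-!
# S14 (X9): the final assembly

`FinalAssembly : FirstIneq → StickelbergerJacobi → NormClassesSubgroup → Compare → NoExt`
(helper13; part (E) is helper26's `x9b_mem_normClasses`).
-/

set_option autoImplicit false

open NumberField IntermediateField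
open scoped nonZeroDivisors

namespace Fermat.Agent.S14

section

variable {L : Type} [Field L] [NumberField L] [IsGalois ℚ L] {ζ : L} {p : ℕ}

/-- Every nonzero prime of `ℚ(ζ)` has its class in `normClasses ℚ(ζ) L`. -/
theorem x9a_prime_mem_normClasses (hS : StickelbergerJacobi) (hN : NormClassesSubgroup)
    (hC : Compare) (hp : p.Prime) (hp3 : 3 ≤ p) (hζ : IsPrimitiveRoot ζ p)
    (hcard : Nat.card {τ : L ≃ₐ[ℚ] L // τ ζ = ζ} = p)
    (hconj : ∀ (g τ : L ≃ₐ[ℚ] L) (k : ℕ), τ ζ = ζ → g ζ = ζ ^ k → g⁻¹ * τ * g = τ ^ k)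
    (hunr : ∀ (P : Ideal (𝓞 L)), P.IsPrime → P ≠ ⊥ →
      ∀ τ : L ≃ₐ[ℚ] L, τ ζ = ζ → InInertia τ P → τ = 1)
    (q : (Ideal (𝓞 ℚ⟮ζ⟯))⁰) (hq : (q : Ideal (𝓞 ℚ⟮ζ⟯)).IsPrime) :
    ClassGroup.mk0 q ∈ normClasses ℚ⟮ζ⟯ L := by
  have hq0 : (q : Ideal (𝓞 ℚ⟮ζ⟯)) ≠ ⊥ := mem_nonZeroDivisors_iff_ne_zero.mp q.2
  have : NeZero (q : Ideal (𝓞 ℚ⟮ζ⟯)) := ⟨hq0⟩
  have hqmax : (q : Ideal (𝓞 ℚ⟮ζ⟯)).IsMaximal := hq.isMaximal hq0
  -- the rational prime below `q`
  set ℓ : ℕ := Ideal.absNorm (Ideal.under ℤ (q : Ideal (𝓞 ℚ⟮ζ⟯))) with hℓdef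
  have hℓ : ℓ.Prime := Nat.absNorm_under_prime (q : Ideal (𝓞 ℚ⟮ζ⟯))
  have hℓq : (ℓ : 𝓞 ℚ⟮ζ⟯) ∈ (q : Ideal (𝓞 ℚ⟮ζ⟯)) := Int.absNorm_under_mem _
  by_cases hℓp : ℓ = p
  · rw [hℓp] at hℓq
    exact x9a_mk0_mem_of_mem hp hζ q hq hℓq
  -- a prime of `L` above `q`
  obtain ⟨Q, hQmax, hQover⟩ :=
    Ideal.exists_maximal_ideal_liesOver_of_isIntegral (S := 𝓞 L) (q : Ideal (𝓞 ℚ⟮ζ⟯))
  have hQ : Q.IsPrime := hQmax.isPrime
  have hqQ : (q : Ideal (𝓞 ℚ⟮ζ⟯)) = Q.under (𝓞 ℚ⟮ζ⟯) := hQover.over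
  have hℓQ : (ℓ : 𝓞 L) ∈ Q := by
    have h1 := hℓq
    rw [hqQ, Ideal.under_def, Ideal.mem_comap, map_natCast] at h1
    exact h1
  have hQ0 : Q ≠ ⊥ := x9a_ne_bot_of_natCast_mem hℓ hℓQ
  obtain ⟨φ, hφ⟩ := x9a_exists_frob hℓ hQ hℓQ
  have hℓp' : ¬ ℓ ∣ p := fun h => hℓp ((Nat.prime_dvd_prime_iff_eq hℓ hp).mp h)
  have hφζ : φ ζ = ζ ^ ℓ := x9a_frob_root hℓ hQ hℓQ hφ hp.ne_zero hζ.pow_eq_one hℓp'
  by_cases hφf : φ ^ orderOf (ℓ : ZMod p) = 1
  · -- trivial Frobenius: `q` is the norm of `Q`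
    have hrel := x9a_relNorm_eq hp hζ hℓ hℓp hQ hℓQ hφ hφf
    exact ⟨⟨Q, mem_nonZeroDivisors_iff_ne_zero.mpr hQ0⟩, q, hqQ.trans hrel.symm, rfl⟩
  · -- nontrivial Frobenius: `ℓ ≡ 1 mod p`, use (E)
    have hℓ1 : ℓ % p = 1 := by
      by_contra h
      exact hφf (x9a_frob_pow_eq_one hp hζ hcard hconj hℓ.pos h hφζ)
    have hone : (ℓ : ZMod p) = 1 := by
      have h1 : ((ℓ : ℕ) : ZMod p) = ((1 : ℕ) : ZMod p) := by
        rw [ZMod.natCast_eq_natCast_iff', hℓ1, Nat.mod_eq_of_lt hp.one_lt]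
      simpa using h1
    have hord : orderOf (ℓ : ZMod p) = 1 := by rw [hone, orderOf_one]
    have hφ1 : φ ≠ 1 := by
      intro h
      apply hφf
      rw [h, one_pow]
    have hφfix : φ ζ = ζ := by
      have := x9a_pow_orderOf_apply hp hζ hφζ
      rwa [hord, pow_one] at this
    exact x9b_mem_normClasses hS hN hC p L ζ hp hp3 hζ hcard hconj hunr ℓ Q φ q hℓ hℓ1 hQ hℓQ
      hφfix hφ1 hφ hqQ

end

/-- **(X9)**: the final assembly of `NoExt`. -/
theorem finalAssembly : FinalAssembly := by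
  intro hF hS hN hC p L _ _ _ ζ hp hp3 hζ hcard hconj hunr
  have hfin : Module.finrank ℚ⟮ζ⟯ L = p := (x9a_finrank ζ).trans hcard
  have hU : UnramifiedEverywhere ℚ⟮ζ⟯ L := x9a_unramified ζ hunr
  obtain ⟨c, hc⟩ := hF p ℚ⟮ζ⟯ L hp (by omega) hfin hU
  apply hc
  exact x9a_all_norm_of_primes
    (fun q hq => x9a_prime_mem_normClasses hS hN hC hp hp3 hζ hcard hconj hunr q hq) c

end Fermat.Agent.S14
end MergeWrap_S14_FinalAssembly

section MergeWrap_S14_Reduction -- from S14/Reduction.lean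

set_option autoImplicit false

namespace Fermat.Agent.S14Red

open ExtCitation ValuationSubring

/-- The absolute Galois group of `ℚ`. -/
abbrev GQ : Type := AlgebraicClosure ℚ ≃ₐ[ℚ] AlgebraicClosure ℚ

/-- The mod `p` cyclotomic character with values in `ZMod p`. -/
noncomputable def chi (p : ℕ) [Fact p.Prime] (σ : GQ) : ZMod p := ((cycloChar p σ : (ZMod p)ˣ) : ZMod p)

lemma chi_one (p : ℕ) [Fact p.Prime] : chi p 1 = 1 := by
  simp [chi]

lemma chi_mul (p : ℕ) [Fact p.Prime] (σ τ : GQ) : chi p (σ * τ) = chi p σ * chi p τ := by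
  simp [chi, map_mul]

lemma chi_ne_zero (p : ℕ) [Fact p.Prime] (σ : GQ) : chi p σ ≠ 0 :=
  (cycloChar p σ).ne_zero

lemma chi_inv (p : ℕ) [Fact p.Prime] (σ : GQ) : chi p σ⁻¹ = (chi p σ)⁻¹ := by
  have h : chi p σ⁻¹ * chi p σ = 1 := by rw [← chi_mul, inv_mul_cancel, chi_one]
  exact eq_inv_of_mul_eq_one_left h

lemma chi_eq_cycloExp (p : ℕ) [Fact p.Prime] (σ : GQ) : chi p σ = (cycloExp p σ : ZMod p) :=
  coe_cycloChar p σ

/-- (A) every admissible twisted cocycle is a coboundary. -/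
def CocycleVanishing (p : ℕ) [Fact p.Prime] : Prop :=
  ∀ b : GQ → ZMod p,
    (∀ σ τ : GQ, b (σ * τ) = chi p τ * b σ + b τ) →
    IsOpen {σ : GQ | chi p σ = 1 ∧ b σ = 0} →
    (∀ ℓ : ℕ, ℓ.Prime → ℓ ≠ p → ∀ A : ValuationSubring (AlgebraicClosure ℚ), A.LiesOverPrime ℓ →
      ∀ σ ∈ A.inertiaSubgroupIn ℚ, chi p σ = 1 ∧ b σ = 0) →
    (∀ A : ValuationSubring (AlgebraicClosure ℚ), A.LiesOverPrime p →
      ∃ t : ZMod p, ∀ σ ∈ A.decompositionSubgroup ℚ, b σ = (chi p σ - 1) * t) →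
    ∃ t : ZMod p, ∀ σ : GQ, b σ = (chi p σ - 1) * t

/-- (B) every admissible `ω⁻¹`-character of `G_{ℚ(ζ_p)}` is trivial. -/
def CharacterVanishing (p : ℕ) [Fact p.Prime] : Prop :=
  ∀ ψ : GQ → ZMod p,
    (∀ g h : GQ, chi p g = 1 → chi p h = 1 → ψ (g * h) = ψ g + ψ h) →
    (∀ g h : GQ, chi p h = 1 → ψ (g * h * g⁻¹) = (chi p g)⁻¹ * ψ h) →
    IsOpen {σ : GQ | chi p σ = 1 ∧ ψ σ = 0} →
    (∀ ℓ : ℕ, ℓ.Prime → ℓ ≠ p → ∀ A : ValuationSubring (AlgebraicClosure ℚ), A.LiesOverPrime ℓ →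
      ∀ σ ∈ A.inertiaSubgroupIn ℚ, chi p σ = 1 ∧ ψ σ = 0) →
    (∀ A : ValuationSubring (AlgebraicClosure ℚ), A.LiesOverPrime p →
      ∀ σ ∈ A.decompositionSubgroup ℚ, chi p σ = 1 → ψ σ = 0) →
    ∀ σ : GQ, chi p σ = 1 → ψ σ = 0

/-! ### (B) ⇒ (A) -/

section CocycleAlgebra

variable {p : ℕ} [Fact p.Prime] {b : GQ → ZMod p}

lemma cocycle_one (hb : ∀ σ τ : GQ, b (σ * τ) = chi p τ * b σ + b τ) : b 1 = 0 := by
  have h := hb 1 1
  rw [mul_one, chi_one, one_mul] at h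
  have : b 1 + b 1 = b 1 + 0 := by rw [add_zero]; exact h.symm
  exact add_left_cancel this

lemma cocycle_inv (hb : ∀ σ τ : GQ, b (σ * τ) = chi p τ * b σ + b τ) (g : GQ) :
    b g⁻¹ = -((chi p g)⁻¹ * b g) := by
  have h := hb g g⁻¹
  rw [mul_inv_cancel, cocycle_one hb, chi_inv] at h
  exact eq_neg_of_add_eq_zero_right h.symm

lemma cocycle_conj (hb : ∀ σ τ : GQ, b (σ * τ) = chi p τ * b σ + b τ) (g h : GQ)
    (hh : chi p h = 1) : b (g * h * g⁻¹) = (chi p g)⁻¹ * b h := by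
  rw [hb (g * h) g⁻¹, hb g h, hh, one_mul, cocycle_inv hb, chi_inv]
  ring

end CocycleAlgebra

theorem cocycleVanishing_of_characterVanishing (p : ℕ) [Fact p.Prime]
    (H : CharacterVanishing p) : CocycleVanishing p := by
  intro b hb hopen hunr hloc
  -- `b` vanishes on `ker χ`
  have hker : ∀ σ : GQ, chi p σ = 1 → b σ = 0 := by
    refine H b ?_ ?_ hopen hunr ?_
    · intro g h _ hh
      rw [hb g h, hh, one_mul]
    · intro g h hh
      exact cocycle_conj hb g h hh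
    · intro A hA σ hσ hχ
      obtain ⟨t, ht⟩ := hloc A hA
      rw [ht σ hσ, hχ, sub_self, zero_mul]
  -- commutation relation
  have hcomm : ∀ σ τ : GQ, (chi p τ - 1) * b σ = (chi p σ - 1) * b τ := by
    intro σ τ
    -- `σ τ = (τ σ) k` with `k = (τ σ)⁻¹ (σ τ) ∈ ker χ`
    have hk : chi p ((τ * σ)⁻¹ * (σ * τ)) = 1 := by
      rw [chi_mul, chi_inv, chi_mul, chi_mul, mul_comm (chi p τ) (chi p σ)]
      exact inv_mul_cancel₀ (mul_ne_zero (chi_ne_zero p σ) (chi_ne_zero p τ))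
    have h1 : b (σ * τ) = b (τ * σ) := by
      have h2 := hb (τ * σ) ((τ * σ)⁻¹ * (σ * τ))
      rw [mul_inv_cancel_left, hk, one_mul, hker _ hk, add_zero] at h2
      exact h2
    rw [hb σ τ, hb τ σ] at h1
    linear_combination h1
  by_cases hall : ∀ σ : GQ, chi p σ = 1
  · exact ⟨0, fun σ => by rw [hker σ (hall σ), mul_zero]⟩
  · push Not at hall
    obtain ⟨σ₀, hσ₀⟩ := hall
    have hne : chi p σ₀ - 1 ≠ 0 := sub_ne_zero.mpr hσ₀
    refine ⟨(chi p σ₀ - 1)⁻¹ * b σ₀, fun τ => ?_⟩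
    have h := hcomm σ₀ τ
    field_simp
    linear_combination -h

/-! ### (A) ⇒ `ExtVanishingCts p` -/

section Admissible

variable {p : ℕ} [Fact p.Prime]
variable {V : Type} [AddCommGroup V] [Module (ZMod p) V]
  [DistribMulAction GQ V] [SMulCommClass GQ (ZMod p) V]

/-- The structure of an admissible extension in coordinates. -/
theorem exists_coordinates (C : Submodule (ZMod p) V) (hadm : IsAdmissibleExtensionCts p V C) :
    ∃ (c v₀ : V), c ∈ C ∧ c ≠ 0 ∧ v₀ ∉ C ∧ (∀ x ∈ C, ∃ a : ZMod p, x = a • c) ∧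
      (∀ x : V, ∃ a e : ZMod p, x = a • v₀ + e • c) ∧
      (∀ a e : ZMod p, a • v₀ + e • c = 0 → a = 0 ∧ e = 0) := by
  classical
  have hp1 : 1 < p := (Fact.out : p.Prime).one_lt
  have : Finite V := Nat.finite_of_card_ne_zero (by
    rw [hadm.card_total]; exact pow_ne_zero 2 (Fact.out : p.Prime).ne_zero)
  haveI : Fintype V := Fintype.ofFinite V
  have : Module.Finite (ZMod p) V := Module.Finite.of_finite
  -- dimensions
  have hcardV : Nat.card V = p ^ Module.finrank (ZMod p) V := by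
    have := Module.natCard_eq_pow_finrank (K := ZMod p) (V := V)
    simpa [Nat.card_zmod] using this
  have hcardC : Nat.card C = p ^ Module.finrank (ZMod p) C := by
    have := Module.natCard_eq_pow_finrank (K := ZMod p) (V := C)
    simpa [Nat.card_zmod] using this
  have hV2 : Module.finrank (ZMod p) V = 2 := by
    have h := hadm.card_total
    rw [hcardV] at h
    exact Nat.pow_right_injective hp1 h
  have hC1 : Module.finrank (ZMod p) C = 1 := by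
    have h := hadm.card_sub
    rw [hcardC] at h
    exact Nat.pow_right_injective hp1 (by simpa using h)
  obtain ⟨c', hc'0, hc'⟩ := finrank_eq_one_iff'.mp hC1
  set c : V := (c' : V) with hc
  have hcC : c ∈ C := c'.2
  have hc0 : c ≠ 0 := fun h => hc'0 (Subtype.ext h)
  have hspanC : ∀ x ∈ C, ∃ a : ZMod p, x = a • c := by
    intro x hx
    obtain ⟨a, ha⟩ := hc' ⟨x, hx⟩
    exact ⟨a, by simpa [hc] using (congrArg Subtype.val ha).symm⟩
  -- a vector outside `C`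
  have hCtop : C ≠ ⊤ := by
    intro h
    have : Module.finrank (ZMod p) C = Module.finrank (ZMod p) V := by
      rw [h, finrank_top]
    omega
  obtain ⟨v₀, -, hv₀⟩ := SetLike.exists_of_lt (lt_top_iff_ne_top.mpr hCtop)
  -- linear independence of `v₀, c`
  have hind : ∀ a e : ZMod p, a • v₀ + e • c = 0 → a = 0 ∧ e = 0 := by
    intro a e h
    have ha : a = 0 := by
      by_contra ha
      apply hv₀
      have : v₀ = (-(a⁻¹ * e)) • c := by
        have h2 : a • v₀ = -(e • c) := eq_neg_of_add_eq_zero_left h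
        calc v₀ = a⁻¹ • (a • v₀) := by rw [smul_smul, inv_mul_cancel₀ ha, one_smul]
          _ = a⁻¹ • (-(e • c)) := by rw [h2]
          _ = (-(a⁻¹ * e)) • c := by rw [smul_neg, smul_smul, neg_smul]
      rw [this]
      exact C.smul_mem _ hcC
    subst ha
    rw [zero_smul, zero_add] at h
    exact ⟨rfl, (smul_eq_zero.mp h).resolve_right hc0⟩
  have hli : LinearIndependent (ZMod p) ![v₀, c] := by
    rw [LinearIndependent.pair_iff]
    intro s t hst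
    exact hind s t hst
  have hspan : Submodule.span (ZMod p) (Set.range ![v₀, c]) = ⊤ := by
    apply hli.span_eq_top_of_card_eq_finrank'
    rw [hV2]
    simp
  have hgen : ∀ x : V, ∃ a e : ZMod p, x = a • v₀ + e • c := by
    intro x
    have hx : x ∈ Submodule.span (ZMod p) (Set.range ![v₀, c]) := by rw [hspan]; trivial
    have hr : Set.range ![v₀, c] = {v₀, c} := by
      ext y
      simp only [Matrix.range_cons, Matrix.range_empty, Set.union_empty, Set.mem_union,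
        Set.mem_singleton_iff, Set.mem_insert_iff]
    rw [hr, Submodule.mem_span_pair] at hx
    obtain ⟨a, e, h⟩ := hx
    exact ⟨a, e, h.symm⟩
  exact ⟨c, v₀, hcC, hc0, hv₀, hspanC, hgen, hind⟩

end Admissible

theorem extVanishingCts_of_cocycleVanishing (p : ℕ) [Fact p.Prime]
    (H : CocycleVanishing p) : ExtVanishingCts p := by
  intro V _ _ _ _ C hadm
  classical
  obtain ⟨c, v₀, hcC, hc0, hv₀, hspanC, hgen, hind⟩ := exists_coordinates C hadm
  -- the cocycle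
  have hex : ∀ σ : GQ, ∃ a : ZMod p, σ • v₀ - chi p σ • v₀ = a • c := by
    intro σ
    have h := hadm.cyclo_quot σ v₀
    rw [← chi_eq_cycloExp] at h
    exact hspanC _ h
  choose b hb using hex
  have hσv : ∀ σ : GQ, σ • v₀ = chi p σ • v₀ + b σ • c := fun σ => by
    rw [← hb σ]; abel
  have hσc : ∀ σ : GQ, σ • c = c := fun σ => hadm.fixed_sub σ c hcC
  have hact : ∀ (σ : GQ) (a e : ZMod p),
      σ • (a • v₀ + e • c) = (a * chi p σ) • v₀ + (a * b σ + e) • c := by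
    intro σ a e
    rw [smul_add, smul_comm σ a v₀, smul_comm σ e c, hσc, hσv, smul_add, smul_smul, smul_smul,
      add_smul]
    abel
  have huniq : ∀ a e a' e' : ZMod p, a • v₀ + e • c = a' • v₀ + e' • c → a = a' ∧ e = e' := by
    intro a e a' e' h
    have h0 : (a - a') • v₀ + (e - e') • c = 0 := by
      rw [sub_smul, sub_smul]
      have := sub_eq_zero.mpr h
      rw [← this]; abel
    obtain ⟨h1, h2⟩ := hind _ _ h0
    exact ⟨sub_eq_zero.mp h1, sub_eq_zero.mp h2⟩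
  -- cocycle identity
  have hcoc : ∀ σ τ : GQ, b (σ * τ) = chi p τ * b σ + b τ := by
    intro σ τ
    have h1 : (σ * τ) • v₀ = chi p (σ * τ) • v₀ + b (σ * τ) • c := hσv _
    have h2 : (σ * τ) • v₀ = (chi p τ * chi p σ) • v₀ + (chi p τ * b σ + b τ) • c := by
      rw [mul_smul, hσv τ, hact]
    rw [h1] at h2
    exact (huniq _ _ _ _ h2).2
  -- the kernel of the action
  have hfix_iff : ∀ σ : GQ, (∀ v : V, σ • v = v) ↔ (chi p σ = 1 ∧ b σ = 0) := by
    intro σ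
    constructor
    · intro h
      have h1 := h v₀
      rw [hσv] at h1
      have h2 : chi p σ • v₀ + b σ • c = (1 : ZMod p) • v₀ + (0 : ZMod p) • c := by
        rw [h1, one_smul, zero_smul, add_zero]
      exact huniq _ _ _ _ h2
    · rintro ⟨h1, h2⟩ v
      obtain ⟨a, e, rfl⟩ := hgen v
      rw [hact, h1, h2, mul_one, mul_zero, zero_add]
  have hopen : IsOpen {σ : GQ | chi p σ = 1 ∧ b σ = 0} := by
    have := hadm.open_kernel
    convert this using 1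
    ext σ
    exact (hfix_iff σ).symm
  have hunr : ∀ ℓ : ℕ, ℓ.Prime → ℓ ≠ p → ∀ A : ValuationSubring (AlgebraicClosure ℚ),
      A.LiesOverPrime ℓ → ∀ σ ∈ A.inertiaSubgroupIn ℚ, chi p σ = 1 ∧ b σ = 0 := by
    intro ℓ hℓ hℓp A hA σ hσ
    exact (hfix_iff σ).mp (hadm.unramified_outside ℓ hℓ hℓp A hA σ hσ)
  have hloc : ∀ A : ValuationSubring (AlgebraicClosure ℚ), A.LiesOverPrime p →
      ∃ t : ZMod p, ∀ σ ∈ A.decompositionSubgroup ℚ, b σ = (chi p σ - 1) * t := by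
    intro A hA
    obtain ⟨C', hC'st, hC'⟩ := hadm.locally_split A hA
    -- a vector of `C'` of the form `v₀ + t c`
    have hv₀top : v₀ ∈ C ⊔ C' := by rw [hC'.sup_eq_top]; trivial
    obtain ⟨x, hx, y, hy, hxy⟩ := Submodule.mem_sup.mp hv₀top
    obtain ⟨s, rfl⟩ := hspanC x hx
    -- `y = v₀ - s c`
    have hy' : y = (1 : ZMod p) • v₀ + (-s) • c := by
      rw [one_smul, neg_smul, ← hxy]; abel
    refine ⟨-s, fun σ hσ => ?_⟩
    have hσy : σ • y ∈ C' := hC'st σ hσ y hy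
    -- `σ y - χ(σ) y ∈ C ∩ C' = 0`
    have hdiff : σ • y - chi p σ • y = (b σ - (chi p σ - 1) * (-s)) • c := by
      rw [hy', hact]
      module
    have hmemC : σ • y - chi p σ • y ∈ C := by
      rw [hdiff]; exact C.smul_mem _ hcC
    have hmemC' : σ • y - chi p σ • y ∈ C' := C'.sub_mem hσy (C'.smul_mem _ hy)
    have hzero : σ • y - chi p σ • y = 0 := by
      have := hC'.disjoint.le_bot (Submodule.mem_inf.mpr ⟨hmemC, hmemC'⟩)
      simpa using this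
    rw [hdiff] at hzero
    have := (smul_eq_zero.mp hzero).resolve_right hc0
    exact sub_eq_zero.mp this
  obtain ⟨t, ht⟩ := H b hcoc hopen hunr hloc
  -- the global complement
  refine ⟨Submodule.span (ZMod p) {v₀ + t • c}, ?_, ?_⟩
  · intro σ x hx
    obtain ⟨a, rfl⟩ := Submodule.mem_span_singleton.mp hx
    rw [smul_comm σ a]
    apply Submodule.smul_mem
    have : σ • (v₀ + t • c) = chi p σ • (v₀ + t • c) := by
      have h1 : v₀ + t • c = (1 : ZMod p) • v₀ + t • c := by rw [one_smul]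
      rw [h1, hact, ht σ]
      module
    rw [this]
    exact Submodule.smul_mem _ _ (Submodule.mem_span_singleton_self _)
  · refine ⟨?_, ?_⟩
    · rw [Submodule.disjoint_def]
      intro x hxC hx
      obtain ⟨a, rfl⟩ := Submodule.mem_span_singleton.mp hx
      obtain ⟨e, he⟩ := hspanC _ hxC
      have h0 : a • v₀ + (a * t - e) • c = 0 := by
        have : a • (v₀ + t • c) - e • c = 0 := sub_eq_zero.mpr he
        rw [← this]
        module
      obtain ⟨ha, -⟩ := hind _ _ h0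
      rw [ha, zero_smul]
    · rw [codisjoint_iff, _root_.eq_top_iff]
      intro x _
      obtain ⟨a, e, rfl⟩ := hgen x
      have : a • v₀ + e • c = (e - a * t) • c + a • (v₀ + t • c) := by
        module
      rw [this]
      exact Submodule.add_mem_sup (C.smul_mem _ hcC)
        (Submodule.smul_mem _ _ (Submodule.mem_span_singleton_self _))

/-- The top bridge for S14. -/
theorem extVanishingCts_of_characterVanishing (p : ℕ) [Fact p.Prime]
    (H : CharacterVanishing p) : ExtVanishingCts p :=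
  extVanishingCts_of_cocycleVanishing p (cocycleVanishing_of_characterVanishing p H)

end Fermat.Agent.S14Red
end MergeWrap_S14_Reduction

section MergeWrap_S14_FrontEnd -- from S14/FrontEnd.lean

set_option autoImplicit false

namespace Fermat.Agent.S14FE

open Fermat.Agent.S14Red NumberField

abbrev Qb : Type := AlgebraicClosure ℚ

variable {p : ℕ} [Fact p.Prime]

attribute [local instance] Fermat.Agent.FrobExists.isAlgebraic_Qb
  Fermat.Agent.FrobExists.isAlgClosure_Qb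

/-- The defining property of the mod `p` cyclotomic character. -/
theorem apply_eq_pow_chi (σ : GQ) {ζ : Qb} (hζ : ζ ^ p = 1) :
    σ ζ = ζ ^ (chi p σ).val := by
  have : NeZero p := ⟨(Fact.out : p.Prime).ne_zero⟩
  have hu : IsUnit ζ := IsUnit.of_pow_eq_one hζ (NeZero.ne p)
  obtain ⟨u, rfl⟩ := hu
  have hmem : u ∈ rootsOfUnity p Qb := by
    rw [mem_rootsOfUnity]
    exact Units.ext (by simpa using hζ)
  have h := modularCyclotomicCharacter.spec Qb (ExtCitation.card_rootsOfUnity_eq_self p)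
    (σ : Qb ≃+* Qb) hmem
  exact h

theorem chi_eq_one_iff (σ : GQ) {ζ : Qb} (hζ : IsPrimitiveRoot ζ p) :
    chi p σ = 1 ↔ σ ζ = ζ := by
  have : NeZero p := ⟨(Fact.out : p.Prime).ne_zero⟩
  have hp1 : 1 < p := (Fact.out : p.Prime).one_lt
  rw [apply_eq_pow_chi σ hζ.pow_eq_one]
  constructor
  · intro h
    rw [h, ZMod.val_one'' (by omega), pow_one]
  · intro h
    have h2 : ζ ^ (chi p σ).val = ζ ^ 1 := by rw [h, pow_one]
    have h3 := hζ.pow_inj (ZMod.val_lt _) hp1 h2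
    have : ((chi p σ).val : ZMod p) = ((1 : ℕ) : ZMod p) := by rw [h3]
    simpa using this

theorem chi_eq_natCast_of_apply (σ : GQ) {ζ : Qb} (hζ : IsPrimitiveRoot ζ p) (k : ℕ)
    (h : σ ζ = ζ ^ k) : chi p σ = (k : ZMod p) := by
  have : NeZero p := ⟨(Fact.out : p.Prime).ne_zero⟩
  rw [apply_eq_pow_chi σ hζ.pow_eq_one] at h
  have hfin : IsOfFinOrder ζ :=
    isOfFinOrder_iff_pow_eq_one.mpr ⟨p, Nat.pos_of_ne_zero (NeZero.ne p), hζ.pow_eq_one⟩
  have h3 := hfin.pow_eq_pow_iff_modEq.mp h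
  rw [← hζ.eq_orderOf] at h3
  have := (ZMod.natCast_eq_natCast_iff _ _ _).mpr h3
  simpa using this

/-! ### The character `ψ` on `ker χ` -/

section Character

variable {ψ : GQ → ZMod p}

theorem psi_one (hadd : ∀ g h : GQ, chi p g = 1 → chi p h = 1 → ψ (g * h) = ψ g + ψ h) :
    ψ 1 = 0 := by
  have h := hadd 1 1 (chi_one p) (chi_one p)
  rw [mul_one] at h
  exact left_eq_add.mp h

theorem chi_inv_eq_one {σ : GQ} (h : chi p σ = 1) : chi p σ⁻¹ = 1 := by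
  rw [chi_inv, h, inv_one]

theorem psi_inv (hadd : ∀ g h : GQ, chi p g = 1 → chi p h = 1 → ψ (g * h) = ψ g + ψ h)
    {σ : GQ} (h : chi p σ = 1) : ψ σ⁻¹ = - ψ σ := by
  have h1 := hadd σ σ⁻¹ h (chi_inv_eq_one h)
  rw [mul_inv_cancel, psi_one hadd] at h1
  exact eq_neg_of_add_eq_zero_right h1.symm

theorem chi_pow_eq_one {σ : GQ} (h : chi p σ = 1) (k : ℕ) : chi p (σ ^ k) = 1 := by
  induction k with
  | zero => rw [pow_zero, chi_one]
  | succ k ih => rw [pow_succ, chi_mul, ih, h, mul_one]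

theorem psi_pow (hadd : ∀ g h : GQ, chi p g = 1 → chi p h = 1 → ψ (g * h) = ψ g + ψ h)
    {σ : GQ} (h : chi p σ = 1) (k : ℕ) : ψ (σ ^ k) = (k : ZMod p) * ψ σ := by
  induction k with
  | zero => rw [pow_zero, psi_one hadd, Nat.cast_zero, zero_mul]
  | succ k ih =>
    rw [pow_succ, hadd _ _ (chi_pow_eq_one h k) h, ih, Nat.cast_succ]
    ring

/-- The subgroup `{χ = 1, ψ = 0}` of the absolute Galois group. -/
def kerSubgroup (ψ : GQ → ZMod p)
    (hadd : ∀ g h : GQ, chi p g = 1 → chi p h = 1 → ψ (g * h) = ψ g + ψ h) : Subgroup GQ where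
  carrier := {σ | chi p σ = 1 ∧ ψ σ = 0}
  one_mem' := ⟨chi_one p, psi_one hadd⟩
  mul_mem' := by
    rintro a b ⟨ha, ha'⟩ ⟨hb, hb'⟩
    refine ⟨by rw [chi_mul, ha, hb, mul_one], ?_⟩
    rw [hadd a b ha hb, ha', hb', add_zero]
  inv_mem' := by
    rintro a ⟨ha, ha'⟩
    exact ⟨chi_inv_eq_one ha, by rw [psi_inv hadd ha, ha', neg_zero]⟩

theorem mem_kerSubgroup (hadd : ∀ g h : GQ, chi p g = 1 → chi p h = 1 → ψ (g * h) = ψ g + ψ h)
    (σ : GQ) : σ ∈ kerSubgroup ψ hadd ↔ chi p σ = 1 ∧ ψ σ = 0 := Iff.rfl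

theorem kerSubgroup_normal
    (hadd : ∀ g h : GQ, chi p g = 1 → chi p h = 1 → ψ (g * h) = ψ g + ψ h)
    (hconj : ∀ g h : GQ, chi p h = 1 → ψ (g * h * g⁻¹) = (chi p g)⁻¹ * ψ h) :
    (kerSubgroup ψ hadd).Normal := by
  constructor
  rintro n ⟨hn, hn'⟩ g
  refine ⟨?_, ?_⟩
  · rw [chi_mul, chi_mul, hn, mul_one, chi_inv, mul_inv_cancel₀ (chi_ne_zero p g)]
  · rw [hconj g n hn, hn', mul_zero]

/-- Two elements of `ker χ` with the same value of `ψ` are congruent modulo `kerSubgroup`. -/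
theorem inv_mul_mem_kerSubgroup
    (hadd : ∀ g h : GQ, chi p g = 1 → chi p h = 1 → ψ (g * h) = ψ g + ψ h)
    {a b : GQ} (ha : chi p a = 1) (hb : chi p b = 1) (hab : ψ a = ψ b) :
    a⁻¹ * b ∈ kerSubgroup ψ hadd := by
  refine ⟨by rw [chi_mul, chi_inv_eq_one ha, hb, mul_one], ?_⟩
  rw [hadd _ _ (chi_inv_eq_one ha) hb, psi_inv hadd ha, hab, neg_add_cancel]

end Character

/-! ### The fixed field -/

section Field

variable {ψ : GQ → ZMod p}
  (hadd : ∀ g h : GQ, chi p g = 1 → chi p h = 1 → ψ (g * h) = ψ g + ψ h)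
  (L : IntermediateField ℚ Qb)
  (hfix : L.fixingSubgroup = kerSubgroup ψ hadd)
  {ζ : Qb} (hζ : IsPrimitiveRoot ζ p)

include hfix hζ in
theorem zeta_mem : ζ ∈ L := by
  rw [← InfiniteGalois.fixedField_fixingSubgroup L, IntermediateField.mem_fixedField_iff]
  intro σ hσ
  rw [hfix] at hσ
  exact (chi_eq_one_iff σ hζ).mp hσ.1

theorem coe_restrict_apply [Normal ℚ L] (σ : GQ) (x : L) :
    ((AlgEquiv.restrictNormalHom L σ x : L) : Qb) = σ (x : Qb) :=
  AlgEquiv.restrictNormal_commutes σ L x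

include hζ in
theorem restrict_fix_iff [Normal ℚ L] (hmem : ζ ∈ L) (σ : GQ) :
    AlgEquiv.restrictNormalHom L σ ⟨ζ, hmem⟩ = ⟨ζ, hmem⟩ ↔ chi p σ = 1 := by
  rw [chi_eq_one_iff σ hζ, Subtype.ext_iff, coe_restrict_apply]

include hfix in
theorem restrict_eq_one_iff [Normal ℚ L] (σ : GQ) :
    AlgEquiv.restrictNormalHom L σ = 1 ↔ σ ∈ kerSubgroup ψ hadd := by
  rw [← hfix, IntermediateField.mem_fixingSubgroup_iff]
  constructor
  · intro h x hx
    have h1 := coe_restrict_apply L σ ⟨x, hx⟩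
    rw [h] at h1
    exact h1.symm
  · intro h
    ext x
    rw [coe_restrict_apply]
    exact h _ x.2

include hfix in
theorem restrict_eq_of_psi_eq [Normal ℚ L] {a b : GQ} (ha : chi p a = 1) (hb : chi p b = 1)
    (hab : ψ a = ψ b) : AlgEquiv.restrictNormalHom L a = AlgEquiv.restrictNormalHom L b := by
  have h := (restrict_eq_one_iff hadd L hfix (a⁻¹ * b)).mpr (inv_mul_mem_kerSubgroup hadd ha hb hab)
  rw [map_mul, map_inv, inv_mul_eq_one] at h
  exact h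

include hfix in
theorem psi_eq_of_restrict_eq [Normal ℚ L] {a b : GQ} (ha : chi p a = 1) (hb : chi p b = 1)
    (hab : AlgEquiv.restrictNormalHom L a = AlgEquiv.restrictNormalHom L b) : ψ a = ψ b := by
  have h : AlgEquiv.restrictNormalHom L (a⁻¹ * b) = 1 := by
    rw [map_mul, map_inv, inv_mul_eq_one]; exact hab
  have h2 := ((restrict_eq_one_iff hadd L hfix (a⁻¹ * b)).mp h).2
  rw [hadd _ _ (chi_inv_eq_one ha) hb, psi_inv hadd ha] at h2
  exact (neg_add_eq_zero.mp h2)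

end Field

/-! ### Primes of the number field and valuation subrings of `ℚ̄` -/

section Valuation

/-- Above every nonzero prime of the ring of integers of a subfield of `ℚ̄` there is a valuation
subring of `ℚ̄`, lying over a rational prime. -/
theorem exists_valuationSubring_of_prime (L : IntermediateField ℚ Qb)
    (P : Ideal (𝓞 L)) (hP : P.IsPrime) (hP0 : P ≠ ⊥) :
    ∃ (B : ValuationSubring Qb) (q : ℕ), q.Prime ∧ B.LiesOverPrime q ∧
      ∀ y ∈ P, (((y : 𝓞 L) : L) : Qb) ∈ B.nonunits := by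
  let f : 𝓞 L →+* Qb := (algebraMap L Qb).comp (algebraMap (𝓞 L) L)
  have hf : Function.Injective f :=
    (algebraMap L Qb).injective.comp (FaithfulSMul.algebraMap_injective (𝓞 L) L)
  let I : Ideal f.range := Ideal.map f.rangeRestrict P
  have hI : I ≠ ⊤ := by
    intro h
    have h1 : (1 : f.range) ∈ I := by rw [h]; trivial
    rw [Ideal.mem_map_iff_of_surjective _ f.rangeRestrict_surjective] at h1
    obtain ⟨y, hy, hy1⟩ := h1
    have h2 : f y = 1 := congrArg Subtype.val hy1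
    have h3 : y = 1 := hf (by rw [h2, map_one])
    rw [h3] at hy
    exact hP.ne_top ((Ideal.eq_top_iff_one P).mpr hy)
  obtain ⟨B, -, hB⟩ := Ideal.image_subset_nonunits_valuationSubring I hI
  have hmemB : ∀ y ∈ P, (((y : 𝓞 L) : L) : Qb) ∈ B.nonunits := by
    intro y hy
    exact hB ⟨f.rangeRestrict y, Ideal.mem_map_of_mem _ hy, rfl⟩
  have : P.IsPrime := hP
  have : NeZero P := ⟨hP0⟩
  have hq : (Ideal.absNorm (Ideal.under ℤ P)).Prime := Nat.absNorm_under_prime P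
  refine ⟨B, Ideal.absNorm (Ideal.under ℤ P), hq, ?_, hmemB⟩
  have h1 : ((Ideal.absNorm (Ideal.under ℤ P) : ℕ) : ℤ) ∈ Ideal.under ℤ P :=
    Ideal.absNorm_mem _
  have h2 : algebraMap ℤ (𝓞 L) ((Ideal.absNorm (Ideal.under ℤ P) : ℕ) : ℤ) ∈ P := h1
  have h3 := hmemB _ h2
  simpa [ValuationSubring.LiesOverPrime] using h3

end Valuation

/-! ### The three conditions of `NoExt` -/

section Conditions

variable {ψ : GQ → ZMod p}
  (hadd : ∀ g h : GQ, chi p g = 1 → chi p h = 1 → ψ (g * h) = ψ g + ψ h)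
  (hconj : ∀ g h : GQ, chi p h = 1 → ψ (g * h * g⁻¹) = (chi p g)⁻¹ * ψ h)
  (L : IntermediateField ℚ Qb) [FiniteDimensional ℚ L] [IsGalois ℚ L]
  (hfix : L.fixingSubgroup = kerSubgroup ψ hadd)
  {ζ : Qb} (hζ : IsPrimitiveRoot ζ p) (hmem : ζ ∈ L)

omit [FiniteDimensional ℚ L] in
theorem exists_lift (τ : L ≃ₐ[ℚ] L) : ∃ σ : GQ, AlgEquiv.restrictNormalHom L σ = τ :=
  AlgEquiv.restrictNormalHom_surjective (F := ℚ) (K₁ := L) Qb τ

omit [FiniteDimensional ℚ L] in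
include hfix hζ in
theorem card_fix (σ₀ : GQ) (hσ₀ : chi p σ₀ = 1) (hψ : ψ σ₀ ≠ 0) :
    Nat.card {τ : L ≃ₐ[ℚ] L // τ ⟨ζ, hmem⟩ = ⟨ζ, hmem⟩} = p := by
  have : NeZero p := ⟨(Fact.out : p.Prime).ne_zero⟩
  let lift : (L ≃ₐ[ℚ] L) → GQ := fun τ => Classical.choose (exists_lift L τ)
  have hlift : ∀ τ, AlgEquiv.restrictNormalHom L (lift τ) = τ :=
    fun τ => Classical.choose_spec (exists_lift L τ)
  have hchi : ∀ τ : {τ : L ≃ₐ[ℚ] L // τ ⟨ζ, hmem⟩ = ⟨ζ, hmem⟩}, chi p (lift τ.1) = 1 := by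
    intro τ
    rw [← restrict_fix_iff L hζ hmem, hlift]
    exact τ.2
  let f : {τ : L ≃ₐ[ℚ] L // τ ⟨ζ, hmem⟩ = ⟨ζ, hmem⟩} → ZMod p := fun τ => ψ (lift τ.1)
  have hinj : Function.Injective f := by
    intro a b hab
    have h := restrict_eq_of_psi_eq hadd L hfix (hchi a) (hchi b) hab
    rw [hlift, hlift] at h
    exact Subtype.ext h
  have hsurj : Function.Surjective f := by
    intro c
    let k : ℕ := (c * (ψ σ₀)⁻¹).val
    have hk : chi p (σ₀ ^ k) = 1 := chi_pow_eq_one hσ₀ k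
    have hψk : ψ (σ₀ ^ k) = c := by
      rw [psi_pow hadd hσ₀, ZMod.natCast_zmod_val, mul_assoc, inv_mul_cancel₀ hψ, mul_one]
    refine ⟨⟨AlgEquiv.restrictNormalHom L (σ₀ ^ k), (restrict_fix_iff L hζ hmem _).mpr hk⟩, ?_⟩
    change ψ (lift (AlgEquiv.restrictNormalHom L (σ₀ ^ k))) = c
    rw [← hψk]
    refine psi_eq_of_restrict_eq hadd L hfix ?_ hk (hlift _)
    rw [← restrict_fix_iff L hζ hmem, hlift]
    exact (restrict_fix_iff L hζ hmem _).mpr hk
  rw [Nat.card_congr (Equiv.ofBijective f ⟨hinj, hsurj⟩), Nat.card_zmod]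

omit [FiniteDimensional ℚ L] in
include hfix hζ hconj in
theorem conj_rel (g τ : L ≃ₐ[ℚ] L) (k : ℕ) (hτ : τ ⟨ζ, hmem⟩ = ⟨ζ, hmem⟩)
    (hg : g ⟨ζ, hmem⟩ = (⟨ζ, hmem⟩ : L) ^ k) : g⁻¹ * τ * g = τ ^ k := by
  obtain ⟨g', rfl⟩ := exists_lift L g
  obtain ⟨τ', rfl⟩ := exists_lift L τ
  have hτ' : chi p τ' = 1 := (restrict_fix_iff L hζ hmem τ').mp hτ
  have hg' : chi p g' = (k : ZMod p) := by
    apply chi_eq_natCast_of_apply g' hζ k
    have h := congrArg (fun x : L => (x : Qb)) hg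
    simpa [coe_restrict_apply] using h
  have h1 : chi p (g'⁻¹ * τ' * g') = 1 := by
    rw [chi_mul, chi_mul, hτ', mul_one, chi_inv, inv_mul_cancel₀ (chi_ne_zero p g')]
  have h2 : ψ (g'⁻¹ * τ' * g') = ψ (τ' ^ k) := by
    have h := hconj g'⁻¹ τ' hτ'
    rw [inv_inv] at h
    rw [h, chi_inv, inv_inv, hg', psi_pow hadd hτ']
  have h3 := restrict_eq_of_psi_eq hadd L hfix h1 (chi_pow_eq_one hτ' k) h2
  rw [map_mul, map_mul, map_inv, map_pow] at h3
  exact h3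

include hfix hζ in
theorem unramified_rel
    (hunr : ∀ ℓ : ℕ, ℓ.Prime → ℓ ≠ p → ∀ A : ValuationSubring (AlgebraicClosure ℚ),
      A.LiesOverPrime ℓ → ∀ σ ∈ A.inertiaSubgroupIn ℚ, chi p σ = 1 ∧ ψ σ = 0)
    (hsplit : ∀ A : ValuationSubring (AlgebraicClosure ℚ), A.LiesOverPrime p →
      ∀ σ ∈ A.decompositionSubgroup ℚ, chi p σ = 1 → ψ σ = 0)
    (P : Ideal (𝓞 L)) (hP : P.IsPrime) (hP0 : P ≠ ⊥) (τ : L ≃ₐ[ℚ] L)
    (hτ : τ ⟨ζ, hmem⟩ = ⟨ζ, hmem⟩)
    (hin : ∀ x : 𝓞 L, ∃ y ∈ P, τ (x : L) - (x : L) = (y : L)) : τ = 1 := by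
  obtain ⟨B, q, hq, hBq, hB⟩ := exists_valuationSubring_of_prime L P hP hP0
  have hs : ∀ x : L, IsIntegral ℤ x →
      ((τ x : L) : AlgebraicClosure ℚ) - (x : AlgebraicClosure ℚ) ∈ B.nonunits := by
    intro x hx
    obtain ⟨y, hy, hxy⟩ := hin ⟨x, hx⟩
    have h1 := hB y hy
    rw [← hxy] at h1
    simpa using h1
  obtain ⟨σ, hσ, hστ⟩ :=
    Fermat.Agent.Minkowski.exists_mem_inertiaSubgroupIn_restrict B q hq hBq L τ hs
  have hχ : chi p σ = 1 := by
    rw [← restrict_fix_iff L hζ hmem, hστ]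
    exact hτ
  have hψσ : ψ σ = 0 := by
    by_cases hqp : q = p
    · subst hqp
      refine hsplit B hBq σ ?_ hχ
      obtain ⟨d, -, hd⟩ := hσ
      rw [← hd]
      exact d.2
    · exact (hunr q hq hqp B hBq σ hσ).2
  rw [← hστ]
  exact (restrict_eq_one_iff hadd L hfix σ).mpr ⟨hχ, hψσ⟩

end Conditions

/-! ### The front end -/

/-- `NoExt` implies helper56's `CharacterVanishing p` for every prime `p ≥ 3`. -/
theorem characterVanishing_of_noExt (hNoExt : Fermat.Agent.S14.NoExt) (h3 : 3 ≤ p) :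
    CharacterVanishing p := by
  intro ψ hadd hconj hopen hunr hsplit
  by_contra hcon
  push Not at hcon
  obtain ⟨σ₀, hσ₀, hψσ₀⟩ := hcon
  have hp : p.Prime := Fact.out
  have : NeZero p := ⟨hp.ne_zero⟩
  obtain ⟨ζ, hζ⟩ := HasEnoughRootsOfUnity.exists_primitiveRoot Qb p
  have hNormal : (kerSubgroup ψ hadd).Normal := kerSubgroup_normal hadd hconj
  have hNopen : IsOpen ((kerSubgroup ψ hadd : Subgroup GQ) : Set GQ) := hopen
  have hNclosed : IsClosed ((kerSubgroup ψ hadd : Subgroup GQ) : Set GQ) :=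
    Subgroup.isClosed_of_isOpen _ hNopen
  let L : IntermediateField ℚ Qb := IntermediateField.fixedField (kerSubgroup ψ hadd)
  have hfix : L.fixingSubgroup = kerSubgroup ψ hadd :=
    InfiniteGalois.fixingSubgroup_fixedField ⟨kerSubgroup ψ hadd, hNclosed⟩
  have hfd : FiniteDimensional ℚ L :=
    (InfiniteGalois.isOpen_iff_finite L).mp (by rw [hfix]; exact hNopen)
  have hgal : IsGalois ℚ L :=
    (InfiniteGalois.normal_iff_isGalois L).mp (by rw [hfix]; exact hNormal)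
  have hnf : NumberField L := { }
  have hmem : ζ ∈ L := zeta_mem hadd L hfix hζ
  have hζL : IsPrimitiveRoot (⟨ζ, hmem⟩ : L) p :=
    IsPrimitiveRoot.of_map_of_injective (f := algebraMap L Qb) hζ (algebraMap L Qb).injective
  exact hNoExt p L ⟨ζ, hmem⟩ hp h3 hζL
    (card_fix hadd L hfix hζ hmem σ₀ hσ₀ hψσ₀)
    (fun g τ k hτ hg => conj_rel hadd hconj L hfix hζ hmem g τ k hτ hg)
    (fun P hP hP0 τ hτ hin => unramified_rel hadd L hfix hζ hmem hunr hsplit P hP hP0 τ hτ hin)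

/-- **(H5) Front end** of the S14 mini class field theory. -/
theorem frontEnd : Fermat.Agent.S14.FrontEnd := fun hNoExt p _ h3 =>
  extVanishingCts_of_characterVanishing p (characterVanishing_of_noExt hNoExt h3)

end Fermat.Agent.S14FE
end MergeWrap_S14_FrontEnd

section MergeWrap_Lib_Stickelberger_ResidueChar -- from Lib/Stickelberger/ResidueChar.lean

set_option autoImplicit false

open Polynomial Finset

namespace Fermat.Agent.Stickelberger

section PowerSum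

variable {F : Type*} [Field F] [Fintype F]

/-- The sum of the values of a polynomial of degree `< #F - 1` over a finite field vanishes. -/
theorem sum_eval_eq_zero_of_natDegree_lt (P : F[X]) (hP : P.natDegree < Fintype.card F - 1) :
    ∑ x : F, P.eval x = 0 := by
  simp_rw [Polynomial.eval_eq_sum_range]
  rw [Finset.sum_comm]
  refine Finset.sum_eq_zero fun i hi => ?_
  rw [← Finset.mul_sum]
  rw [FiniteField.sum_pow_lt_card_sub_one F i (lt_of_le_of_lt (by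
    have := Finset.mem_range.1 hi; omega) hP), mul_zero]

/-- `∑ x, (x (1 - x)) ^ n = 0` over a finite field with more than `2 n + 1` elements. -/
theorem sum_pow_mul_one_sub_pow_eq_zero (n : ℕ) (hn : 2 * n < Fintype.card F - 1) :
    ∑ x : F, x ^ n * (1 - x) ^ n = 0 := by
  have h := sum_eval_eq_zero_of_natDegree_lt ((X * (1 - X)) ^ n : F[X]) (by
    refine lt_of_le_of_lt (Polynomial.natDegree_pow_le.trans ?_) hn
    rw [mul_comm 2 n]
    refine Nat.mul_le_mul_left _ ?_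
    refine (Polynomial.natDegree_mul_le).trans ?_
    have h1 : (1 - X : F[X]).natDegree ≤ 1 := by
      refine (Polynomial.natDegree_sub_le _ _).trans ?_
      simp
    have h2 : (X : F[X]).natDegree ≤ 1 := by simp
    omega)
  simpa [mul_pow] using h

end PowerSum

section ResidueChar

variable {O F : Type*} [CommRing O] [IsDomain O] [Field F] (π : O →+* F)
  {p m : ℕ} {ζ : O}

/-- Reduction of `p`-th roots of unity is injective when the image of a primitive root is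
primitive. -/
theorem restrictRoots_injective [NeZero p] (hζ : IsPrimitiveRoot ζ p)
    (hζπ : IsPrimitiveRoot (π ζ) p) :
    Function.Injective (restrictRootsOfUnity π p) := by
  rw [injective_iff_map_eq_one]
  intro z hz
  obtain ⟨k, hk, hkz⟩ := hζ.eq_pow_of_pow_eq_one
    (show ((z : Oˣ) : O) ^ p = 1 by
      have := z.2
      rw [mem_rootsOfUnity] at this
      have h := congrArg Units.val this
      simpa using h)
  have h1 : π ((z : Oˣ) : O) = 1 := by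
    have := congrArg (fun w : rootsOfUnity p F => ((w : Fˣ) : F)) hz
    simpa [restrictRootsOfUnity_coe_apply] using this
  rw [← hkz, map_pow] at h1
  have h2 : p ∣ k := (hζπ.pow_eq_one_iff_dvd k).1 h1
  have h3 : ζ ^ k = 1 := (hζ.pow_eq_one_iff_dvd k).2 h2
  ext
  rw [← hkz, h3]
  simp

theorem restrictRoots_bijective [NeZero p] (hζ : IsPrimitiveRoot ζ p)
    (hζπ : IsPrimitiveRoot (π ζ) p) :
    Function.Bijective (restrictRootsOfUnity π p) := by
  refine (Nat.bijective_iff_injective_and_card _).2 ⟨restrictRoots_injective π hζ hζπ, ?_⟩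
  rw [hζ.card_rootsOfUnity, hζπ.card_rootsOfUnity]

variable [Fintype F]

/-- `u ↦ u ^ m` as a homomorphism to the `p`-th roots of unity, when `p * m = #F - 1`. -/
noncomputable def powRoots (hm : p * m = Fintype.card F - 1) : Fˣ →* rootsOfUnity p F where
  toFun u := ⟨u ^ m, by
    rw [mem_rootsOfUnity, ← pow_mul, mul_comm, hm]
    ext
    simpa using FiniteField.pow_card_sub_one_eq_one (u : F) u.ne_zero⟩
  map_one' := by ext; simp
  map_mul' u v := by ext; simp [mul_pow]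

/-- The unit-level power residue homomorphism. -/
noncomputable def residueUnitHom [NeZero p] (hζ : IsPrimitiveRoot ζ p)
    (hζπ : IsPrimitiveRoot (π ζ) p) (hm : p * m = Fintype.card F - 1) : Fˣ →* Oˣ :=
  (Subgroup.subtype (rootsOfUnity p O)).comp
    ((MulEquiv.ofBijective (restrictRootsOfUnity π p)
      (restrictRoots_bijective π hζ hζπ)).symm.toMonoidHom.comp (powRoots hm))

/-- The `p`-th power residue character `F → O` attached to `π : O → F`. -/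
noncomputable def residueChar [NeZero p] (hζ : IsPrimitiveRoot ζ p)
    (hζπ : IsPrimitiveRoot (π ζ) p) (hm : p * m = Fintype.card F - 1) : MulChar F O :=
  MulChar.ofUnitHom (residueUnitHom π hζ hζπ hm)

variable [NeZero p] (hζ : IsPrimitiveRoot ζ p) (hζπ : IsPrimitiveRoot (π ζ) p)
  (hm : p * m = Fintype.card F - 1)

theorem residueChar_unit (u : Fˣ) :
    residueChar π hζ hζπ hm (u : F) = (residueUnitHom π hζ hζπ hm u : O) := by
  rw [residueChar, MulChar.ofUnitHom_coe]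

theorem map_residueUnitHom (u : Fˣ) :
    π (residueUnitHom π hζ hζπ hm u : O) = (u : F) ^ m := by
  set e := MulEquiv.ofBijective (restrictRootsOfUnity π p) (restrictRoots_bijective π hζ hζπ)
  have h : e (e.symm (powRoots hm u)) = powRoots hm u := e.apply_symm_apply _
  have h2 := congrArg (fun w : rootsOfUnity p F => ((w : Fˣ) : F)) h
  simp only [e, MulEquiv.ofBijective_apply, restrictRootsOfUnity_coe_apply] at h2
  simpa [residueUnitHom, powRoots, e] using h2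

theorem residueUnitHom_pow_eq_one (u : Fˣ) :
    (residueUnitHom π hζ hζπ hm u : O) ^ p = 1 := by
  set e := MulEquiv.ofBijective (restrictRootsOfUnity π p) (restrictRoots_bijective π hζ hζπ)
  have := (e.symm (powRoots hm u)).2
  rw [mem_rootsOfUnity] at this
  have h := congrArg Units.val this
  simpa [residueUnitHom, e] using h

omit [IsDomain O] [NeZero p] in
include hm in
theorem m_ne_zero : m ≠ 0 := by
  rintro rfl
  have := Fintype.one_lt_card (α := F)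
  omega

/-- Key congruence: `χ(x) ≡ x ^ m mod 𝔮`. -/
theorem map_residueChar (hm0 : m ≠ 0) (x : F) :
    π (residueChar π hζ hζπ hm x) = x ^ m := by
  by_cases hx : IsUnit x
  · obtain ⟨u, rfl⟩ := hx
    rw [residueChar_unit, map_residueUnitHom]
  · rw [MulChar.map_nonunit _ hx, map_zero]
    have : x = 0 := by simpa using hx
    rw [this, zero_pow hm0]

/-- Composing with a ring endomorphism `τ` with `τ ζ = ζ ^ a` raises the character to the
`a`-th power. -/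
theorem residueChar_ringHomComp (τ : O →+* O) {a : ℕ} (ha : a ≠ 0) (hτ : τ ζ = ζ ^ a) :
    (residueChar π hζ hζπ hm).ringHomComp τ = (residueChar π hζ hζπ hm) ^ a := by
  ext u
  rw [MulChar.ringHomComp_apply, MulChar.pow_apply' _ ha, residueChar_unit]
  obtain ⟨k, -, hk⟩ := hζ.eq_pow_of_pow_eq_one (residueUnitHom_pow_eq_one π hζ hζπ hm u)
  rw [← hk, map_pow, hτ, ← pow_mul, ← pow_mul, mul_comm]

theorem residueChar_pow_p : (residueChar π hζ hζπ hm) ^ p = 1 := by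
  ext u
  rw [MulChar.pow_apply' _ (NeZero.ne p), residueChar_unit, residueUnitHom_pow_eq_one,
    MulChar.one_apply_coe]

theorem residueChar_inv (hp : 0 < p) :
    (residueChar π hζ hζπ hm)⁻¹ = (residueChar π hζ hζπ hm) ^ (p - 1) := by
  rw [inv_eq_iff_eq_inv, eq_inv_iff_mul_eq_one, ← pow_succ', Nat.sub_add_cancel hp,
    residueChar_pow_p]

/-- The character has exact order `p`: no smaller positive power is trivial. -/
theorem residueChar_pow_ne_one {j : ℕ} (hj : 0 < j) (hjp : j < p) :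
    (residueChar π hζ hζπ hm) ^ j ≠ 1 := by
  intro h
  classical
  have hm0 := m_ne_zero hm
  obtain ⟨g, hg⟩ := IsCyclic.exists_generator (α := Fˣ)
  have hord : orderOf g = Fintype.card F - 1 := by
    rw [orderOf_eq_card_of_forall_mem_zpowers hg, Nat.card_eq_fintype_card,
      Fintype.card_units]
  have h1 : ((g : F)) ^ (m * j) = 1 := by
    have := congrArg π (congrArg (fun χ : MulChar F O => χ (g : F)) h)
    simp only [MulChar.pow_apply' _ hj.ne', MulChar.one_apply_coe, map_pow, map_one] at this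
    rw [map_residueChar π hζ hζπ hm hm0] at this
    rwa [← pow_mul] at this
  have h2 : g ^ (m * j) = 1 := by ext; simpa using h1
  have h3 := orderOf_dvd_of_pow_eq_one h2
  rw [hord, ← hm, mul_comm p m] at h3
  have h4 : p ∣ j := Nat.dvd_of_mul_dvd_mul_left (Nat.pos_of_ne_zero hm0) h3
  exact absurd (Nat.le_of_dvd hj h4) (not_le.2 hjp)

/-- The reduction of the Jacobi sum `J(χ^a, χ^a)`. -/
theorem map_jacobiSum_pow {a : ℕ} (ha : a ≠ 0) :
    π (jacobiSum ((residueChar π hζ hζπ hm) ^ a) ((residueChar π hζ hζπ hm) ^ a)) =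
      ∑ x : F, x ^ (m * a) * (1 - x) ^ (m * a) := by
  have hm0 := m_ne_zero hm
  rw [jacobiSum, map_sum]
  refine Finset.sum_congr rfl fun x _ => ?_
  rw [map_mul, MulChar.pow_apply' _ ha, MulChar.pow_apply' _ ha, map_pow, map_pow,
    map_residueChar π hζ hζπ hm hm0, map_residueChar π hζ hζπ hm hm0, ← pow_mul, ← pow_mul]

/-- **Stickelberger congruence** for Jacobi sums: `J(χ^a, χ^a) ≡ 0 mod 𝔮` for `0 < a < p/2`. -/
theorem map_jacobiSum_pow_eq_zero {a : ℕ} (ha : 0 < a) (h2a : 2 * a < p) :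
    π (jacobiSum ((residueChar π hζ hζπ hm) ^ a) ((residueChar π hζ hζπ hm) ^ a)) = 0 := by
  rw [map_jacobiSum_pow π hζ hζπ hm ha.ne']
  apply sum_pow_mul_one_sub_pow_eq_zero
  have hm0 := Nat.pos_of_ne_zero (m_ne_zero hm)
  rw [← hm]
  calc 2 * (m * a) = m * (2 * a) := by ring
    _ < m * p := Nat.mul_lt_mul_of_pos_left h2a hm0
    _ = p * m := by ring

/-- The conjugate `τ J(χ,χ)` lies in the kernel of `π` when `τ ζ = ζ ^ a`, `0 < a < p/2`. -/
theorem map_apply_jacobiSum_eq_zero (τ : O →+* O) {a : ℕ} (ha : 0 < a) (h2a : 2 * a < p)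
    (hτ : τ ζ = ζ ^ a) :
    π (τ (jacobiSum (residueChar π hζ hζπ hm) (residueChar π hζ hζπ hm))) = 0 := by
  rw [← jacobiSum_ringHomComp, residueChar_ringHomComp π hζ hζπ hm τ ha.ne' hτ]
  exact map_jacobiSum_pow_eq_zero π hζ hζπ hm ha h2a

/-- `J(χ,χ) · J(χ⁻¹,χ⁻¹) = #F`. -/
theorem jacobiSum_mul_jacobiSum_inv_eq {K : Type*} [Field K] (ι : O →+* K)
    (hι : Function.Injective ι) (hchar : ringChar K ≠ ringChar F) (hp3 : 3 ≤ p) :
    jacobiSum (residueChar π hζ hζπ hm) (residueChar π hζ hζπ hm) *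
      jacobiSum (residueChar π hζ hζπ hm)⁻¹ (residueChar π hζ hζπ hm)⁻¹ =
        (Fintype.card F : O) := by
  set χ := residueChar π hζ hζπ hm with hχdef
  apply hι
  rw [map_mul, ← jacobiSum_ringHomComp, ← jacobiSum_ringHomComp, map_natCast]
  have hinj : Function.Injective (fun ψ : MulChar F O => ψ.ringHomComp ι) :=
    MulChar.injective_ringHomComp hι
  have h1 : χ.ringHomComp ι ≠ 1 := by
    intro h
    have : χ ^ 1 = 1 := by
      rw [pow_one]
      apply hinj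
      simpa using h
    exact residueChar_pow_ne_one π hζ hζπ hm one_pos (by omega) this
  have h2 : χ.ringHomComp ι * χ.ringHomComp ι ≠ 1 := by
    intro h
    have : χ ^ 2 = 1 := by
      apply hinj
      simp only
      rw [pow_two, MulChar.ringHomComp_mul, h, MulChar.ringHomComp_one]
    exact residueChar_pow_ne_one π hζ hζπ hm two_pos (by omega) this
  have := jacobiSum_mul_jacobiSum_inv hchar h1 h1 h2
  rw [← MulChar.ringHomComp_inv]
  exact this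

end ResidueChar

end Fermat.Agent.Stickelberger
end MergeWrap_Lib_Stickelberger_ResidueChar

section MergeWrap_Lib_Stickelberger_Prime -- from Lib/Stickelberger/Prime.lean

set_option autoImplicit false

open NumberField Polynomial Finset

namespace Fermat.Agent.Stickelberger

section NF

variable {p : ℕ} [hp : Fact p.Prime] {K : Type} [Field K] [NumberField K]
  [IsCyclotomicExtension {p} ℚ K] {ℓ : ℕ} [hℓ : Fact ℓ.Prime] (Q : Ideal (𝓞 K)) [Q.IsPrime]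

omit [NumberField K] in
/-- A prime containing `ℓ` lies over `ℓ`. -/
theorem liesOver_of_mem (hℓQ : (ℓ : 𝓞 K) ∈ Q) : Q.LiesOver (Ideal.span {(ℓ : ℤ)}) := by
  constructor
  have h1 : Ideal.span {(ℓ : ℤ)} ≤ Ideal.under ℤ Q := by
    rw [Ideal.span_singleton_le_iff_mem, Ideal.under_def, Ideal.mem_comap]
    simpa using hℓQ
  have hmax : (Ideal.span {(ℓ : ℤ)}).IsMaximal :=
    Ideal.IsPrime.isMaximal
      ((Ideal.span_singleton_prime (by exact_mod_cast hℓ.out.ne_zero)).2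
        (Nat.prime_iff_prime_int.1 hℓ.out)) (by
        simpa using hℓ.out.ne_zero)
  have hne : Ideal.under ℤ Q ≠ ⊤ := (Ideal.IsPrime.under ℤ Q).ne_top
  exact (hmax.eq_of_le hne h1)

theorem ne_bot_of_mem (hℓQ : (ℓ : 𝓞 K) ∈ Q) : Q ≠ ⊥ := by
  rintro rfl
  rw [Ideal.mem_bot] at hℓQ
  exact hℓ.out.ne_zero (Nat.cast_eq_zero.1 hℓQ)

omit hp hℓ [IsCyclotomicExtension {p} ℚ K] in
theorem prime_ne_of_mod (hp' : p.Prime) (hℓp : ℓ % p = 1) : ℓ ≠ p := by
  rintro rfl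
  rw [Nat.mod_self] at hℓp
  exact zero_ne_one hℓp

/-- The residue field of a prime over `ℓ ≡ 1 mod p` of `ℚ(ζ_p)` has `ℓ` elements. -/
theorem absNorm_eq_of_mod (hℓp : ℓ % p = 1) (hℓQ : (ℓ : 𝓞 K) ∈ Q) : Ideal.absNorm Q = ℓ := by
  have := liesOver_of_mem Q hℓQ
  have : NeZero p := ⟨hp.out.ne_zero⟩
  have hndvd : ¬ ℓ ∣ p := by
    intro h
    rcases (Nat.dvd_prime hp.out).1 h with h1 | h1
    · exact hℓ.out.ne_one h1
    · exact prime_ne_of_mod hp.out hℓp h1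
  have h1 := IsCyclotomicExtension.Rat.inertiaDeg_eq_of_not_dvd ℓ K Q hndvd
  have h2 : ((ℓ : ℕ) : ZMod p) = 1 := by
    rw [← Nat.mod_add_div ℓ p, hℓp]
    simp
  rw [h2, orderOf_one] at h1
  have hmaxℓ : (Ideal.span {(ℓ : ℤ)}).IsMaximal :=
    Ideal.IsPrime.isMaximal
      ((Ideal.span_singleton_prime (by exact_mod_cast hℓ.out.ne_zero)).2
        (Nat.prime_iff_prime_int.1 hℓ.out)) (by
        simpa using hℓ.out.ne_zero)
  have : Q.IsMaximal := Ideal.IsPrime.isMaximal inferInstance (ne_bot_of_mem Q hℓQ)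
  rw [Ideal.absNorm_eq_pow_inertiaDeg' Q hℓ.out, Ideal.inertiaDeg'_eq_inertiaDeg, h1, pow_one]

omit [IsCyclotomicExtension {p} ℚ K] in
/-- `p ∉ Q` if `Q` contains the prime `ℓ ≠ p`. -/
theorem natCast_not_mem (hne : ℓ ≠ p) (hℓQ : (ℓ : 𝓞 K) ∈ Q) : (p : 𝓞 K) ∉ Q := by
  intro hpQ
  have hcop : Nat.Coprime ℓ p := (Nat.coprime_primes hℓ.out hp.out).2 hne
  have h1 : ((ℓ : ℤ) : 𝓞 K) * ((ℓ : ℤ).gcdA p : 𝓞 K) + ((p : ℤ) : 𝓞 K) * ((ℓ : ℤ).gcdB p : 𝓞 K)
      = 1 := by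
    have := Int.gcd_eq_gcd_ab (ℓ : ℤ) (p : ℤ)
    rw [Int.gcd_natCast_natCast, hcop.gcd_eq_one] at this
    have h2 := congrArg (Int.cast : ℤ → 𝓞 K) this
    push_cast at h2
    exact_mod_cast h2.symm
  have h3 : (1 : 𝓞 K) ∈ Q := by
    rw [← h1]
    refine Q.add_mem (Q.mul_mem_right _ ?_) (Q.mul_mem_right _ ?_)
    · simpa using hℓQ
    · simpa using hpQ
  exact (Ideal.IsPrime.ne_top inferInstance) ((Ideal.eq_top_iff_one Q).2 h3)

omit [IsCyclotomicExtension {p} ℚ K] in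
/-- A primitive `p`-th root of unity stays primitive modulo `Q`. -/
theorem isPrimitiveRoot_mk {ζ : 𝓞 K} (hζ : IsPrimitiveRoot ζ p) (hne : ℓ ≠ p)
    (hℓQ : (ℓ : 𝓞 K) ∈ Q) : IsPrimitiveRoot (Ideal.Quotient.mk Q ζ) p := by
  rw [IsPrimitiveRoot.iff_orderOf]
  refine orderOf_eq_prime ?_ ?_
  · rw [← map_pow, hζ.pow_eq_one, map_one]
  · intro h1
    have h2 : ζ - 1 ∈ Q := by
      rw [← Ideal.Quotient.eq_zero_iff_mem, map_sub, h1, map_one, sub_self]
    apply natCast_not_mem Q hne hℓQ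
    obtain ⟨n, hn⟩ : ∃ n, p = n + 1 := ⟨p - 1, (Nat.succ_pred_eq_of_pos hp.out.pos).symm⟩
    have h3 := (hn ▸ hζ).prod_one_sub_pow_eq_order
    have h4 : (p : 𝓞 K) = ∏ k ∈ Finset.range n, (1 - ζ ^ (k + 1)) := by
      rw [h3, hn]; push_cast; ring
    rw [h4]
    have hn0 : 0 ∈ Finset.range n := by
      rw [Finset.mem_range]
      have := hp.out.two_le
      omega
    rw [← Finset.mul_prod_erase _ _ hn0]
    refine Q.mul_mem_right _ ?_
    have : (1 : 𝓞 K) - ζ ^ (0 + 1) = -(ζ - 1) := by ring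
    rw [this]
    exact Q.neg_mem h2

end NF

end Fermat.Agent.Stickelberger
end MergeWrap_Lib_Stickelberger_Prime

section MergeWrap_Lib_Stickelberger_Jacobi -- from Lib/Stickelberger/Jacobi.lean

set_option autoImplicit false
set_option linter.unusedSectionVars false

open NumberField Polynomial Finset

namespace Fermat.Agent.Stickelberger

section Jac

variable {p : ℕ} [hp : Fact p.Prime] {K : Type} [Field K] [NumberField K]
  [IsCyclotomicExtension {p} ℚ K] {ℓ : ℕ} [hℓ : Fact ℓ.Prime] (Q : Ideal (𝓞 K))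
  [hQ : Q.IsMaximal] [hfin : Finite (𝓞 K ⧸ Q)]

attribute [local instance] Ideal.Quotient.field

/-- Local `Fintype` structure on the residue field. -/
noncomputable local instance fintypeQuot : Fintype (𝓞 K ⧸ Q) := Fintype.ofFinite _

omit [IsCyclotomicExtension {p} ℚ K] hp in
theorem card_quot (hN : Ideal.absNorm Q = ℓ) : Fintype.card (𝓞 K ⧸ Q) = ℓ := by
  rw [← Nat.card_eq_fintype_card, ← hN, Ideal.absNorm_apply, Submodule.cardQuot_apply]

omit [IsCyclotomicExtension {p} ℚ K] hp in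
/-- Every element of `𝓞 K` is congruent to an integer modulo a prime of degree one. -/
theorem exists_int_sub_mem (hN : Ideal.absNorm Q = ℓ) (y : 𝓞 K) : ∃ n : ℤ, y - (n : 𝓞 K) ∈ Q := by
  have hcard : Nat.card (𝓞 K ⧸ Q) = ℓ := by
    rw [← hN, Ideal.absNorm_apply, Submodule.cardQuot_apply]
  have h1 : (1 : 𝓞 K ⧸ Q) ≠ 0 := one_ne_zero
  have h2 := zmultiples_eq_top_of_prime_card hcard h1
  have h3 : Ideal.Quotient.mk Q y ∈ AddSubgroup.zmultiples (1 : 𝓞 K ⧸ Q) := by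
    rw [h2]; trivial
  obtain ⟨n, hn⟩ := AddSubgroup.mem_zmultiples_iff.1 h3
  refine ⟨n, ?_⟩
  rw [← Ideal.Quotient.eq_zero_iff_mem, map_sub, ← hn]
  simp

variable {ζ : 𝓞 K} (hζ : IsPrimitiveRoot ζ p) (hζπ : IsPrimitiveRoot (Ideal.Quotient.mk Q ζ) p)

omit [IsCyclotomicExtension {p} ℚ K] in
include hζπ in
/-- Conjugate primes of degree one are distinct. -/
theorem comap_ne_comap (hN : Ideal.absNorm Q = ℓ) (τ₁ τ₂ : 𝓞 K ≃ₐ[ℤ] 𝓞 K) {s t : ℕ}
    (hs : s < p) (ht : t < p) (hst : s ≠ t) (h₁ : τ₁ ζ = ζ ^ s) (h₂ : τ₂ ζ = ζ ^ t) :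
    Ideal.comap τ₁ Q ≠ Ideal.comap τ₂ Q := by
  intro h
  obtain ⟨n, hn⟩ := exists_int_sub_mem Q hN (ζ ^ s)
  have h3 : ζ - (n : 𝓞 K) ∈ Ideal.comap τ₁ Q := by
    rw [Ideal.mem_comap, map_sub, h₁, map_intCast]
    exact hn
  rw [h, Ideal.mem_comap, map_sub, h₂, map_intCast] at h3
  have h4 : ζ ^ s - ζ ^ t ∈ Q := by
    have := Q.sub_mem hn h3
    simpa using this
  rw [← Ideal.Quotient.eq_zero_iff_mem, map_sub, map_pow, map_pow, sub_eq_zero] at h4
  exact hst (hζπ.pow_inj hs ht h4)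

variable {m : ℕ} (hm : p * m = Fintype.card (𝓞 K ⧸ Q) - 1)

/-- The Jacobi sum `J(χ_Q, χ_Q) ∈ 𝓞 K` of the `p`-th power residue character of `Q`. -/
noncomputable def jac : 𝓞 K :=
  jacobiSum (residueChar (Ideal.Quotient.mk Q) hζ hζπ hm)
    (residueChar (Ideal.Quotient.mk Q) hζ hζπ hm)

/-- **Stickelberger congruence**: `J ∈ σ_s⁻¹ Q` for `0 < s < p / 2`. -/
theorem jac_mem_comap (τ : 𝓞 K ≃ₐ[ℤ] 𝓞 K) {s : ℕ} (hs : 0 < s) (h2s : 2 * s < p)
    (hτ : τ ζ = ζ ^ s) : jac Q hζ hζπ hm ∈ Ideal.comap τ Q := by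
  rw [Ideal.mem_comap, ← Ideal.Quotient.eq_zero_iff_mem]
  exact map_apply_jacobiSum_eq_zero (Ideal.Quotient.mk Q) hζ hζπ hm
    ((τ : 𝓞 K ≃+* 𝓞 K) : 𝓞 K →+* 𝓞 K) hs h2s hτ

theorem ringChar_ne : ringChar K ≠ ringChar (𝓞 K ⧸ Q) := by
  rw [ringChar.eq_zero]
  exact (CharP.ringChar_ne_zero_of_finite (𝓞 K ⧸ Q)).symm

/-- `J · J̄ = ℓ`. -/
theorem jac_mul_conj (hp3 : 3 ≤ p) (hN : Ideal.absNorm Q = ℓ) (τ : 𝓞 K ≃ₐ[ℤ] 𝓞 K)
    (hτ : τ ζ = ζ ^ (p - 1)) : jac Q hζ hζπ hm * τ (jac Q hζ hζπ hm) = (ℓ : 𝓞 K) := by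
  have h1 : τ (jac Q hζ hζπ hm) =
      jacobiSum (residueChar (Ideal.Quotient.mk Q) hζ hζπ hm)⁻¹
        (residueChar (Ideal.Quotient.mk Q) hζ hζπ hm)⁻¹ := by
    have h2 := jacobiSum_ringHomComp (residueChar (Ideal.Quotient.mk Q) hζ hζπ hm)
      (residueChar (Ideal.Quotient.mk Q) hζ hζπ hm) ((τ : 𝓞 K ≃+* 𝓞 K) : 𝓞 K →+* 𝓞 K)
    rw [residueChar_ringHomComp (Ideal.Quotient.mk Q) hζ hζπ hm _
      (show p - 1 ≠ 0 by omega) hτ] at h2
    rw [residueChar_inv _ _ _ _ hp.out.pos, h2]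
    rfl
  rw [h1, jac, jacobiSum_mul_jacobiSum_inv_eq (Ideal.Quotient.mk Q) hζ hζπ hm
    (algebraMap (𝓞 K) K) (RingOfIntegers.coe_injective) (ringChar_ne Q) hp3, card_quot Q hN]

omit hQ hfin in
theorem finrank_int : Module.finrank ℤ (𝓞 K) = p - 1 := by
  rw [RingOfIntegers.rank, IsCyclotomicExtension.finrank K
    (Polynomial.cyclotomic.irreducible_rat hp.out.pos), Nat.totient_prime hp.out]

/-- `|N(J)| = ℓ ^ ((p - 1) / 2)`. -/
theorem natAbs_norm_jac (hp3 : 3 ≤ p) (hN : Ideal.absNorm Q = ℓ) (τ : 𝓞 K ≃ₐ[ℤ] 𝓞 K)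
    (hτ : τ ζ = ζ ^ (p - 1)) :
    (Algebra.norm ℤ (jac Q hζ hζπ hm)).natAbs = ℓ ^ ((p - 1) / 2) := by
  have h1 := congrArg (Algebra.norm ℤ) (jac_mul_conj Q hζ hζπ hm hp3 hN τ hτ)
  rw [map_mul, Algebra.norm_eq_of_algEquiv] at h1
  have h2 : Algebra.norm ℤ (ℓ : 𝓞 K) = (ℓ : ℤ) ^ (p - 1) := by
    have := Algebra.norm_algebraMap (S := 𝓞 K) (ℓ : ℤ)
    rw [finrank_int (p := p)] at this
    simpa using this
  rw [h2] at h1
  have h3 := congrArg Int.natAbs h1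
  rw [Int.natAbs_mul, Int.natAbs_pow, Int.natAbs_natCast] at h3
  have hodd : p - 1 = (p - 1) / 2 * 2 := by
    rcases hp.out.eq_two_or_odd with h | h
    · omega
    · omega
  have h4 : (Algebra.norm ℤ (jac Q hζ hζπ hm)).natAbs ^ 2 = (ℓ ^ ((p - 1) / 2)) ^ 2 := by
    rw [← pow_mul, ← hodd, ← h3, sq]
  exact Nat.pow_left_injective (two_ne_zero) h4

end Jac

section Final

variable {K : Type} [Field K] [NumberField K]

/-- If `x` lies in pairwise distinct maximal ideals `P i` whose norms multiply to `|N x|`, then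
`(x) = ∏ P i`. -/
theorem prod_eq_span_singleton {ι : Type*} (S : Finset ι) (P : ι → Ideal (𝓞 K))
    (hP : ∀ i ∈ S, (P i).IsMaximal) (hdist : ∀ i ∈ S, ∀ j ∈ S, i ≠ j → P i ≠ P j)
    (x : 𝓞 K) (hx : ∀ i ∈ S, x ∈ P i)
    (hnorm : ∏ i ∈ S, Ideal.absNorm (P i) = (Algebra.norm ℤ x).natAbs)
    (hx0 : (Algebra.norm ℤ x).natAbs ≠ 0) :
    ∏ i ∈ S, P i = Ideal.span {x} := by
  have hdvd : ∏ i ∈ S, P i ∣ Ideal.span {x} := by
    apply Finset.prod_dvd_of_coprime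
    · intro i hi j hj hij
      rw [Function.onFun, Ideal.isCoprime_iff_sup_eq]
      exact Ideal.IsMaximal.coprime_of_ne (hP i hi) (hP j hj) (hdist i hi j hj hij)
    · intro i hi
      rw [Ideal.dvd_iff_le, Ideal.span_singleton_le_iff_mem]
      exact hx i hi
  obtain ⟨A, hA⟩ := hdvd
  have h1 := congrArg Ideal.absNorm hA
  rw [map_mul, map_prod, Ideal.absNorm_span_singleton, hnorm] at h1
  have h2 : Ideal.absNorm A = 1 := by
    have h3 : (Algebra.norm ℤ x).natAbs * 1 = (Algebra.norm ℤ x).natAbs * Ideal.absNorm A := by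
      rw [mul_one]; exact h1
    exact (Nat.eq_of_mul_eq_mul_left (Nat.pos_of_ne_zero hx0) h3).symm
  rw [Ideal.absNorm_eq_one_iff] at h2
  rw [hA, h2, Ideal.mul_top]

end Final

end Fermat.Agent.Stickelberger
end MergeWrap_Lib_Stickelberger_Jacobi

section MergeWrap_S14_Stickelberger -- from S14/Stickelberger.lean

set_option autoImplicit false

open NumberField Polynomial Finset

namespace Fermat.Agent.S14

open Fermat.Agent.Stickelberger

attribute [local instance] Ideal.Quotient.field in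
/-- **Stickelberger's relation for Jacobi sums** (interface `StickelbergerJacobi`). -/
theorem stickelbergerJacobi : StickelbergerJacobi := by
  intro p K _ _ _ ζ σ ℓ Q hp hp2 hζ hσ hℓ hℓp hQ hℓQ
  have : Fact p.Prime := ⟨hp⟩
  have : Fact ℓ.Prime := ⟨hℓ⟩
  have := hQ
  have hp3 : 3 ≤ p := by
    have := hp.two_le
    omega
  have hζ' : IsPrimitiveRoot hζ.toInteger p := hζ.toInteger_isPrimitiveRoot
  have hne : ℓ ≠ p := prime_ne_of_mod hp hℓp
  have hQ0 : Q ≠ ⊥ := ne_bot_of_mem Q hℓQ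
  have hQmax : Q.IsMaximal := hQ.isMaximal hQ0
  have hfin : Finite (𝓞 K ⧸ Q) := Ideal.finiteQuotientOfFreeOfNeBot Q hQ0
  have hN : Ideal.absNorm Q = ℓ := absNorm_eq_of_mod Q hℓp hℓQ
  have hζπ : IsPrimitiveRoot (Ideal.Quotient.mk Q hζ.toInteger) p :=
    isPrimitiveRoot_mk Q hζ' hne hℓQ
  have hm : p * (ℓ / p) = @Fintype.card (𝓞 K ⧸ Q) (fintypeQuot Q) - 1 := by
    rw [card_quot Q hN]
    have := Nat.mod_add_div ℓ p
    omega
  -- the automorphisms of `𝓞 K`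
  have hτ : ∀ s, 0 < s → s < p →
      galRestrict ℤ ℚ K (𝓞 K) (σ s) hζ.toInteger = hζ.toInteger ^ s := by
    intro s hs hsp
    apply RingOfIntegers.coe_injective
    have h1 := algebraMap_galRestrict_apply ℤ (σ s) hζ.toInteger
    have h2 : (algebraMap (𝓞 K) K) hζ.toInteger = ζ := hζ.coe_toInteger
    rw [h2, hσ s hs hsp] at h1
    rw [map_pow]
    exact h1.trans (congrArg (· ^ s) h2.symm)
  set J := jac Q hζ' hζπ hm with hJ
  have hnormJ : (Algebra.norm ℤ J).natAbs = ℓ ^ ((p - 1) / 2) :=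
    natAbs_norm_jac Q hζ' hζπ hm hp3 hN (galRestrict ℤ ℚ K (𝓞 K) (σ (p - 1)))
      (hτ (p - 1) (by omega) (by omega))
  refine ⟨J, ?_⟩
  rw [Ideal.submodule_span_eq]
  apply prod_eq_span_singleton
  · intro s _
    exact Ideal.comap_isMaximal_of_equiv _
  · intro s hs t ht hst
    rw [Finset.mem_Icc] at hs ht
    exact comap_ne_comap Q hζπ hN _ _ (by omega) (by omega) hst
      (hτ s (by omega) (by omega)) (hτ t (by omega) (by omega))
  · intro s hs
    rw [Finset.mem_Icc] at hs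
    exact jac_mem_comap Q hζ' hζπ hm _ (by omega) (by omega) (hτ s (by omega) (by omega))
  · rw [hnormJ]
    have : ∀ s ∈ Finset.Icc 1 ((p - 1) / 2),
        Ideal.absNorm (Ideal.comap (galRestrict ℤ ℚ K (𝓞 K) (σ s)) Q) = ℓ := by
      intro s _
      rw [← hN, Ideal.absNorm_apply, Ideal.absNorm_apply, Submodule.cardQuot_apply,
        Submodule.cardQuot_apply]
      refine Nat.card_congr (Ideal.quotientEquiv _ _
        ((galRestrict ℤ ℚ K (𝓞 K) (σ s) : 𝓞 K ≃ₐ[ℤ] 𝓞 K) : 𝓞 K ≃+* 𝓞 K) ?_).toEquiv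
      apply le_antisymm
      · intro x hx
        have h1 : (galRestrict ℤ ℚ K (𝓞 K) (σ s)).symm x ∈
            Ideal.comap (galRestrict ℤ ℚ K (𝓞 K) (σ s)) Q := by
          rw [Ideal.mem_comap]
          simpa using hx
        have h2 := Ideal.mem_map_of_mem
          (((galRestrict ℤ ℚ K (𝓞 K) (σ s) : 𝓞 K ≃ₐ[ℤ] 𝓞 K) : 𝓞 K ≃+* 𝓞 K) : 𝓞 K →+* 𝓞 K) h1
        simpa using h2
      · rw [Ideal.map_le_iff_le_comap]
        intro x hx
        rw [Ideal.mem_comap] at hx ⊢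
        simpa using hx
    rw [Finset.prod_congr rfl this, Finset.prod_const, Nat.card_Icc]
    congr 1
  · rw [hnormJ]
    exact pow_ne_zero _ hℓ.ne_zero

end Fermat.Agent.S14
end MergeWrap_S14_Stickelberger

section MergeWrap_S14_NormFunct -- from S14/NormFunct.lean

/-!
# S14 (X7): functoriality of norm classes (helper53)
-/

set_option autoImplicit false

open NumberField
open scoped nonZeroDivisors

namespace Fermat.Agent.S14

section

variable {K E : Type} [Field K] [NumberField K] [Field E] [NumberField E] [Algebra K E]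

/-- The relative norm of a nonzero ideal, as a nonzero ideal. -/
noncomputable def nfRelNorm0 (I : (Ideal (𝓞 E))⁰) : (Ideal (𝓞 K))⁰ :=
  ⟨Ideal.relNorm (𝓞 K) (I : Ideal (𝓞 E)), mem_nonZeroDivisors_of_ne_zero (by
    intro h
    exact nonZeroDivisors.coe_ne_zero I (Ideal.relNorm_eq_bot_iff.mp h))⟩

@[simp] theorem nf_coe_relNorm0 (I : (Ideal (𝓞 E))⁰) :
    ((nfRelNorm0 (K := K) I : (Ideal (𝓞 K))⁰) : Ideal (𝓞 K)) =
      Ideal.relNorm (𝓞 K) (I : Ideal (𝓞 E)) := rfl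

/-- The relative norm is compatible with ideal classes. -/
theorem nf_mk0_relNorm0_eq_of_mk0_eq {I B : (Ideal (𝓞 E))⁰}
    (h : ClassGroup.mk0 I = ClassGroup.mk0 B) :
    ClassGroup.mk0 (nfRelNorm0 (K := K) I) = ClassGroup.mk0 (nfRelNorm0 (K := K) B) := by
  rw [ClassGroup.mk0_eq_mk0_iff] at h ⊢
  obtain ⟨x, y, hx, hy, hxy⟩ := h
  refine ⟨Algebra.intNorm (𝓞 K) (𝓞 E) x, Algebra.intNorm (𝓞 K) (𝓞 E) y, ?_, ?_, ?_⟩
  · exact Algebra.intNorm_ne_zero.mpr hx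
  · exact Algebra.intNorm_ne_zero.mpr hy
  · have := congrArg (Ideal.relNorm (𝓞 K)) hxy
    rw [map_mul, map_mul, Ideal.relNorm_singleton, Ideal.relNorm_singleton] at this
    exact this

theorem nf_mk0_eq_of_coe_eq {I J : (Ideal (𝓞 K))⁰} (h : (I : Ideal (𝓞 K)) = J) :
    ClassGroup.mk0 I = ClassGroup.mk0 J := by
  rw [Subtype.ext h]

end

/-- **(X7)** -/
theorem normFunct : NormFunct := by
  intro K L E M _ _ _ _ _ _ _ _ _ _ _ _ _ _ _ I J hI hJ
  obtain ⟨A, B, hB, hBI⟩ := hI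
  -- the class of `J = relNorm I` is the class of `relNorm B`
  have h1 : ClassGroup.mk0 J = ClassGroup.mk0 (nfRelNorm0 (K := K) B) := by
    have hJ' : J = nfRelNorm0 (K := K) I := Subtype.ext hJ
    rw [hJ']
    exact nf_mk0_relNorm0_eq_of_mk0_eq hBI.symm
  -- `relNorm B = relNorm_{M/K} A = relNorm_{L/K} (relNorm_{M/L} A)`
  refine ⟨nfRelNorm0 (K := L) A, nfRelNorm0 (K := K) B, ?_, h1.symm⟩
  rw [nf_coe_relNorm0, nf_coe_relNorm0, hB, Ideal.relNorm_relNorm, Ideal.relNorm_relNorm]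

end Fermat.Agent.S14
end MergeWrap_S14_NormFunct

section MergeWrap_S14_ERec -- from S14/ERec.lean

/-!
# S14 (X2): reciprocity for a "cyclotomic" unramified extension (helper53)

`eRecImp : ERecImp`, i.e. `SecondIneqKummer → CoprimeRep → ERec`.

Sketch.  The hypothesis (ha) and `CoprimeRep` show that `I ↦ χ (N I)` is well defined on ideal
classes (of ideals prime to `r`): if `I ∼ J`, choose `B` prime to `r` in the inverse class; then
`I B` and `J B` are principal and prime to `r`, so `χ (N I) χ (N B) = 1 = χ (N J) χ (N B)`.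
By the second inequality and `NormClassesSubgroup` the quotient of the class group by the norm
classes has order `1` or `p`.  If `I` is prime to `r` with `χ (N I) = 1` and its class is not a
norm class, this class generates the quotient, hence every ideal prime to `r` is equivalent to
`I ^ k * N_{M/E} A` with `A` prime to `r`, and `χ` is trivial on all norms, against (hc).
-/

set_option autoImplicit false

open NumberField
open scoped nonZeroDivisors

namespace Fermat.Agent.S14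

section

variable {E : Type} [Field E] [NumberField E] {r : ℕ} (χ : DirichletCharacter ℂ r)

theorem erec_chi_ne_zero {n : ℕ} (hn : n.Coprime r) : χ (n : ZMod r) ≠ 0 :=
  (((ZMod.isUnit_iff_coprime n r).mpr hn).map χ).ne_zero

/-- `I ↦ χ (N I)` is well defined on ideal classes. -/
theorem erec_wd (hcr : CoprimeRep) (hr : r ≠ 0)
    (ha : ∀ β : 𝓞 E, (Ideal.absNorm (Ideal.span {β})).Coprime r →
      χ ((Ideal.absNorm (Ideal.span {β}) : ℕ) : ZMod r) = 1)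
    {I J : (Ideal (𝓞 E))⁰} (hI : (Ideal.absNorm (I : Ideal (𝓞 E))).Coprime r)
    (hJ : (Ideal.absNorm (J : Ideal (𝓞 E))).Coprime r)
    (h : ClassGroup.mk0 I = ClassGroup.mk0 J) :
    χ ((Ideal.absNorm (I : Ideal (𝓞 E)) : ℕ) : ZMod r) =
      χ ((Ideal.absNorm (J : Ideal (𝓞 E)) : ℕ) : ZMod r) := by
  obtain ⟨B, hB, hBr⟩ := hcr E r hr (ClassGroup.mk0 I)⁻¹
  have key : ∀ A : (Ideal (𝓞 E))⁰, (Ideal.absNorm (A : Ideal (𝓞 E))).Coprime r →
      ClassGroup.mk0 A = ClassGroup.mk0 I →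
      χ ((Ideal.absNorm (A : Ideal (𝓞 E)) : ℕ) : ZMod r) *
        χ ((Ideal.absNorm (B : Ideal (𝓞 E)) : ℕ) : ZMod r) = 1 := by
    intro A hA hAI
    have h1 : ClassGroup.mk0 (A * B) = 1 := by
      rw [map_mul, hB, hAI, mul_inv_cancel]
    rw [ClassGroup.mk0_eq_one_iff] at h1
    obtain ⟨β, hβ⟩ := h1
    rw [Submonoid.coe_mul, Ideal.submodule_span_eq] at hβ
    have h2 : (Ideal.absNorm (Ideal.span {β})).Coprime r := by
      rw [← hβ, map_mul]
      exact Nat.Coprime.mul_left hA hBr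
    have h3 := ha β h2
    rw [← hβ, map_mul, Nat.cast_mul, map_mul] at h3
    exact h3
  have hI' := key I hI rfl
  have hJ' := key J hJ h.symm
  exact mul_right_cancel₀ (erec_chi_ne_zero χ hBr) (hI'.trans hJ'.symm)

end

/-- **(X2)** -/
theorem eRecImp : ERecImp := by
  intro h2 hcr p r E M _ _ _ _ _ _ ζ χ hp hp2 hr hζ hdeg hunr ha hb hc I hI hχI
  have : Fact p.Prime := ⟨hp⟩
  obtain ⟨N, hN, hNpow⟩ := normClassesSubgroup E M
  have hidx : N.index ≤ p :=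
    h2 p E M ζ N hp hp2 hζ hdeg hunr (fun c hc => by
      have : c ∈ (N : Set (ClassGroup (𝓞 E))) := by rw [hN]; exact hc
      exact this)
  have hmemN : ∀ c, c ∈ N ↔ c ∈ normClasses E M := by
    intro c
    rw [← hN]
    rfl
  rw [← hmemN]
  by_contra hg
  -- the class of `I` generates the quotient by `N`
  set g : ClassGroup (𝓞 E) ⧸ N := QuotientGroup.mk (s := N) (ClassGroup.mk0 I) with hgdef
  have hg1 : g ≠ 1 := by
    intro h
    exact hg ((QuotientGroup.eq_one_iff _).mp h)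
  have hgp : g ^ p = 1 := by
    rw [hgdef, ← QuotientGroup.mk_pow, QuotientGroup.eq_one_iff, ← hdeg]
    exact hNpow _
  have hord : orderOf g = p := orderOf_eq_prime hgp hg1
  have hcard : Nat.card (ClassGroup (𝓞 E) ⧸ N) = p := by
    apply le_antisymm
    · rw [← Subgroup.index_eq_card]
      exact hidx
    · rw [← hord]
      exact orderOf_le_card
  obtain ⟨I₀, hI₀, hχI₀⟩ := hc
  have hr0 : r ≠ 0 := hr.ne_zero
  have hI₀0 : I₀ ≠ ⊥ := by
    rintro rfl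
    rw [Ideal.absNorm_bot, Nat.coprime_zero_left] at hI₀
    exact hr.one_lt.ne' hI₀
  let I₀' : (Ideal (𝓞 E))⁰ := ⟨I₀, mem_nonZeroDivisors_of_ne_zero hI₀0⟩
  obtain ⟨k, hk⟩ := mem_powers_of_prime_card hcard hg1
    (g' := QuotientGroup.mk (s := N) (ClassGroup.mk0 I₀'))
  have hk' : g ^ k = QuotientGroup.mk (s := N) (ClassGroup.mk0 I₀') := hk
  rw [hgdef, ← QuotientGroup.mk_pow, QuotientGroup.eq] at hk'
  rw [hmemN] at hk'
  obtain ⟨A, J, hJA, hJ⟩ := hk'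
  -- a representative of the class of `A` prime to `r`
  obtain ⟨A', hA', hA'r⟩ := hcr M r hr0 (ClassGroup.mk0 A)
  have hJ' : ClassGroup.mk0 (nfRelNorm0 (K := E) A') = ClassGroup.mk0 J := by
    rw [nf_mk0_relNorm0_eq_of_mk0_eq hA']
    exact nf_mk0_eq_of_coe_eq (by rw [nf_coe_relNorm0, hJA])
  have hcls : ClassGroup.mk0 I₀' = ClassGroup.mk0 (I ^ k * nfRelNorm0 (K := E) A') := by
    rw [map_mul, map_pow, hJ', hJ, mul_inv_cancel_left]
  have hnorm : Ideal.absNorm ((I ^ k * nfRelNorm0 (K := E) A' : (Ideal (𝓞 E))⁰) : Ideal (𝓞 E)) =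
      Ideal.absNorm (I : Ideal (𝓞 E)) ^ k * Ideal.absNorm (A' : Ideal (𝓞 M)) := by
    rw [Submonoid.coe_mul, SubmonoidClass.coe_pow, map_mul, map_pow, nf_coe_relNorm0,
      Ideal.absNorm_relNorm]
  have hcop : (Ideal.absNorm ((I ^ k * nfRelNorm0 (K := E) A' : (Ideal (𝓞 E))⁰) :
      Ideal (𝓞 E))).Coprime r := by
    rw [hnorm]
    exact Nat.Coprime.mul_left (Nat.Coprime.pow_left k hI) hA'r
  have hwd := erec_wd χ hcr hr0 ha (I := I₀') hI₀ hcop hcls
  rw [hnorm, Nat.cast_mul, Nat.cast_pow, map_mul, map_pow, hχI, one_pow, one_mul,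
    hb _ hA'r] at hwd
  exact hχI₀ hwd

end Fermat.Agent.S14
end MergeWrap_S14_ERec

section MergeWrap_S14_Top -- from S14/Top.lean

/-!
# S14: top-level wiring

`ExtVanishingCts p` for all primes `p ≥ 3` from the three remaining inputs:
the first inequality, the second inequality (Kummer case) and the inertia computation at the
auxiliary prime.
-/

set_option autoImplicit false

namespace Fermat.Agent.S14

/-- `AuxChar` in the form used by `CompareImp`. -/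
theorem auxChar : AuxChar := by
  intro p r ℓ ω hp hr hℓ hord hω
  refine auxCharCoprime p r ℓ ω hp hr ?_ hord hω
  rwa [Ne, ZMod.natCast_eq_zero_iff] at hℓ

/-- The crossing argument (H4), given the inertia computation at the auxiliary prime. -/
theorem crossing_of (hI : Cross.InertiaAtR) : Crossing := by
  intro hFirst hSecond hStick
  have hCR := coprimeRep
  have hNN := nonNormPrimeImp hFirst hCR
  have hERec := eRecImp hSecond hCR
  have hCmp : Compare :=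
    Cross.compareImp_of Cross.gamSurj Cross.finrankEHMH Cross.unramEHMH Cross.existsFrob
      Cross.cycFrob Cross.splitIsNorm Cross.chiNormMH Cross.splitPrimeEH
      (Cross.normResidueImp (Cross.gamTrivModRImp hI)) hFirst hERec normFunct auxPrime auxChar
      hCR hNN
  exact finalAssembly hFirst hStick normClassesSubgroup hCmp

/-- S14 from the three remaining inputs. -/
theorem extVanishing_of (hI : Cross.InertiaAtR) (h1 : FirstIneq) (h2 : SecondIneqKummer) :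
    ∀ (p : ℕ) [Fact p.Prime], 3 ≤ p → ExtCitation.ExtVanishingCts p :=
  S14FE.frontEnd (crossing_of hI h1 h2 stickelbergerJacobi)

end Fermat.Agent.S14
end MergeWrap_S14_Top

section MergeWrap_S14 -- from S14.lean

set_option autoImplicit false
open ExtCitation

namespace Fermat.Agent.S14

theorem result {p : ℕ} [Fact p.Prime] (h3 : 3 ≤ p) :
    ExtCitation.ExtVanishingCts p :=
  extVanishing_of Cross.inertiaAtR Fermat.Agent.S14FI.firstIneq
    Fermat.Agent.S14An.secondIneqKummer p h3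

end Fermat.Agent.S14
end MergeWrap_S14

section MergeWrap_E_S12_Adm -- from E/S12/Adm.lean

/-!
# E' / S12, seat ADM: admissible extension + S14 ⇒ cofixed line (helper75)

`W / ℤ`, `Δ ≠ 0`, good or multiplicative reduction at the odd prime `p`, `Q` a rational point of
order `p`, `E[p]` unramified outside `p`.  Then `(E[p], ⟨Q⟩)` is an admissible extension in the
sense of the Prelude (`isAdmissible`), so by S14 `E[p] = ⟨Q⟩ ⊕ C'` with `C'` Galois stable, and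
`C'` is a cofixed line (`admStatement`).
-/

set_option autoImplicit false
set_option linter.unusedSectionVars false

open WeierstrassCurve WeierstrassCurve.Affine WeierstrassCurve.Affine.Point

namespace Fermat.Agent.ES12

open Fermat.Agent.EP ExtCitation

section General

variable (W : WeierstrassCurve ℤ) [DecidableEq (AlgebraicClosure ℚ)] {p : ℕ} [Fact p.Prime]

/-- `σ` acts on `μ_p` through the exponent `cycloExp p σ`. -/
theorem apply_root_eq_pow_cycloExp (σ : AlgebraicClosure ℚ ≃ₐ[ℚ] AlgebraicClosure ℚ)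
    (μ : AlgebraicClosure ℚ) (hμ : μ ^ p = 1) : σ μ = μ ^ cycloExp p σ := by
  have : NeZero p := ⟨(Fact.out : p.Prime).ne_zero⟩
  have h := modularCyclotomicCharacter.spec (AlgebraicClosure ℚ) (card_rootsOfUnity_eq_self p)
    (σ : AlgebraicClosure ℚ ≃+* AlgebraicClosure ℚ)
    (t := (rootsOfUnity.mkOfPowEq μ hμ : (AlgebraicClosure ℚ)ˣ)) (rootsOfUnity.mkOfPowEq μ hμ).2
  simpa [cycloExp] using h

/-- `det (σ | E[p]) = χ_p (σ)`, in the Prelude's normalisation. -/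
theorem det_eq_cycloExp (hΔ : W.Δ ≠ 0) (σ : AlgebraicClosure ℚ ≃ₐ[ℚ] AlgebraicClosure ℚ) :
    LinearMap.det (galoisRepModuleEnd ℚ (K := AlgebraicClosure ℚ)
      (W.map (Int.castRingHom ℚ)) p σ) = ((cycloExp p σ : ℕ) : ZMod p) := by
  have ha : ∀ μ : AlgebraicClosure ℚ, μ ^ p ^ 1 = 1 → σ μ = μ ^ cycloExp p σ := by
    intro μ hμ
    rw [pow_one] at hμ
    exact apply_root_eq_pow_cycloExp σ μ hμ
  have key := Fermat.Agent.FrobTrace.galois_det_eq_natCast W hΔ (p := p) 1 σ (cycloExp p σ) ha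
  have htr : ∀ n : ℕ, p ^ 1 = n →
      LinearMap.det (galoisRepModuleEnd ℚ (K := AlgebraicClosure ℚ)
        (W.map (Int.castRingHom ℚ)) (p ^ 1) σ) = ((cycloExp p σ : ℕ) : ZMod (p ^ 1)) →
      LinearMap.det (galoisRepModuleEnd ℚ (K := AlgebraicClosure ℚ)
        (W.map (Int.castRingHom ℚ)) n σ) = ((cycloExp p σ : ℕ) : ZMod n) := by
    intro n hn h
    subst hn
    exact h
  exact htr p (pow_one p) key

variable {W}

/-- **(ADM, first half)**: `(E[p], ⟨Q⟩)` is an admissible extension. -/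
theorem isAdmissible (hp2 : p ≠ 2) (hΔ : W.Δ ≠ 0) (hss : (p : ℤ) ∣ W.Δ → ¬ (p : ℤ) ∣ W.c₄)
    (Q : Submodule.torsionBy ℤ ((W.map (Int.castRingHom ℚ))⁄(AlgebraicClosure ℚ)).Point p)
    (hQ0 : Q ≠ 0)
    (hfix : ∀ σ : AlgebraicClosure ℚ ≃ₐ[ℚ] AlgebraicClosure ℚ, σ • Q = Q)
    (hunr : ∀ ℓ : ℕ, ℓ.Prime → ℓ ≠ p → ∀ A : ValuationSubring (AlgebraicClosure ℚ),
      A.LiesOverPrime ℓ → ∀ σ ∈ A.inertiaSubgroupIn ℚ,
        ∀ x : Submodule.torsionBy ℤ ((W.map (Int.castRingHom ℚ))⁄(AlgebraicClosure ℚ)).Point p,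
          σ • x = x) :
    IsAdmissibleExtensionCts p
      (Submodule.torsionBy ℤ ((W.map (Int.castRingHom ℚ))⁄(AlgebraicClosure ℚ)).Point p)
      (Submodule.span (ZMod p) {Q}) := by
  have hp : p.Prime := Fact.out
  have hcard := card_torsion_eq_sq W (p := p) hΔ
  have hfin : Finite (Submodule.torsionBy ℤ
      ((W.map (Int.castRingHom ℚ))⁄(AlgebraicClosure ℚ)).Point p) :=
    Nat.finite_of_card_ne_zero (by rw [hcard]; exact pow_ne_zero _ hp.ne_zero)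
  have hfd : FiniteDimensional (ZMod p) (Submodule.torsionBy ℤ
      ((W.map (Int.castRingHom ℚ))⁄(AlgebraicClosure ℚ)).Point p) := Module.Finite.of_finite
  have hrank := Fermat.Agent.S13AtP.finrank_eq_two_of_card hcard
  have hC1 : Module.finrank (ZMod p) (Submodule.span (ZMod p) {Q}) = 1 :=
    finrank_span_singleton hQ0
  have hCcard : Nat.card (Submodule.span (ZMod p) {Q}) = p := by
    have h := Module.natCard_eq_pow_finrank (K := ZMod p) (V := Submodule.span (ZMod p) {Q})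
    rw [Nat.card_zmod, hC1, pow_one] at h
    exact h
  have hCfix : ∀ σ : AlgebraicClosure ℚ ≃ₐ[ℚ] AlgebraicClosure ℚ,
      ∀ x ∈ Submodule.span (ZMod p) {Q}, σ • x = x := by
    intro σ x hx
    obtain ⟨a, rfl⟩ := Submodule.mem_span_singleton.mp hx
    rw [smul_comm, hfix σ]
  -- a basis starting with `Q`
  have hCtop : Submodule.span (ZMod p) {Q} ≠ ⊤ := by
    intro h
    have := hC1
    rw [h, finrank_top, hrank] at this
    omega
  obtain ⟨P, hP⟩ : ∃ P : Submodule.torsionBy ℤ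
      ((W.map (Int.castRingHom ℚ))⁄(AlgebraicClosure ℚ)).Point p,
      P ∉ Submodule.span (ZMod p) {Q} := by
    by_contra hcon
    push Not at hcon
    exact hCtop (Submodule.eq_top_iff'.mpr hcon)
  have hli : LinearIndependent (ZMod p) ![Q, P] := by
    rw [LinearIndependent.pair_iff' hQ0]
    intro a hcon
    apply hP
    rw [← hcon]
    exact Submodule.smul_mem _ _ (Submodule.mem_span_singleton_self Q)
  let b : Module.Basis (Fin 2) (ZMod p) (Submodule.torsionBy ℤ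
      ((W.map (Int.castRingHom ℚ))⁄(AlgebraicClosure ℚ)).Point p) :=
    basisOfLinearIndependentOfCardEqFinrank hli (by rw [hrank]; rfl)
  have hb0 : b 0 = Q := by
    simp [b]
  refine
    { stable := fun σ x hx => by rw [hCfix σ x hx]; exact hx
      fixed_sub := hCfix
      cyclo_quot := ?_
      card_sub := hCcard
      card_total := hcard
      unramified_outside := hunr
      locally_split := fun A hA =>
        exists_decomp_stable_compl W A hp2 hΔ hss hA _ hCcard hCfix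
      open_kernel := ?_ }
  · intro σ x
    obtain ⟨u, z, hu, hz, hdet⟩ := Fermat.Agent.MultRed.exists_scalars_of_stable b
      (Submodule.span (ZMod p) {Q}) (by rw [hb0])
      (galoisRepModuleEnd ℚ (K := AlgebraicClosure ℚ) (W.map (Int.castRingHom ℚ)) p σ)
      (fun w hw => by
        rw [galoisRepModuleEnd_apply, hCfix σ w hw]; exact hw)
    -- `u = 1`
    have hu1 : u = 1 := by
      have h1 := hu Q (Submodule.mem_span_singleton_self Q)
      rw [galoisRepModuleEnd_apply, hfix σ] at h1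
      by_contra hne
      have h2 : (u - 1) • Q = 0 := by
        rw [sub_smul, one_smul, ← h1, sub_self]
      rcases smul_eq_zero.mp h2 with h3 | h3
      · exact hne (sub_eq_zero.mp h3)
      · exact hQ0 h3
    rw [hu1, one_mul, det_eq_cycloExp W hΔ σ] at hdet
    have := hz x
    rw [galoisRepModuleEnd_apply, ← hdet] at this
    exact this
  · have h := Fermat.Agent.FrobTrace.isOpen_galoisRepModuleEnd_eq_one
      (W.map (Int.castRingHom ℚ)).toAffine p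
    have hset : {σ : AlgebraicClosure ℚ ≃ₐ[ℚ] AlgebraicClosure ℚ |
        ∀ v : Submodule.torsionBy ℤ
          ((W.map (Int.castRingHom ℚ))⁄(AlgebraicClosure ℚ)).Point p, σ • v = v}
        = {σ : AlgebraicClosure ℚ ≃ₐ[ℚ] AlgebraicClosure ℚ |
          galoisRepModuleEnd ℚ (K := AlgebraicClosure ℚ) (W.map (Int.castRingHom ℚ)) p σ = 1} := by
      ext σ
      simp only [Set.mem_ofPred_eq]
      constructor
      · intro h
        ext x
        simpa using congrArg Subtype.val (h x)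
      · intro h x
        have := congrArg (fun f : Module.End (ZMod p) _ => f x) h
        simpa using this
    rw [hset]
    exact h

/-- **(ADM, second half)**: a global complement of the line of a rational point is a cofixed
line. -/
theorem hasCofixedLine_of_isCompl
    (C C' : Submodule (ZMod p)
      (Submodule.torsionBy ℤ ((W.map (Int.castRingHom ℚ))⁄(AlgebraicClosure ℚ)).Point p))
    (hC0 : C ≠ ⊥) (hCtop : C ≠ ⊤)
    (hCfix : ∀ σ : AlgebraicClosure ℚ ≃ₐ[ℚ] AlgebraicClosure ℚ, ∀ x ∈ C, σ • x = x)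
    (hC' : ∀ σ : AlgebraicClosure ℚ ≃ₐ[ℚ] AlgebraicClosure ℚ, ∀ x ∈ C', σ • x ∈ C')
    (hcompl : IsCompl C C') :
    ∃ N : Submodule (ZMod p)
        (Submodule.torsionBy ℤ ((W.map (Int.castRingHom ℚ))⁄(AlgebraicClosure ℚ)).Point p),
      IsGaloisStable ℚ N ∧ N ≠ ⊥ ∧ N ≠ ⊤ ∧
        ∀ σ : AlgebraicClosure ℚ ≃ₐ[ℚ] AlgebraicClosure ℚ,
          ∀ x : Submodule.torsionBy ℤ ((W.map (Int.castRingHom ℚ))⁄(AlgebraicClosure ℚ)).Point p,
            σ • x - x ∈ N := by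
  refine ⟨C', hC', ?_, ?_, ?_⟩
  · rintro rfl
    exact hCtop (eq_top_of_isCompl_bot hcompl)
  · rintro rfl
    exact hC0 (eq_bot_of_isCompl_top hcompl)
  · intro σ x
    obtain ⟨c, hc, c', hc', rfl⟩ : ∃ c ∈ C, ∃ c' ∈ C', c + c' = x := by
      have hx : x ∈ C ⊔ C' := by rw [hcompl.sup_eq_top]; exact Submodule.mem_top
      exact Submodule.mem_sup.mp hx
    rw [smul_add, hCfix σ c hc]
    have : c + σ • c' - (c + c') = σ • c' - c' := by abel
    rw [this]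
    exact C'.sub_mem (hC' σ c' hc') hc'

end General

/-- **(ADM)**, unfolded. -/
theorem adm_unfolded {p : ℕ} (hp : p.Prime) (hp3 : 3 ≤ p) (W : WeierstrassCurve ℤ) (hΔ : W.Δ ≠ 0)
    (hss : (p : ℤ) ∣ W.Δ → ¬ (p : ℤ) ∣ W.c₄)
    (Q : ((W.map (Int.castRingHom ℚ))⁄(AlgebraicClosure ℚ)).Point)
    (hfix : ∀ σ : AlgebraicClosure ℚ ≃ₐ[ℚ] AlgebraicClosure ℚ, σ • Q = Q)
    (hord : addOrderOf Q = p)
    (hunr : ∀ ℓ : ℕ, ℓ.Prime → ℓ ≠ p → ∀ A : ValuationSubring (AlgebraicClosure ℚ),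
      A.LiesOverPrime ℓ → ∀ σ ∈ A.inertiaSubgroupIn ℚ,
        ∀ P : ((W.map (Int.castRingHom ℚ))⁄(AlgebraicClosure ℚ)).Point, p • P = 0 → σ • P = P) :
    HasGaloisStableCofixedLine (K := AlgebraicClosure ℚ) ℚ (W.map (Int.castRingHom ℚ)) p := by
  have : Fact p.Prime := ⟨hp⟩
  have hp2 : p ≠ 2 := by omega
  obtain ⟨hQ0, hpQ⟩ := ne_zero_and_nsmul_of_addOrderOf hp hord
  have hmem : Q ∈ Submodule.torsionBy ℤ
      ((W.map (Int.castRingHom ℚ))⁄(AlgebraicClosure ℚ)).Point p := by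
    rw [Submodule.mem_torsionBy_iff, natCast_zsmul]
    exact hpQ
  let Q' : Submodule.torsionBy ℤ
      ((W.map (Int.castRingHom ℚ))⁄(AlgebraicClosure ℚ)).Point p := ⟨Q, hmem⟩
  have hQ'0 : Q' ≠ 0 := fun h => hQ0 (congrArg Subtype.val h)
  have hQ'fix : ∀ σ : AlgebraicClosure ℚ ≃ₐ[ℚ] AlgebraicClosure ℚ, σ • Q' = Q' :=
    fun σ => Subtype.ext (hfix σ)
  have hunr' : ∀ ℓ : ℕ, ℓ.Prime → ℓ ≠ p → ∀ A : ValuationSubring (AlgebraicClosure ℚ),
      A.LiesOverPrime ℓ → ∀ σ ∈ A.inertiaSubgroupIn ℚ,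
        ∀ x : Submodule.torsionBy ℤ ((W.map (Int.castRingHom ℚ))⁄(AlgebraicClosure ℚ)).Point p,
          σ • x = x := by
    intro ℓ hℓ hℓp A hA σ hσ x
    apply Subtype.ext
    refine hunr ℓ hℓ hℓp A hA σ hσ x.1 ?_
    have h1 : ((p : ℕ) : ℤ) • (x : ((W.map (Int.castRingHom ℚ))⁄(AlgebraicClosure ℚ)).Point) = 0 :=
      (Submodule.mem_torsionBy_iff _ _).mp x.2
    rwa [natCast_zsmul] at h1
  have hadm := isAdmissible hp2 hΔ hss Q' hQ'0 hQ'fix hunr'
  obtain ⟨C', hC', hcompl⟩ := Fermat.Agent.S14.result hp3 _ _ hadm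
  have hC0 : Submodule.span (ZMod p) {Q'} ≠ ⊥ := by
    intro h
    apply hQ'0
    have := Submodule.mem_span_singleton_self (R := ZMod p) Q'
    rw [h, Submodule.mem_bot] at this
    exact this
  have hCtop : Submodule.span (ZMod p) {Q'} ≠ ⊤ := by
    intro h
    have h1 := hadm.card_sub
    have h2 := hadm.card_total
    rw [h] at h1
    have h3 : Nat.card (⊤ : Submodule (ZMod p) (Submodule.torsionBy ℤ
        ((W.map (Int.castRingHom ℚ))⁄(AlgebraicClosure ℚ)).Point p))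
        = Nat.card (Submodule.torsionBy ℤ
          ((W.map (Int.castRingHom ℚ))⁄(AlgebraicClosure ℚ)).Point p) :=
      Nat.card_congr (Submodule.topEquiv (R := ZMod p)).toEquiv
    rw [h3, h2] at h1
    have := hp.two_le
    nlinarith
  exact hasCofixedLine_of_isCompl _ C' hC0 hCtop hadm.fixed_sub hC' hcompl

/-- **(ADM)** in the shape of `Leaves.lean`. -/
theorem admStatement {p : ℕ} (hp : p.Prime) (hp3 : 3 ≤ p) : AdmStatement p :=
  fun W hΔ hss Q hfix hord hunr => adm_unfolded hp hp3 W hΔ hss Q hfix hord hunr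

end Fermat.Agent.ES12
end MergeWrap_E_S12_Adm

section MergeWrap_E_S12_Step -- from E/S12/Step.lean

set_option autoImplicit false

open WeierstrassCurve WeierstrassCurve.Affine WeierstrassCurve.Affine.Point

namespace Fermat.Agent.ES12

open Fermat.Agent.EV

theorem chainStep_of {p : ℕ} (hp : p.Prime) (hp17 : 17 ≤ p)
    (hM : MazurStep) (hQuot : QuotStatement p) (hDual : DualStatement p) (hL1 : L1Statement p)
    (hL2 : L2Statement p) (hG3 : G3Statement p) (hL2p : L2pStatement p) (hL3 : L3Statement p)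
    (hAdm : AdmStatement p) : ChainStep p := by
  have : Fact p.Prime := ⟨hp⟩
  rintro A B ⟨hFP, N, hNstab, hNbot, hNtop, hNcof⟩
  -- the line as a subgroup of points
  set T := Submodule.torsionBy ℤ (Pts (freyLike A B)) p with hT
  let N₀ : AddSubgroup (Pts (freyLike A B)) := N.toAddSubgroup.map T.subtype.toAddMonoidHom
  have hmemN₀ : ∀ P : Pts (freyLike A B), P ∈ N₀ ↔ ∃ x ∈ N, (x : Pts (freyLike A B)) = P := by
    intro P
    simp only [N₀, AddSubgroup.mem_map]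
    constructor
    · rintro ⟨x, hx, rfl⟩; exact ⟨x, hx, rfl⟩
    · rintro ⟨x, hx, rfl⟩; exact ⟨x, hx, rfl⟩
  have hcardN : Nat.card N = p := card_line (freyLike A B) (freyLike_Δ_ne_zero hFP) N hNbot hNtop
  have hcardN₀ : Nat.card N₀ = p := by
    rw [← hcardN]
    refine Nat.card_congr (Equiv.ofBijective (fun x : N₀ => (⟨⟨x.1, ?_⟩, ?_⟩ : N)) ?_).symm.symm
    · obtain ⟨y, _, hy⟩ := (hmemN₀ x.1).mp x.2
      rw [← hy]; exact y.2
    · obtain ⟨y, hyN, hy⟩ := (hmemN₀ x.1).mp x.2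
      have : (⟨x.1, by rw [← hy]; exact y.2⟩ : T) = y := Subtype.ext hy.symm
      rw [this]; exact hyN
    · constructor
      · intro x y hxy
        have := congrArg (fun z : N => ((z : T) : Pts (freyLike A B))) hxy
        exact Subtype.ext this
      · intro z
        exact ⟨⟨(z : T), (hmemN₀ _).mpr ⟨z.1, z.2, rfl⟩⟩, rfl⟩
  have hstabN₀ : ∀ σ : GQ, ∀ P ∈ N₀, σ • P ∈ N₀ := by
    intro σ P hP
    obtain ⟨x, hx, rfl⟩ := (hmemN₀ P).mp hP
    exact (hmemN₀ _).mpr ⟨σ • x, hNstab σ x hx, rfl⟩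
  -- a torsion point outside the line
  obtain ⟨x₀, hx₀⟩ : ∃ x₀ : T, x₀ ∉ N := by
    by_contra hcon
    push Not at hcon
    exact hNtop (eq_top_iff.mpr fun x _ => hcon x)
  set P₀ : Pts (freyLike A B) := (x₀ : Pts (freyLike A B)) with hP₀
  have hpP₀ : p • P₀ = 0 := by
    have := x₀.2
    rw [Submodule.mem_torsionBy_iff] at this
    rw [hP₀, ← this, Nat.cast_smul_eq_nsmul]
  have hP₀N : P₀ ∉ N₀ := by
    intro h
    obtain ⟨x, hx, hxe⟩ := (hmemN₀ _).mp h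
    have : x = x₀ := Subtype.ext hxe
    exact hx₀ (this ▸ hx)
  have hP₀cof : ∀ σ : GQ, σ • P₀ - P₀ ∈ N₀ := by
    intro σ
    exact (hmemN₀ _).mpr ⟨σ • x₀ - x₀, hNcof σ x₀, rfl⟩
  -- the quotient
  obtain ⟨A', B', hFP', φ, hφsurj, hφker, hφeq, hxmap⟩ := hQuot A B hFP N₀ hcardN₀ hstabN₀
  set Q' : Pts (freyLike A' B') := φ P₀ with hQ'
  have hQ'0 : Q' ≠ 0 := by
    intro h
    apply hP₀N
    rw [← hφker]; exact h
  have hpQ' : p • Q' = 0 := by
    rw [hQ', ← map_nsmul, hpP₀, _root_.map_zero]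
  have hQ'ord : addOrderOf Q' = p := by
    have h1 : addOrderOf Q' ∣ p := addOrderOf_dvd_of_nsmul_eq_zero hpQ'
    rcases (Nat.dvd_prime hp).mp h1 with h | h
    · exact absurd (AddMonoid.addOrderOf_eq_one_iff.mp h) hQ'0
    · exact h
  have hQ'fix : ∀ σ : GQ, σ • Q' = Q' := by
    intro σ
    rw [hQ', ← hφeq]
    have h1 : σ • P₀ - P₀ ∈ φ.ker := by rw [hφker]; exact hP₀cof σ
    have h2 : φ (σ • P₀ - P₀) = 0 := h1
    rw [map_sub, sub_eq_zero] at h2
    exact h2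
  -- reduction type of the new curve
  have hΔ' : (freyLike A' B').Δ ≠ 0 := freyLike_Δ_ne_zero hFP'
  have hss' : ∀ {ℓ : ℕ}, ℓ.Prime → (ℓ : ℤ) ∣ (freyLike A' B').Δ → ¬ (ℓ : ℤ) ∣ (freyLike A' B').c₄ :=
    fun hℓ h => freyLike_semistable hFP' hℓ h
  have h2Δ : (2 : ℤ) ∣ (freyLike A' B').Δ := two_dvd_freyLike_Δ hFP'
  have h2c₄ : ¬ (2 : ℤ) ∣ (freyLike A' B').c₄ := by
    have := hss' Nat.prime_two (by exact_mod_cast h2Δ)
    exact_mod_cast this
  have h3Δ : (3 : ℤ) ∣ (freyLike A' B').Δ := hG3 _ hΔ' Q' hQ'fix hQ'ord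
  have h3c₄ : ¬ (3 : ℤ) ∣ (freyLike A' B').c₄ := by
    have := hss' Nat.prime_three (by exact_mod_cast h3Δ)
    exact_mod_cast this
  have h2z := hL2 (freyLike A' B') 2 (Or.inl rfl) (by exact_mod_cast h2Δ)
    (by exact_mod_cast h2c₄) Q' hQ'fix hQ'ord
  have h3z := hL2 (freyLike A' B') 3 (Or.inr rfl) (by exact_mod_cast h3Δ)
    (by exact_mod_cast h3c₄) Q' hQ'fix hQ'ord
  have hp' : p ∉ ({2, 3, 5, 7, 13} : Finset ℕ) := by
    simp only [Finset.mem_insert, Finset.mem_singleton]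
    omega
  -- Mazur: `Q'` misses the zero component at every bad prime `≠ p`
  have hMz : ∀ {ℓ : ℕ}, ℓ.Prime → ℓ ≠ p → (ℓ : ℤ) ∣ (freyLike A' B').Δ →
      ∀ Av : ValuationSubring Qb, Av.LiesOverPrime ℓ →
        ¬ (freyLike A' B').InZeroComponentAt Av Q' := by
    intro ℓ hℓ hℓp hℓΔ Av hAv
    exact hM hp hp' (freyLike A' B') hΔ' Q' hQ'fix hQ'ord h2Δ h2c₄ h2z h3Δ h3c₄ h3z hℓ hℓp hℓΔ
      (hss' hℓ hℓΔ) Av hAv
  -- unramified outside `p`
  have hunr : ∀ ℓ : ℕ, ℓ.Prime → ℓ ≠ p → ∀ Av : ValuationSubring Qb, Av.LiesOverPrime ℓ →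
      ∀ σ ∈ Av.inertiaSubgroupIn ℚ, ∀ P : Pts (freyLike A' B'), p • P = 0 → σ • P = P := by
    intro ℓ hℓ hℓp
    exact hL3 (freyLike A' B') hΔ' Q' hQ'fix hQ'ord ℓ hℓ hℓp
      (fun hℓΔ => ⟨hss' hℓ hℓΔ, fun Av hAv => hMz hℓ hℓp hℓΔ Av hAv⟩)
  have hcof' : HasCofixedLine (freyLike A' B') p :=
    hAdm (freyLike A' B') hΔ' (fun h => hss' hp h) Q' hQ'fix hQ'ord hunr
  refine ⟨A', B', ⟨hFP', hcof'⟩, ?_⟩
  -- valuations
  intro ℓ hℓ hℓD
  have hℓΔ : (ℓ : ℤ) ∣ (freyLike A' B').Δ := by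
    rw [freyLike_Δ hFP']; exact dvd_pow hℓD two_ne_zero
  obtain ⟨Av, hAv⟩ := Fermat.Agent.FrobExists.exists_valuationSubring_liesOver ℓ hℓ
  have hz : ¬ (freyLike A' B').InZeroComponentAt Av Q' := by
    by_cases hℓp : ℓ = p
    · subst hℓp
      exact hL2p (freyLike A' B') hℓΔ (hss' hℓ hℓΔ) Q' hQ'fix hQ'ord Av hAv
    · exact hMz hℓ hℓp hℓΔ Av hAv
  obtain ⟨hc₄'', hΔ''⟩ := hL1 (freyLike A' B') hΔ' ℓ hℓ hℓΔ (hss' hℓ hℓΔ) Av hAv Q' hQ'ord hz
  have hkercard : Nat.card φ.ker = p := by rw [hφker]; exact hcardN₀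
  have hxmap' : ∃ n d : Polynomial Qb, ∀ (x y : Qb)
      (h : (CurveQb (freyLike A B)).Nonsingular x y),
      (Point.some x y h : Pts (freyLike A B)) ∉ φ.ker →
        d.eval x ≠ 0 ∧ ∃ (y' : Qb) (h' : (CurveQb (freyLike A' B')).Nonsingular
          (n.eval x / d.eval x) y'), φ (.some x y h) = .some (n.eval x / d.eval x) y' h' := by
    obtain ⟨n, d, h⟩ := hxmap
    exact ⟨n, d, fun x y hxy hnot => h x y hxy (by rw [← hφker]; exact hnot)⟩
  have hdual := hDual (freyLike A B) (freyLike A' B') (freyLike_Δ_ne_zero hFP) hΔ' φ hφsurj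
    hkercard hxmap' P₀ hpP₀ hQ'0
  -- take valuations in the `j`-equality
  have hv := congrArg Av.valuation hdual
  rw [map_mul, map_mul, map_pow, map_pow, hc₄'', one_pow, one_mul] at hv
  have hΔF_lt : Av.valuation (((freyLike A' B').Δ : ℤ) : Qb) < 1 :=
    (valuation_intCast_lt_one_iff hℓ Av hAv _).mpr hℓΔ
  have hΔ''_lt : Av.valuation (veluCurve (CurveQb (freyLike A' B'))
      (AddSubgroup.zmultiples Q' : Set (Pts (freyLike A' B')))).Δ < 1 := by
    by_contra hge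
    push Not at hge
    have : (1 : Av.ValueGroup) ≤ Av.valuation (veluCurve (CurveQb (freyLike A' B'))
      (AddSubgroup.zmultiples Q' : Set (Pts (freyLike A' B')))).Δ ^ p := one_le_pow_of_one_le' hge p
    rw [hΔ''] at this
    exact absurd hΔF_lt (not_lt.mpr this)
  have hc₄E_le : Av.valuation (((freyLike A B).c₄ : ℤ) : Qb) ≤ 1 := valuation_intCast_le_one Av _
  have hΔE_lt : Av.valuation (((freyLike A B).Δ : ℤ) : Qb) < 1 := by
    rw [hv]
    calc Av.valuation (((freyLike A B).c₄ : ℤ) : Qb) ^ 3 * _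
        ≤ 1 * _ := by
          gcongr
          exact pow_le_one' hc₄E_le 3
      _ < 1 := by rw [one_mul]; exact hΔ''_lt
  have hℓΔE : (ℓ : ℤ) ∣ (freyLike A B).Δ := (valuation_intCast_lt_one_iff hℓ Av hAv _).mp hΔE_lt
  have hc₄E : Av.valuation (((freyLike A B).c₄ : ℤ) : Qb) = 1 := by
    rcases lt_or_eq_of_le hc₄E_le with h | h
    · exact absurd ((valuation_intCast_lt_one_iff hℓ Av hAv _).mp h)
        (freyLike_semistable hFP hℓ hℓΔE)
    · exact h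
  rw [hc₄E, one_pow, one_mul] at hv
  have hfin : Av.valuation (((freyLike A B).Δ : ℤ) : Qb) ^ p
      = Av.valuation (((freyLike A' B').Δ : ℤ) : Qb) := by rw [hv, hΔ'']
  have hpv := padicValInt_eq_of_valuation_pow_eq hℓ Av hAv (freyLike_Δ_ne_zero hFP) hΔ' p hfin
  rw [freyLike_Δ hFP, freyLike_Δ hFP'] at hpv
  have e1 : padicValInt ℓ (freyD A B ^ 2) = 2 * padicValInt ℓ (freyD A B) := by
    have : Fact ℓ.Prime := ⟨hℓ⟩
    rw [pow_two, padicValInt.mul (freyD_ne_zero hFP) (freyD_ne_zero hFP)]; ring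
  have e2 : padicValInt ℓ (freyD A' B' ^ 2) = 2 * padicValInt ℓ (freyD A' B') := by
    have : Fact ℓ.Prime := ⟨hℓ⟩
    rw [pow_two, padicValInt.mul (freyD_ne_zero hFP') (freyD_ne_zero hFP')]; ring
  rw [e1, e2] at hpv
  have : 2 * (p * padicValInt ℓ (freyD A B)) = 2 * padicValInt ℓ (freyD A' B') := by
    rw [← hpv]; ring
  exact (Nat.eq_of_mul_eq_mul_left (by norm_num) this).symm

end Fermat.Agent.ES12
end MergeWrap_E_S12_Step

section MergeWrap_E_S12_EndChain -- from E/S12/EndChain.lean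

set_option autoImplicit false

namespace Fermat.Agent.ES12

/-! ### Extraction of roots -/

/-- If all valuations of `n` are `M` times the valuations of `d`, then `n` is the `M`-th power of
a divisor of `d`. -/
theorem exists_root_dvd {n d M : ℕ} (hn : n ≠ 0) (hd : d ≠ 0)
    (h : ∀ ℓ : ℕ, ℓ.Prime → ℓ ∣ n → padicValNat ℓ n = M * padicValNat ℓ d) :
    ∃ α : ℕ, α ^ M = n ∧ α ∣ d := by
  classical
  refine ⟨∏ ℓ ∈ n.primeFactors, ℓ ^ (d.factorization ℓ), ?_, ?_⟩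
  · rw [← Finset.prod_pow]
    conv_rhs => rw [← Nat.prod_factorization_pow_eq_self hn]
    rw [Nat.prod_factorization_eq_prod_primeFactors]
    apply Finset.prod_congr rfl
    intro ℓ hℓ
    have hℓp := Nat.prime_of_mem_primeFactors hℓ
    have hℓn := Nat.dvd_of_mem_primeFactors hℓ
    rw [← pow_mul, Nat.factorization_def n hℓp, Nat.factorization_def d hℓp, h ℓ hℓp hℓn,
      mul_comm]
  · conv_rhs => rw [← Nat.prod_factorization_pow_eq_self hd]
    rw [Nat.prod_factorization_eq_prod_primeFactors]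
    have e : ∏ ℓ ∈ n.primeFactors, ℓ ^ (d.factorization ℓ) =
        ∏ ℓ ∈ n.primeFactors ∩ d.primeFactors, ℓ ^ (d.factorization ℓ) := by
      symm
      apply Finset.prod_subset Finset.inter_subset_left
      intro ℓ hℓ hℓ'
      have h1 : ℓ ∉ d.primeFactors := fun h => hℓ' (Finset.mem_inter.mpr ⟨hℓ, h⟩)
      rw [← Nat.support_factorization, Finsupp.notMem_support_iff] at h1
      rw [h1, pow_zero]
    rw [e]
    exact Finset.prod_dvd_prod_of_subset _ _ _ Finset.inter_subset_right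

/-! ### Frey pairs -/

variable {A B : ℤ}

theorem IsFreyPair.odd_A (h : IsFreyPair A B) : Odd A := by
  rw [Int.odd_iff]
  have := h.hA
  omega

theorem IsFreyPair.B_eq (h : IsFreyPair A B) : B = 16 * (B / 16) := by
  obtain ⟨b, hb⟩ := h.hB
  omega

theorem IsFreyPair.two_dvd_B16 (h : IsFreyPair A B) : (2 : ℤ) ∣ B / 16 := by
  obtain ⟨b, hb⟩ := h.hB
  exact ⟨b, by omega⟩

theorem IsFreyPair.odd_C (h : IsFreyPair A B) : Odd (A + B) := by
  rw [Int.odd_iff]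
  have := h.hA
  obtain ⟨b, hb⟩ := h.hB
  omega

theorem IsFreyPair.B16_ne_zero (h : IsFreyPair A B) : B / 16 ≠ 0 := by
  intro h0
  have := h.B_eq
  rw [h0, mul_zero] at this
  exact h.hB0 this

theorem IsFreyPair.freyD_ne_zero (h : IsFreyPair A B) : freyD A B ≠ 0 :=
  mul_ne_zero (mul_ne_zero h.hA0 h.B16_ne_zero) h.hC0

theorem IsFreyPair.two_dvd_freyD (h : IsFreyPair A B) : (2 : ℤ) ∣ freyD A B :=
  Dvd.dvd.mul_right (Dvd.dvd.mul_left h.two_dvd_B16 _) _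

theorem IsFreyPair.not_dvd_B_of_dvd_A (h : IsFreyPair A B) {ℓ : ℕ} (hℓ : ℓ.Prime)
    (hA : (ℓ : ℤ) ∣ A) : ¬ (ℓ : ℤ) ∣ B := by
  intro hB
  have h1 : IsUnit (ℓ : ℤ) := h.hcop.isUnit_of_dvd' hA hB
  rw [Int.isUnit_iff] at h1
  have := hℓ.two_le
  omega

theorem IsFreyPair.not_dvd_B16_of_not_dvd_B (h : IsFreyPair A B) {ℓ : ℕ}
    (hB : ¬ (ℓ : ℤ) ∣ B) : ¬ (ℓ : ℤ) ∣ B / 16 := by
  intro h1
  apply hB
  rw [h.B_eq]
  exact Dvd.dvd.mul_left h1 _

/-- valuations of `D` at the primes dividing `A`. -/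
theorem IsFreyPair.padicValInt_freyD_of_dvd_A (h : IsFreyPair A B) {ℓ : ℕ} (hℓ : ℓ.Prime)
    (hA : (ℓ : ℤ) ∣ A) : padicValInt ℓ (freyD A B) = padicValInt ℓ A := by
  have : Fact ℓ.Prime := ⟨hℓ⟩
  have hB := h.not_dvd_B_of_dvd_A hℓ hA
  have hB16 := h.not_dvd_B16_of_not_dvd_B hB
  have hC : ¬ (ℓ : ℤ) ∣ A + B := fun hC => hB ((dvd_add_right hA).mp hC)
  rw [freyD, padicValInt.mul (mul_ne_zero h.hA0 h.B16_ne_zero) h.hC0,
    padicValInt.mul h.hA0 h.B16_ne_zero, padicValInt.eq_zero_of_not_dvd hB16,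
    padicValInt.eq_zero_of_not_dvd hC]
  simp

/-- valuations of `D` at the primes dividing `C = A + B`. -/
theorem IsFreyPair.padicValInt_freyD_of_dvd_C (h : IsFreyPair A B) {ℓ : ℕ} (hℓ : ℓ.Prime)
    (hC : (ℓ : ℤ) ∣ A + B) : padicValInt ℓ (freyD A B) = padicValInt ℓ (A + B) := by
  have : Fact ℓ.Prime := ⟨hℓ⟩
  have hA : ¬ (ℓ : ℤ) ∣ A := by
    intro hA
    exact h.not_dvd_B_of_dvd_A hℓ hA ((dvd_add_right hA).mp hC)
  have hB : ¬ (ℓ : ℤ) ∣ B := by
    intro hB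
    exact hA ((dvd_add_left hB).mp hC)
  have hB16 := h.not_dvd_B16_of_not_dvd_B hB
  rw [freyD, padicValInt.mul (mul_ne_zero h.hA0 h.B16_ne_zero) h.hC0,
    padicValInt.mul h.hA0 h.B16_ne_zero, padicValInt.eq_zero_of_not_dvd hB16,
    padicValInt.eq_zero_of_not_dvd hA]
  simp

/-- the `2`-part of `D` divides `B`. -/
theorem IsFreyPair.two_pow_dvd_B (h : IsFreyPair A B) {e : ℕ}
    (he : (2 : ℤ) ^ e ∣ freyD A B) : (2 : ℤ) ^ e ∣ B := by
  have hA : IsCoprime ((2 : ℤ) ^ e) A := (Int.isCoprime_two_left.mpr h.odd_A).pow_left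
  have hC : IsCoprime ((2 : ℤ) ^ e) (A + B) := (Int.isCoprime_two_left.mpr h.odd_C).pow_left
  rw [freyD] at he
  have h1 : (2 : ℤ) ^ e ∣ A * (B / 16) := hC.dvd_of_dvd_mul_right he
  have h2 : (2 : ℤ) ^ e ∣ B / 16 := hA.dvd_of_dvd_mul_left h1
  rw [h.B_eq]
  exact Dvd.dvd.mul_left h2 _

/-- an integer whose absolute value is an `M`-th power (`M` odd) is an `M`-th power. -/
theorem exists_int_root {A : ℤ} {α M : ℕ} (hM : Odd M) (h : α ^ M = A.natAbs) :
    ∃ a : ℤ, a ^ M = A ∧ |a| = (α : ℤ) := by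
  refine ⟨A.sign * (α : ℤ), ?_, ?_⟩
  · rw [mul_pow]
    have h1 : ((α : ℤ)) ^ M = (A.natAbs : ℤ) := by exact_mod_cast h
    rw [h1]
    rcases lt_trichotomy A 0 with hA | hA | hA
    · rw [Int.sign_eq_neg_one_of_neg hA, hM.neg_one_pow]
      rw [Int.natCast_natAbs, abs_of_neg hA]
      ring
    · subst hA
      simp
    · rw [Int.sign_eq_one_of_pos hA, one_pow, one_mul, Int.natCast_natAbs, abs_of_pos hA]
  · rcases lt_trichotomy A 0 with hA | hA | hA
    · rw [Int.sign_eq_neg_one_of_neg hA]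
      simp
    · subst hA
      have hα : α = 0 := by
        have : α ^ M = 0 := by simpa using h
        exact (pow_eq_zero_iff hM.pos.ne').mp this
      simp [hα]
    · rw [Int.sign_eq_one_of_pos hA]
      simp

/-! ### The stages of the chain -/

/-- the stage `k` of a chain starting at `(A₀, B₀)`. -/
def Stage (p : ℕ) (A₀ B₀ : ℤ) (k : ℕ) (A B : ℤ) : Prop :=
  ChainState p A B ∧ ∀ ℓ : ℕ, ℓ.Prime → (ℓ : ℤ) ∣ freyD A B →
    padicValInt ℓ (freyD A B) = p ^ k * padicValInt ℓ (freyD A₀ B₀)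

theorem dvd_of_padicValInt_pos {ℓ : ℕ} {z : ℤ} (h : 0 < padicValInt ℓ z) : (ℓ : ℤ) ∣ z := by
  by_contra hn
  rw [padicValInt.eq_zero_of_not_dvd hn] at h
  exact lt_irrefl _ h

theorem padicValInt_pos_of_dvd {ℓ : ℕ} (hℓ : ℓ.Prime) {z : ℤ} (hz : z ≠ 0)
    (h : (ℓ : ℤ) ∣ z) : 0 < padicValInt ℓ z := by
  have : Fact ℓ.Prime := ⟨hℓ⟩
  have h1 : (ℓ : ℤ) ^ 1 ∣ z := by simpa using h
  have h2 := (padicValInt_dvd_iff 1 z).mp h1
  rcases h2 with h2 | h2
  · exact absurd h2 hz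
  · exact h2

theorem exists_stage {p : ℕ} {A₀ B₀ : ℤ} (hstep : ChainStep p) (h0 : ChainState p A₀ B₀)
    (k : ℕ) : ∃ A B : ℤ, Stage p A₀ B₀ k A B := by
  induction k with
  | zero => exact ⟨A₀, B₀, h0, fun ℓ _ _ => by simp⟩
  | succ k ih =>
    obtain ⟨A, B, hAB, hval⟩ := ih
    obtain ⟨A', B', hAB', hval'⟩ := hstep A B hAB
    refine ⟨A', B', hAB', ?_⟩
    intro ℓ hℓ hdvd
    have h1 := hval' ℓ hℓ hdvd
    have hpos : 0 < padicValInt ℓ (freyD A' B') :=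
      padicValInt_pos_of_dvd hℓ hAB'.1.freyD_ne_zero hdvd
    have hpos' : 0 < padicValInt ℓ (freyD A B) := by
      rw [h1] at hpos
      exact Nat.pos_of_mul_pos_left hpos
    rw [h1, hval ℓ hℓ (dvd_of_padicValInt_pos hpos'), pow_succ]
    ring

/-- the bound at the stage `k`. -/
theorem stage_bound {p : ℕ} (hp : Odd p) {A₀ B₀ : ℤ} (h0 : IsFreyPair A₀ B₀) {k : ℕ} {A B : ℤ}
    (hst : Stage p A₀ B₀ k A B) :
    (2 : ℤ) ^ (p ^ k) ≤ 2 * ((freyD A₀ B₀).natAbs : ℤ) := by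
  obtain ⟨⟨hF, -⟩, hval⟩ := hst
  have hM : Odd (p ^ k) := hp.pow
  have hd : (freyD A₀ B₀).natAbs ≠ 0 := Int.natAbs_ne_zero.mpr h0.freyD_ne_zero
  -- `|A|` is a `p ^ k`-th power
  obtain ⟨α, hα, hαd⟩ : ∃ α : ℕ, α ^ (p ^ k) = A.natAbs ∧ α ∣ (freyD A₀ B₀).natAbs := by
    apply exists_root_dvd (Int.natAbs_ne_zero.mpr hF.hA0) hd
    intro ℓ hℓ hℓA
    have hℓA' : (ℓ : ℤ) ∣ A := Int.natCast_dvd.mpr hℓA
    have hℓD : (ℓ : ℤ) ∣ freyD A B := Dvd.dvd.mul_right (Dvd.dvd.mul_right hℓA' _) _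
    have h1 := hval ℓ hℓ hℓD
    rw [hF.padicValInt_freyD_of_dvd_A hℓ hℓA'] at h1
    exact h1
  -- `|A + B|` is a `p ^ k`-th power
  obtain ⟨γ, hγ, hγd⟩ : ∃ γ : ℕ, γ ^ (p ^ k) = (A + B).natAbs ∧ γ ∣ (freyD A₀ B₀).natAbs := by
    apply exists_root_dvd (Int.natAbs_ne_zero.mpr hF.hC0) hd
    intro ℓ hℓ hℓC
    have hℓC' : (ℓ : ℤ) ∣ A + B := Int.natCast_dvd.mpr hℓC
    have hℓD : (ℓ : ℤ) ∣ freyD A B := Dvd.dvd.mul_left hℓC' _
    have h1 := hval ℓ hℓ hℓD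
    rw [hF.padicValInt_freyD_of_dvd_C hℓ hℓC'] at h1
    exact h1
  obtain ⟨a, ha, haα⟩ := exists_int_root hM hα
  obtain ⟨c, hc, hcγ⟩ := exists_int_root hM hγ
  have hodda : Odd a := by
    have h1 : Odd (a ^ (p ^ k)) := ha ▸ hF.odd_A
    exact (Int.odd_pow.mp h1).resolve_right hM.pos.ne'
  have hoddc : Odd c := by
    have h1 : Odd (c ^ (p ^ k)) := hc ▸ hF.odd_C
    exact (Int.odd_pow.mp h1).resolve_right hM.pos.ne'
  -- the `2`-part
  have h2 : (2 : ℤ) ^ (p ^ k) ∣ B := by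
    apply hF.two_pow_dvd_B
    have h3 := hval 2 Nat.prime_two (by exact_mod_cast hF.two_dvd_freyD)
    have h4 : 0 < padicValInt 2 (freyD A₀ B₀) :=
      padicValInt_pos_of_dvd Nat.prime_two h0.freyD_ne_zero (by exact_mod_cast h0.two_dvd_freyD)
    have h5 : p ^ k ≤ padicValInt 2 (freyD A B) := by
      rw [h3]
      exact Nat.le_mul_of_pos_right _ h4
    have h6 : ((2 : ℕ) : ℤ) ^ padicValInt 2 (freyD A B) ∣ freyD A B := padicValInt_dvd _
    exact (pow_dvd_pow (2 : ℤ) h5).trans (by exact_mod_cast h6)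
  have hB : B = c ^ (p ^ k) + (-1) * a ^ (p ^ k) ∨ B = -(c ^ (p ^ k) + (-1) * a ^ (p ^ k)) := by
    left
    rw [ha, hc]
    ring
  have hbound := Fermat.Agent.EX.two_pow_le_of_chain hodda hoddc hM (Or.inr rfl) hF.hB0 hB h2
  rw [haα, hcγ] at hbound
  have hα' : α ≤ (freyD A₀ B₀).natAbs := Nat.le_of_dvd (Nat.pos_of_ne_zero hd) hαd
  have hγ' : γ ≤ (freyD A₀ B₀).natAbs := Nat.le_of_dvd (Nat.pos_of_ne_zero hd) hγd
  have hα'' : (α : ℤ) ≤ ((freyD A₀ B₀).natAbs : ℤ) := by exact_mod_cast hα'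
  have hγ'' : (γ : ℤ) ≤ ((freyD A₀ B₀).natAbs : ℤ) := by exact_mod_cast hγ'
  linarith

/-- **(X')** the endgame of the chain: no chain step exists. -/
theorem noChain {p : ℕ} (hp2 : 2 ≤ p) (hp : Odd p) : NoChain p := by
  intro A₀ B₀ h0 hstep
  set d := (freyD A₀ B₀).natAbs with hd
  obtain ⟨A, B, hst⟩ := exists_stage hstep h0 (2 * d)
  have h1 := stage_bound hp h0.1 hst
  have h2 : 2 * d < p ^ (2 * d) := Nat.lt_pow_self hp2
  have h3 : p ^ (2 * d) < 2 ^ (p ^ (2 * d)) := Nat.lt_two_pow_self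
  have h4 : (2 * d : ℕ) < 2 ^ (p ^ (2 * d)) := h2.trans h3
  have h5 : ((2 * d : ℕ) : ℤ) < (2 : ℤ) ^ (p ^ (2 * d)) := by exact_mod_cast h4
  push_cast at h5
  linarith

end Fermat.Agent.ES12
end MergeWrap_E_S12_EndChain

section MergeWrap_E_S12_Assembly -- from E/S12/Assembly.lean

set_option autoImplicit false

open WeierstrassCurve WeierstrassCurve.Affine WeierstrassCurve.Affine.Point

namespace Fermat.Agent.ES12

/-- The Frey curve of a Frey package is the Frey-type curve of the pair `(a ^ p, b ^ p)`. -/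
theorem freyLike_eq_freyCurveInt (P : FreyPackage) :
    freyLike (P.a ^ P.p) (P.b ^ P.p) = P.freyCurveInt := by
  unfold freyLike FreyPackage.freyCurveInt
  congr 1
  rw [neg_mul]

/-- `(a ^ p, b ^ p)` is a Frey pair. -/
theorem isFreyPair_of_freyPackage (P : FreyPackage) : IsFreyPair (P.a ^ P.p) (P.b ^ P.p) where
  hA := Fermat.Agent.FreyLib.a_pow_emod_four P
  hB := Fermat.Agent.FreyLib.thirtytwo_dvd_b_pow P
  hcop := by
    have h := P.hgcdab
    have h1 : IsCoprime P.a P.b := by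
      rw [← gcd_isUnit_iff, h]
      exact isUnit_one
    exact IsCoprime.pow h1
  hA0 := pow_ne_zero _ P.ha0
  hB0 := pow_ne_zero _ P.hb0
  hC0 := by rw [P.hFLT]; exact pow_ne_zero _ P.hc0

/-- **(ASM)** S12 from Mazur's key step (S15) and the leaf statements of the chain. -/
theorem s12_of (hM : MazurStep) (P : FreyPackage) (hp : 17 ≤ P.p)
    (hQuot : QuotStatement P.p) (hDual : DualStatement P.p) (hL1 : L1Statement P.p)
    (hL2 : L2Statement P.p) (hG3 : G3Statement P.p) (hL2p : L2pStatement P.p)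
    (hL3 : L3Statement P.p) (hAdm : AdmStatement P.p) :
    ¬ HasGaloisStableCofixedLine (K := AlgebraicClosure ℚ) ℚ P.freyCurve P.p := by
  intro hcof
  have hstate : ChainState P.p (P.a ^ P.p) (P.b ^ P.p) := by
    refine ⟨isFreyPair_of_freyPackage P, ?_⟩
    unfold HasCofixedLine
    rw [freyLike_eq_freyCurveInt, Fermat.Agent.FreyLib.freyCurveInt_map]
    exact hcof
  have hodd : Odd P.p := P.pp.odd_of_ne_two (by omega)
  exact noChain (by omega) hodd _ _ hstate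
    (chainStep_of P.pp hp hM hQuot hDual hL1 hL2 hG3 hL2p hL3 hAdm)

end Fermat.Agent.ES12
end MergeWrap_E_S12_Assembly

section MergeWrap_E_S12_Final -- from E/S12/Final.lean

set_option autoImplicit false

open WeierstrassCurve WeierstrassCurve.Affine WeierstrassCurve.Affine.Point

namespace Fermat.Agent.ES12

/-- The chain step for a prime `p ≥ 17`, from Mazur's key step and the assemblies QUOT, DUAL. -/
theorem chainStep_of_quot_dual {p : ℕ} (hp : p.Prime) (hp17 : 17 ≤ p) (hM : MazurStep)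
    (hQuot : QuotStatement p) (hDual : DualStatement p) : ChainStep p :=
  chainStep_of hp hp17 hM hQuot hDual (l1Statement hp (by omega)) (l2Statement hp (by omega))
    (g3Statement hp (by omega)) (l2pStatement hp (by omega)) (l3Statement hp (by omega))
    (admStatement hp (by omega))

/-- **S12 from S15, QUOT and DUAL.** -/
theorem s12_of_quot_dual (hM : MazurStep) (P : FreyPackage) (hp : 17 ≤ P.p)
    (hQuot : QuotStatement P.p) (hDual : DualStatement P.p) :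
    ¬ HasGaloisStableCofixedLine (K := AlgebraicClosure ℚ) ℚ P.freyCurve P.p :=
  s12_of hM P hp hQuot hDual (l1Statement P.pp (by omega)) (l2Statement P.pp (by omega))
    (g3Statement P.pp (by omega)) (l2pStatement P.pp (by omega)) (l3Statement P.pp (by omega))
    (admStatement P.pp (by omega))

end Fermat.Agent.ES12
end MergeWrap_E_S12_Final

section MergeWrap_E_S12_Main -- from E/S12/Main.lean

set_option autoImplicit false

open WeierstrassCurve WeierstrassCurve.Affine WeierstrassCurve.Affine.Point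

namespace Fermat.Agent.ES12

open Fermat.Agent.EV

/-- **(V1x)** over `ℚ̄`, for every finite subgroup. -/
theorem veluXFormula_Qb (W : Affine (AlgebraicClosure ℚ)) (_ : W.Δ ≠ 0)
    (C : AddSubgroup W.Point) (hfin : (C : Set W.Point).Finite) (_ : Odd (Nat.card C)) :
    VeluXFormula W C :=
  Fermat.Agent.Velu.veluXFormula W C hfin two_ne_zero

/-- **(QUOT)**, unconditional. -/
theorem quotStatement_main {p : ℕ} (hp : p.Prime) (hp2 : p ≠ 2) : QuotStatement p :=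
  quotStatement hp hp2 Fermat.Agent.Velu.veluStatement veluXFormula_Qb

/-- **(DUAL)**, unconditional. -/
theorem dualStatement_main {p : ℕ} (hp : p.Prime) (hp2 : p ≠ 2) : DualStatement p :=
  Fermat.Agent.ED.dualStatement_of p hp hp2 Fermat.Agent.Velu.veluStatement veluXFormula_Qb

/-- The chain step for a prime `p ≥ 17`, from Mazur's key step. -/
theorem chainStep_of_mazurStep {p : ℕ} (hp : p.Prime) (hp17 : 17 ≤ p) (hM : MazurStep) :
    ChainStep p :=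
  chainStep_of_quot_dual hp hp17 hM (quotStatement_main hp (by omega))
    (dualStatement_main hp (by omega))

/-- **S12 from S15.** -/
theorem s12_of_mazurStep (hM : MazurStep) (P : FreyPackage) (hp : 17 ≤ P.p) :
    ¬ HasGaloisStableCofixedLine (K := AlgebraicClosure ℚ) ℚ P.freyCurve P.p :=
  s12_of_quot_dual hM P hp (quotStatement_main P.pp (by omega))
    (dualStatement_main P.pp (by omega))

end Fermat.Agent.ES12
end MergeWrap_E_S12_Main
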